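import Mathlib
import Fermat.Prelude.Def_ModularCurve_X0

/-!
# Laurent `q`-expansions of holomorphic periodic functions with a pole at `i∞` (P1 / AN-20)
-/

set_option autoImplicit false
set_option linter.unusedSectionVars false
set_option linter.unusedSimpArgs false
set_option linter.unusedVariables false

namespace Fermat.Agent.ES

open ModularForm Filter Topology Function Complex
open UpperHalfPlane hiding I
open scoped ModularForm Manifold Real MatrixGroups

local notation "Δ" => ModularForm.discriminant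
local notation "𝕢" => Periodic.qParam

/-! ### Nice functions: holomorphic, periodic, bounded at `i∞` -/

/-- holomorphic, `h`-periodic and bounded at `i∞` -/
structure IsNice (h : ℝ) (F : ℍ → ℂ) : Prop where
  mdiff : MDiff F
  periodic : ∀ z : ℍ, F (h +ᵥ z) = F z
  bdd : IsBoundedAtImInfty F

/-- periodicity on `ℍ` gives periodicity of `F ∘ ofComplex` -/
theorem periodic_comp_ofComplex_of {F : ℍ → ℂ} {h : ℝ} (hper : ∀ z : ℍ, F (h +ᵥ z) = F z) :
    Periodic (F ∘ ofComplex) h := by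
  intro w
  by_cases hw : 0 < w.im
  · have hw' : 0 < (w + h).im := by simpa using hw
    simp only [comp_apply, ofComplex_apply_of_im_pos hw', ofComplex_apply_of_im_pos hw]
    rw [← hper ⟨w, hw⟩]
    congr 1
    ext
    simp [add_comm]
  · have hw0 : w.im ≤ 0 := not_lt.mp hw
    have hw' : (w + h).im ≤ 0 := by simpa using hw0
    simp [ofComplex_apply_of_im_nonpos hw', ofComplex_apply_of_im_nonpos hw0]

namespace IsNice

variable {h : ℝ} {F G : ℍ → ℂ}

theorem periodic' (hF : IsNice h F) : Periodic (F ∘ ofComplex) h :=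
  periodic_comp_ofComplex_of hF.periodic

theorem analyticAt (hF : IsNice h F) (hh : 0 < h) : AnalyticAt ℂ (cuspFunction h F) 0 :=
  analyticAt_cuspFunction_zero hh hF.periodic' hF.mdiff hF.bdd

theorem mul (hF : IsNice h F) (hG : IsNice h G) : IsNice h (fun z => F z * G z) where
  mdiff := hF.mdiff.mul hG.mdiff
  periodic z := by rw [hF.periodic, hG.periodic]
  bdd := hF.bdd.mul hG.bdd

theorem add (hF : IsNice h F) (hG : IsNice h G) : IsNice h (fun z => F z + G z) where
  mdiff := hF.mdiff.add hG.mdiff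
  periodic z := by rw [hF.periodic, hG.periodic]
  bdd := hF.bdd.add hG.bdd

theorem neg (hF : IsNice h F) : IsNice h (fun z => -F z) where
  mdiff := hF.mdiff.neg
  periodic z := by rw [hF.periodic]
  bdd := hF.bdd.neg_left

theorem const (h : ℝ) (c : ℂ) : IsNice h (fun _ => c) where
  mdiff := mdifferentiable_const
  periodic _ := rfl
  bdd := Filter.const_boundedAtFilter _ c

theorem pow (hF : IsNice h F) (n : ℕ) : IsNice h (fun z => F z ^ n) := by
  induction n with
  | zero => simpa using IsNice.const h 1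
  | succ n ih => simpa [pow_succ] using ih.mul hF

theorem qExpansion_mul (hF : IsNice h F) (hG : IsNice h G) (hh : 0 < h) :
    qExpansion h (fun z => F z * G z) = qExpansion h F * qExpansion h G :=
  UpperHalfPlane.qExpansion_mul (hF.analyticAt hh) (hG.analyticAt hh)

theorem qExpansion_add (hF : IsNice h F) (hG : IsNice h G) (hh : 0 < h) :
    qExpansion h (fun z => F z + G z) = qExpansion h F + qExpansion h G :=
  UpperHalfPlane.qExpansion_add (hF.analyticAt hh) (hG.analyticAt hh)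

theorem qExpansion_neg (hF : IsNice h F) (hh : 0 < h) :
    qExpansion h (fun z => -F z) = -qExpansion h F :=
  UpperHalfPlane.qExpansion_neg (hF.analyticAt hh)

theorem qExpansion_pow (hF : IsNice h F) (hh : 0 < h) (n : ℕ) :
    qExpansion h (fun z => F z ^ n) = qExpansion h F ^ n := by
  induction n with
  | zero =>
    simp only [pow_zero]
    exact qExpansion_one h
  | succ n ih =>
    simp only [pow_succ]
    rw [(hF.pow n).qExpansion_mul hF hh, ih]

theorem qExpansion_const (h : ℝ) (c : ℂ) :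
    qExpansion h (fun _ : ℍ => c) = PowerSeries.C c := by
  have h1 : (fun _ : ℍ => c) = c • (1 : ℍ → ℂ) := by
    ext z
    simp
  have hone : AnalyticAt ℂ (cuspFunction h (1 : ℍ → ℂ)) 0 := by
    have h1 : cuspFunction h (1 : ℍ → ℂ) = 1 := by
      ext q
      rcases eq_or_ne q 0 with rfl | hq
      · simpa [cuspFunction, Periodic.cuspFunction] using! tendsto_const_nhds.limUnder_eq
      · simp [cuspFunction, Periodic.cuspFunction_eq_of_nonzero h _ hq]
    rw [h1]
    exact analyticAt_const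
  rw [h1, UpperHalfPlane.qExpansion_smul hone, qExpansion_one]
  ext n
  simp [PowerSeries.coeff_C, PowerSeries.coeff_one]

theorem qExpansion_eq_zero_iff (hF : IsNice h F) (hh : 0 < h) :
    qExpansion h F = 0 ↔ F = 0 :=
  UpperHalfPlane.qExpansion_eq_zero_iff hh hF.periodic' hF.mdiff hF.bdd

theorem hasSum (hF : IsNice h F) (hh : 0 < h) (τ : ℍ) :
    HasSum (fun m : ℕ ↦ (qExpansion h F).coeff m • 𝕢 h τ ^ m) (F τ) :=
  hasSum_qExpansion hh hF.periodic' hF.mdiff hF.bdd τ

end IsNice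

/-- uniqueness of `q`-expansion coefficients, for plain functions -/
theorem qExpansion_coeff_unique' {h : ℝ} {f : ℍ → ℂ} {c : ℕ → ℂ} (hh : 0 < h)
    (hfanalytic : AnalyticAt ℂ (cuspFunction h f) 0)
    (hf : ∀ τ : ℍ, HasSum (fun m ↦ c m • 𝕢 h τ ^ m) (f τ)) (m : ℕ) :
    c m = (qExpansion h f).coeff m := by
  have h1 := (hasFPowerSeriesOnBall_cuspFunction hh hfanalytic hf).hasFPowerSeriesAt
  have h2 : HasFPowerSeriesAt (cuspFunction h f)
      (.ofScalars ℂ fun m ↦ (qExpansion h f).coeff m) 0 := by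
    simpa [qExpansion_coeff, div_eq_mul_inv, mul_comm] using hfanalytic.hasFPowerSeriesAt
  have := h1.eq_formalMultilinearSeries h2
  simpa [FormalMultilinearSeries.coeff_ofScalars] using
    congr_arg (FormalMultilinearSeries.coeff · m) this

/-! ### The parameter `q_h` as a function on `ℍ` -/

/-- the function `q_h = exp(2πiz/h)` on `ℍ` -/
noncomputable def qH (h : ℝ) (z : ℍ) : ℂ := 𝕢 h z

theorem qH_ne_zero (h : ℝ) (z : ℍ) : qH h z ≠ 0 := Periodic.qParam_ne_zero _

theorem qH_vadd (h : ℝ) (t : ℝ) (z : ℍ) :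
    qH h (t +ᵥ z) = Complex.exp (2 * π * I * t / h) * qH h z := by
  simp only [qH, Periodic.qParam, coe_vadd]
  rw [← Complex.exp_add]
  congr 1
  ring

theorem norm_qH_lt_one {h : ℝ} (hh : 0 < h) (z : ℍ) : ‖qH h z‖ < 1 :=
  Periodic.norm_qParam_lt_one hh z.im_pos

theorem isNice_qH {h : ℝ} (hh : 0 < h) : IsNice h (qH h) where
  mdiff := by
    rw [mdifferentiable_iff]
    refine (Periodic.differentiable_qParam (h := h)).differentiableOn.congr ?_
    intro z hz
    simp [qH, ofComplex_apply_of_im_pos hz]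
  periodic z := by
    rw [qH_vadd]
    have hc : (h : ℂ) ≠ 0 := by exact_mod_cast hh.ne'
    have : (2 * π * I * (h : ℂ) / h) = 2 * π * I := by
      field_simp
    rw [this, Complex.exp_two_pi_mul_I, one_mul]
  bdd := by
    rw [isBoundedAtImInfty_iff]
    exact ⟨1, 0, fun z _ => (norm_qH_lt_one hh z).le⟩

theorem qExpansion_qH {h : ℝ} (hh : 0 < h) : qExpansion h (qH h) = PowerSeries.X := by
  ext n
  have hsum : ∀ τ : ℍ, HasSum (fun m : ℕ ↦ (if m = 1 then (1 : ℂ) else 0) • 𝕢 h τ ^ m)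
      (qH h τ) := by
    intro τ
    have := hasSum_single (f := fun m : ℕ ↦ (if m = 1 then (1 : ℂ) else 0) • 𝕢 h τ ^ m) 1
      (fun m hm => by simp [hm])
    simpa [qH] using this
  have := qExpansion_coeff_unique' hh ((isNice_qH hh).analyticAt hh) hsum n
  rw [← this, PowerSeries.coeff_X]

/-! ### The discriminant -/

theorem discriminant_vadd_nat (h : ℕ) (z : ℍ) : Δ ((h : ℝ) +ᵥ z) = Δ z := by
  have hmem : (h : ℝ) ∈ (𝒮ℒ).strictPeriods := by
    simp only [Subgroup.strictPeriods_SL2Z, AddSubgroup.mem_zmultiples_iff]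
    exact ⟨h, by simp⟩
  exact SlashInvariantForm.vAdd_apply_of_mem_strictPeriods CuspForm.discriminant z hmem

theorem isNice_discriminant (h : ℕ) : IsNice (h : ℝ) (Δ : ℍ → ℂ) where
  mdiff := CuspForm.discriminant.holo'
  periodic := discriminant_vadd_nat h
  bdd := discriminant_isZeroAtImInfty.isBoundedAtImInfty

/-! ### Comparison of `Δ` and `q` -/

theorem qH_one_eq_pow (h : ℕ) [NeZero h] (z : ℍ) : qH 1 z = qH h z ^ h := by
  have hc : (h : ℂ) ≠ 0 := by exact_mod_cast NeZero.ne h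
  simp only [qH, Periodic.qParam]
  rw [← Complex.exp_nat_mul]
  congr 1
  push_cast
  field_simp

theorem qH_one_vadd_nat (h : ℕ) (z : ℍ) : qH 1 ((h : ℝ) +ᵥ z) = qH 1 z := by
  rw [qH_vadd]
  have : (2 * π * I * ((h : ℝ) : ℂ) / ((1 : ℝ) : ℂ)) = h * (2 * π * I) := by
    push_cast
    ring
  rw [this, Complex.exp_nat_mul_two_pi_mul_I, one_mul]

theorem mdiff_qH {h : ℝ} : MDiff (qH h) := by
  rw [mdifferentiable_iff]
  refine (Periodic.differentiable_qParam (h := h)).differentiableOn.congr ?_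
  intro z hz
  simp [qH, ofComplex_apply_of_im_pos hz]

theorem discriminant_eq_qH_mul (z : ℍ) :
    Δ z = qH 1 z * ∏' n, (1 - eta_q n z) ^ 24 := discriminant_eq_q_prod z

theorem tendsto_discriminant_div_qH :
    Tendsto (fun z : ℍ => Δ z / qH 1 z) atImInfty (𝓝 1) := by
  refine tendsto_atImInfty_tprod_one_sub_eta_q_pow.congr ?_
  intro z
  rw [discriminant_eq_qH_mul, mul_div_cancel_left₀ _ (qH_ne_zero 1 z)]

/-- `Δ / q` is nice. -/
theorem isNice_discriminant_div_qH (h : ℕ) : IsNice (h : ℝ) (fun z => Δ z / qH 1 z) where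
  mdiff := (CuspForm.discriminant.holo').div mdiff_qH (qH_ne_zero 1)
  periodic z := by rw [discriminant_vadd_nat, qH_one_vadd_nat]
  bdd := tendsto_discriminant_div_qH.isBigO_one ℝ

/-- `q / Δ` is nice. -/
theorem isNice_qH_div_discriminant (h : ℕ) : IsNice (h : ℝ) (fun z => qH 1 z / Δ z) where
  mdiff := mdiff_qH.div (CuspForm.discriminant.holo') discriminant_ne_zero
  periodic z := by rw [discriminant_vadd_nat, qH_one_vadd_nat]
  bdd := by
    have : Tendsto (fun z : ℍ => qH 1 z / Δ z) atImInfty (𝓝 1) := by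
      have := tendsto_discriminant_div_qH.inv₀ one_ne_zero
      simp only [inv_one] at this
      refine this.congr ?_
      intro z
      rw [inv_div]
    exact this.isBigO_one ℝ

/-! ### Meromorphy at `i∞` -/

/-- meromorphic at `i∞`: some power of `Δ` kills the pole -/
def IsMeroAtImInfty (g : ℍ → ℂ) : Prop :=
  ∃ m : ℕ, IsBoundedAtImInfty (fun z => g z * Δ z ^ m)

theorem isBoundedAtImInfty_congr {f g : ℍ → ℂ} (hf : IsBoundedAtImInfty f)
    (hfg : ∀ z, f z = g z) : IsBoundedAtImInfty g := by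
  have : f = g := funext hfg
  rwa [← this]

theorem isBoundedAtImInfty_qH_pow {h : ℝ} (hh : 0 < h) (k : ℕ) :
    IsBoundedAtImInfty (fun z => qH h z ^ k) := ((isNice_qH hh).pow k).bdd

theorem isMeroAtImInfty_iff (h : ℕ) [NeZero h] {g : ℍ → ℂ} :
    IsMeroAtImInfty g ↔ ∃ k : ℕ, IsBoundedAtImInfty (fun z => g z * qH h z ^ k) := by
  have hh : (0 : ℝ) < h := by exact_mod_cast Nat.pos_of_ne_zero (NeZero.ne h)
  constructor
  · rintro ⟨m, hm⟩
    refine ⟨h * m, ?_⟩
    have := hm.mul ((isNice_qH_div_discriminant h).pow m).bdd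
    refine isBoundedAtImInfty_congr this (fun z => ?_)
    simp only [Pi.mul_apply]
    rw [div_pow, pow_mul, ← qH_one_eq_pow]
    have := discriminant_ne_zero z
    field_simp
  · rintro ⟨k, hk⟩
    refine ⟨k, ?_⟩
    have h1 := (hk.mul (isBoundedAtImInfty_qH_pow hh ((h - 1) * k))).mul
      ((isNice_discriminant_div_qH h).pow k).bdd
    refine isBoundedAtImInfty_congr h1 (fun z => ?_)
    simp only [Pi.mul_apply]
    have hq : qH (1 : ℝ) z = qH h z ^ h := qH_one_eq_pow h z
    have hΔ : Δ z = qH h z ^ h * (Δ z / qH 1 z) := by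
      rw [← hq, mul_div_cancel₀ _ (qH_ne_zero 1 z)]
    have hpow : qH h z ^ h = qH h z ^ (h - 1) * qH h z := by
      rw [← pow_succ, Nat.sub_add_cancel (Nat.pos_of_ne_zero (NeZero.ne h))]
    generalize Δ z / qH 1 z = P at hΔ ⊢
    rw [hΔ, mul_pow, hpow, mul_pow, ← pow_mul]
    ring

/-- the hypotheses under which `qLaurent h g` is meaningful -/
structure IsQLaurentable (h : ℕ) (g : ℍ → ℂ) : Prop where
  mdiff : MDiff g
  periodic : ∀ z : ℍ, g ((h : ℝ) +ᵥ z) = g z
  mero : IsMeroAtImInfty g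

open Classical in
/-- The Laurent expansion of `g` in `q_h = exp(2πiz/h)` (junk unless `IsQLaurentable h g`). -/
noncomputable def qLaurent (h : ℕ) (g : ℍ → ℂ) : LaurentSeries ℂ :=
  if hg : ∃ k : ℕ, IsBoundedAtImInfty (fun z => g z * qH h z ^ k) then
    HahnSeries.ofPowerSeries ℤ ℂ (qExpansion h (fun z => g z * qH h z ^ (Nat.find hg))) *
      HahnSeries.single (-(Nat.find hg : ℤ)) 1
  else 0

section

variable {h : ℕ} [NeZero h] {g g₁ g₂ : ℍ → ℂ}

theorem pos_of_neZero (h : ℕ) [NeZero h] : (0 : ℝ) < h := by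
  exact_mod_cast Nat.pos_of_ne_zero (NeZero.ne h)

theorem IsQLaurentable.exists_bdd (hg : IsQLaurentable h g) :
    ∃ k : ℕ, IsBoundedAtImInfty (fun z => g z * qH h z ^ k) :=
  (isMeroAtImInfty_iff h).mp hg.mero

theorem IsQLaurentable.isNice (hg : IsQLaurentable h g) {k : ℕ}
    (hk : IsBoundedAtImInfty (fun z => g z * qH h z ^ k)) :
    IsNice (h : ℝ) (fun z => g z * qH h z ^ k) where
  mdiff := hg.mdiff.mul (mdiff_qH.pow k)
  periodic z := by rw [hg.periodic, (isNice_qH (pos_of_neZero h)).periodic]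
  bdd := hk

/-- multiplying by `X ^ K` is injective on Laurent series -/
theorem mul_single_cancel {L₁ L₂ : LaurentSeries ℂ} (K : ℤ)
    (hL : L₁ * HahnSeries.single K (1 : ℂ) = L₂ * HahnSeries.single K 1) : L₁ = L₂ := by
  have h1 : HahnSeries.single K (1 : ℂ) * HahnSeries.single (-K) 1 = 1 := by
    rw [HahnSeries.single_mul_single]
    simp
  calc L₁ = L₁ * HahnSeries.single K (1 : ℂ) * HahnSeries.single (-K) 1 := by
        rw [mul_assoc, h1, mul_one]
    _ = L₂ * HahnSeries.single K (1 : ℂ) * HahnSeries.single (-K) 1 := by rw [hL]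
    _ = L₂ := by rw [mul_assoc, h1, mul_one]

/-- **Key characterisation**: for every `k` killing the pole,
`qLaurent h g * X ^ k` is the `q`-expansion of `g q^k`. -/
theorem qLaurent_mul_single (hg : IsQLaurentable h g) {k : ℕ}
    (hk : IsBoundedAtImInfty (fun z => g z * qH h z ^ k)) :
    qLaurent h g * HahnSeries.single (k : ℤ) 1 =
      HahnSeries.ofPowerSeries ℤ ℂ (qExpansion h (fun z => g z * qH h z ^ k)) := by
  classical
  have hh := pos_of_neZero h
  have hex := hg.exists_bdd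
  unfold qLaurent
  rw [dif_pos hex]
  set k₀ := Nat.find hex with hk₀
  have hk₀b : IsBoundedAtImInfty (fun z => g z * qH h z ^ k₀) := Nat.find_spec hex
  have hle : k₀ ≤ k := Nat.find_min' hex hk
  obtain ⟨d, rfl⟩ := Nat.exists_eq_add_of_le hle
  have hfun : (fun z => g z * qH h z ^ (k₀ + d)) =
      fun z => (g z * qH h z ^ k₀) * qH h z ^ d := by
    ext z
    rw [pow_add, mul_assoc]
  have e1 : HahnSeries.single (-(k₀ : ℤ)) (1 : ℂ) * HahnSeries.single ((k₀ + d : ℕ) : ℤ) 1 =
      HahnSeries.single (d : ℤ) 1 := by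
    rw [HahnSeries.single_mul_single, mul_one,
      show (-(k₀ : ℤ) + ((k₀ + d : ℕ) : ℤ)) = (d : ℤ) by push_cast; omega]
  rw [hfun, (hg.isNice hk₀b).qExpansion_mul ((isNice_qH hh).pow d) hh,
    (isNice_qH hh).qExpansion_pow hh, qExpansion_qH hh, map_mul,
    HahnSeries.ofPowerSeries_X_pow, mul_assoc, e1]

theorem qLaurent_eq_of_mul_single (hg : IsQLaurentable h g) {k : ℕ}
    (hk : IsBoundedAtImInfty (fun z => g z * qH h z ^ k)) {L : LaurentSeries ℂ}
    (hL : L * HahnSeries.single (k : ℤ) 1 =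
      HahnSeries.ofPowerSeries ℤ ℂ (qExpansion h (fun z => g z * qH h z ^ k))) :
    qLaurent h g = L :=
  mul_single_cancel k ((qLaurent_mul_single hg hk).trans hL.symm)

theorem IsNice.qExpansion_mul_qH_pow {F : ℍ → ℂ} (hF : IsNice (h : ℝ) F) (d : ℕ) :
    qExpansion h (fun z => F z * qH h z ^ d) = qExpansion h F * PowerSeries.X ^ d := by
  have hh := pos_of_neZero h
  rw [hF.qExpansion_mul ((isNice_qH hh).pow d) hh, (isNice_qH hh).qExpansion_pow hh,
    qExpansion_qH hh]

theorem single_natCast_add (k₁ k₂ : ℕ) :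
    HahnSeries.single ((k₁ + k₂ : ℕ) : ℤ) (1 : ℂ) =
      HahnSeries.single (k₁ : ℤ) 1 * HahnSeries.single (k₂ : ℤ) 1 := by
  rw [HahnSeries.single_mul_single, mul_one]
  push_cast
  rfl

/-! ### Closure properties -/

theorem isBoundedAtImInfty_discriminant_pow (m : ℕ) :
    IsBoundedAtImInfty (fun z : ℍ => Δ z ^ m) := ((isNice_discriminant 1).pow m).bdd

theorem IsMeroAtImInfty.add (h₁ : IsMeroAtImInfty g₁) (h₂ : IsMeroAtImInfty g₂) :
    IsMeroAtImInfty (fun z => g₁ z + g₂ z) := by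
  obtain ⟨m₁, hm₁⟩ := h₁
  obtain ⟨m₂, hm₂⟩ := h₂
  refine ⟨m₁ + m₂, ?_⟩
  have := (hm₁.mul (isBoundedAtImInfty_discriminant_pow m₂)).add
    (hm₂.mul (isBoundedAtImInfty_discriminant_pow m₁))
  refine isBoundedAtImInfty_congr this (fun z => ?_)
  simp only [Pi.add_apply, Pi.mul_apply]
  ring

theorem IsMeroAtImInfty.mul (h₁ : IsMeroAtImInfty g₁) (h₂ : IsMeroAtImInfty g₂) :
    IsMeroAtImInfty (fun z => g₁ z * g₂ z) := by
  obtain ⟨m₁, hm₁⟩ := h₁
  obtain ⟨m₂, hm₂⟩ := h₂
  refine ⟨m₁ + m₂, ?_⟩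
  refine isBoundedAtImInfty_congr (hm₁.mul hm₂) (fun z => ?_)
  simp only [Pi.mul_apply]
  ring

theorem IsMeroAtImInfty.neg (h₁ : IsMeroAtImInfty g) : IsMeroAtImInfty (fun z => -g z) := by
  obtain ⟨m, hm⟩ := h₁
  refine ⟨m, ?_⟩
  refine isBoundedAtImInfty_congr hm.neg_left (fun z => ?_)
  simp only [Pi.neg_apply]
  ring

theorem IsMeroAtImInfty.of_bounded (hb : IsBoundedAtImInfty g) : IsMeroAtImInfty g :=
  ⟨0, by simpa using hb⟩

theorem IsMeroAtImInfty.const (c : ℂ) : IsMeroAtImInfty (fun _ => c) :=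
  IsMeroAtImInfty.of_bounded (Filter.const_boundedAtFilter _ c)

theorem IsQLaurentable.add (hg₁ : IsQLaurentable h g₁) (hg₂ : IsQLaurentable h g₂) :
    IsQLaurentable h (fun z => g₁ z + g₂ z) where
  mdiff := hg₁.mdiff.add hg₂.mdiff
  periodic z := by rw [hg₁.periodic, hg₂.periodic]
  mero := hg₁.mero.add hg₂.mero

theorem IsQLaurentable.mul (hg₁ : IsQLaurentable h g₁) (hg₂ : IsQLaurentable h g₂) :
    IsQLaurentable h (fun z => g₁ z * g₂ z) where
  mdiff := hg₁.mdiff.mul hg₂.mdiff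
  periodic z := by rw [hg₁.periodic, hg₂.periodic]
  mero := hg₁.mero.mul hg₂.mero

theorem IsQLaurentable.neg (hg : IsQLaurentable h g) : IsQLaurentable h (fun z => -g z) where
  mdiff := hg.mdiff.neg
  periodic z := by rw [hg.periodic]
  mero := hg.mero.neg

theorem IsQLaurentable.sub (hg₁ : IsQLaurentable h g₁) (hg₂ : IsQLaurentable h g₂) :
    IsQLaurentable h (fun z => g₁ z - g₂ z) := by
  simpa [sub_eq_add_neg] using hg₁.add hg₂.neg

theorem IsQLaurentable.const (h : ℕ) (c : ℂ) : IsQLaurentable h (fun _ => c) where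
  mdiff := mdifferentiable_const
  periodic _ := rfl
  mero := IsMeroAtImInfty.const c

theorem IsQLaurentable.pow (hg : IsQLaurentable h g) (n : ℕ) :
    IsQLaurentable h (fun z => g z ^ n) := by
  induction n with
  | zero => simpa using IsQLaurentable.const h 1
  | succ n ih => simpa [pow_succ] using ih.mul hg

theorem IsNice.isQLaurentable {F : ℍ → ℂ} (hF : IsNice (h : ℝ) F) : IsQLaurentable h F where
  mdiff := hF.mdiff
  periodic := hF.periodic
  mero := IsMeroAtImInfty.of_bounded hF.bdd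

/-! ### Ring homomorphism properties -/

theorem qLaurent_of_nice {F : ℍ → ℂ} (hF : IsNice (h : ℝ) F) :
    qLaurent h F = HahnSeries.ofPowerSeries ℤ ℂ (qExpansion h F) := by
  have hb : IsBoundedAtImInfty (fun z => F z * qH h z ^ 0) := by simpa using hF.bdd
  refine qLaurent_eq_of_mul_single hF.isQLaurentable hb ?_
  simp

theorem qLaurent_of_bounded (hg : IsQLaurentable h g) (hb : IsBoundedAtImInfty g) :
    qLaurent h g = HahnSeries.ofPowerSeries ℤ ℂ (qExpansion h g) :=
  qLaurent_of_nice ⟨hg.mdiff, hg.periodic, hb⟩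

theorem qLaurent_const (c : ℂ) : qLaurent h (fun _ => c) = HahnSeries.C c := by
  rw [qLaurent_of_nice (IsNice.const h c), IsNice.qExpansion_const, HahnSeries.ofPowerSeries_C]

theorem qLaurent_add (hg₁ : IsQLaurentable h g₁) (hg₂ : IsQLaurentable h g₂) :
    qLaurent h (fun z => g₁ z + g₂ z) = qLaurent h g₁ + qLaurent h g₂ := by
  have hh := pos_of_neZero h
  obtain ⟨k₁, hk₁⟩ := hg₁.exists_bdd
  obtain ⟨k₂, hk₂⟩ := hg₂.exists_bdd
  have N₁ := hg₁.isNice hk₁
  have N₂ := hg₂.isNice hk₂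
  have hfun : (fun z => (g₁ z + g₂ z) * qH h z ^ (k₁ + k₂)) =
      fun z => (g₁ z * qH h z ^ k₁) * qH h z ^ k₂ + (g₂ z * qH h z ^ k₂) * qH h z ^ k₁ := by
    ext z
    ring
  have Nq := fun k => (isNice_qH hh).pow k
  have hsum : IsBoundedAtImInfty (fun z => (g₁ z + g₂ z) * qH h z ^ (k₁ + k₂)) := by
    rw [hfun]
    exact ((N₁.mul (Nq k₂)).add (N₂.mul (Nq k₁))).bdd
  refine qLaurent_eq_of_mul_single (hg₁.add hg₂) hsum ?_
  rw [hfun, (N₁.mul (Nq k₂)).qExpansion_add (N₂.mul (Nq k₁)) hh, N₁.qExpansion_mul_qH_pow,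
    N₂.qExpansion_mul_qH_pow, map_add, map_mul, map_mul, HahnSeries.ofPowerSeries_X_pow,
    HahnSeries.ofPowerSeries_X_pow, ← qLaurent_mul_single hg₁ hk₁, ← qLaurent_mul_single hg₂ hk₂,
    single_natCast_add, add_mul]
  ring

theorem qLaurent_mul (hg₁ : IsQLaurentable h g₁) (hg₂ : IsQLaurentable h g₂) :
    qLaurent h (fun z => g₁ z * g₂ z) = qLaurent h g₁ * qLaurent h g₂ := by
  have hh := pos_of_neZero h
  obtain ⟨k₁, hk₁⟩ := hg₁.exists_bdd
  obtain ⟨k₂, hk₂⟩ := hg₂.exists_bdd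
  have N₁ := hg₁.isNice hk₁
  have N₂ := hg₂.isNice hk₂
  have hfun : (fun z => (g₁ z * g₂ z) * qH h z ^ (k₁ + k₂)) =
      fun z => (g₁ z * qH h z ^ k₁) * (g₂ z * qH h z ^ k₂) := by
    ext z
    ring
  have hprod : IsBoundedAtImInfty (fun z => (g₁ z * g₂ z) * qH h z ^ (k₁ + k₂)) := by
    rw [hfun]
    exact (N₁.mul N₂).bdd
  refine qLaurent_eq_of_mul_single (hg₁.mul hg₂) hprod ?_
  rw [hfun, N₁.qExpansion_mul N₂ hh, map_mul, ← qLaurent_mul_single hg₁ hk₁,
    ← qLaurent_mul_single hg₂ hk₂, single_natCast_add]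
  ring

theorem qLaurent_neg (hg : IsQLaurentable h g) :
    qLaurent h (fun z => -g z) = -qLaurent h g := by
  have hh := pos_of_neZero h
  obtain ⟨k, hk⟩ := hg.exists_bdd
  have N := hg.isNice hk
  have hfun : (fun z => (-g z) * qH h z ^ k) = fun z => -(g z * qH h z ^ k) := by
    ext z
    ring
  have hb : IsBoundedAtImInfty (fun z => (-g z) * qH h z ^ k) := by
    rw [hfun]
    exact N.neg.bdd
  refine qLaurent_eq_of_mul_single hg.neg hb ?_
  rw [hfun, N.qExpansion_neg hh, map_neg, ← qLaurent_mul_single hg hk]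
  ring

theorem qLaurent_sub (hg₁ : IsQLaurentable h g₁) (hg₂ : IsQLaurentable h g₂) :
    qLaurent h (fun z => g₁ z - g₂ z) = qLaurent h g₁ - qLaurent h g₂ := by
  have : (fun z => g₁ z - g₂ z) = fun z => g₁ z + -g₂ z := by
    ext z
    ring
  rw [this, qLaurent_add hg₁ hg₂.neg, qLaurent_neg hg₂, sub_eq_add_neg]

theorem qLaurent_pow (hg : IsQLaurentable h g) (n : ℕ) :
    qLaurent h (fun z => g z ^ n) = qLaurent h g ^ n := by
  induction n with
  | zero =>
    simp only [pow_zero]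
    rw [qLaurent_const]
    rfl
  | succ n ih =>
    simp only [pow_succ]
    rw [qLaurent_mul (hg.pow n) hg, ih]

theorem qLaurent_eq_zero_iff (hg : IsQLaurentable h g) : qLaurent h g = 0 ↔ g = 0 := by
  have hh := pos_of_neZero h
  obtain ⟨k, hk⟩ := hg.exists_bdd
  have N := hg.isNice hk
  constructor
  · intro h0
    have h1 := qLaurent_mul_single hg hk
    rw [h0, zero_mul] at h1
    have h2 : qExpansion h (fun z => g z * qH h z ^ k) = 0 :=
      HahnSeries.ofPowerSeries_injective (by rw [← h1, map_zero])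
    have h3 := (N.qExpansion_eq_zero_iff hh).mp h2
    ext z
    have := congr_fun h3 z
    simp only [Pi.zero_apply, mul_eq_zero] at this
    exact this.resolve_right (pow_ne_zero k (qH_ne_zero h z))
  · rintro rfl
    have : (0 : ℍ → ℂ) = fun _ => (0 : ℂ) := rfl
    rw [this, qLaurent_const]
    simp

/-! ### Coefficients and `HasSum` characterisation -/

/-- coefficients of `ofPowerSeries` at integer indices -/
theorem ofPowerSeries_coeff_int (P : PowerSeries ℂ) (m : ℤ) :
    (HahnSeries.ofPowerSeries ℤ ℂ P).coeff m = if 0 ≤ m then P.coeff m.toNat else 0 := by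
  split_ifs with hm
  · obtain ⟨n, rfl⟩ := Int.eq_ofNat_of_zero_le hm
    rw [Int.toNat_natCast]
    exact HahnSeries.ofPowerSeries_apply_coeff P n
  · rw [HahnSeries.ofPowerSeries_apply]
    refine HahnSeries.embDomain_of_notMem_range ?_
    rintro ⟨n, hn⟩
    apply hm
    rw [← hn]
    exact Int.natCast_nonneg n

theorem qLaurent_coeff (hg : IsQLaurentable h g) {k : ℕ}
    (hk : IsBoundedAtImInfty (fun z => g z * qH h z ^ k)) (m : ℤ) :
    (qLaurent h g).coeff m =
      if 0 ≤ m + k then (qExpansion h (fun z => g z * qH h z ^ k)).coeff (m + k).toNat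
      else 0 := by
  have h1 := qLaurent_mul_single hg hk
  have h2 : (qLaurent h g * HahnSeries.single (k : ℤ) (1 : ℂ)).coeff (m + k) =
      (qLaurent h g).coeff m * 1 := HahnSeries.coeff_mul_single_add
  rw [mul_one] at h2
  rw [← h2, h1, ofPowerSeries_coeff_int]

theorem qLaurent_coeff_natCast_sub (hg : IsQLaurentable h g) {k : ℕ}
    (hk : IsBoundedAtImInfty (fun z => g z * qH h z ^ k)) (n : ℕ) :
    (qLaurent h g).coeff ((n : ℤ) - k) =
      (qExpansion h (fun z => g z * qH h z ^ k)).coeff n := by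
  rw [qLaurent_coeff hg hk]
  have : ((n : ℤ) - k + k) = n := by ring
  rw [this, if_pos (Int.natCast_nonneg n), Int.toNat_natCast]

theorem qLaurent_coeff_eq_zero_of_lt (hg : IsQLaurentable h g) {k : ℕ}
    (hk : IsBoundedAtImInfty (fun z => g z * qH h z ^ k)) {m : ℤ} (hm : m + k < 0) :
    (qLaurent h g).coeff m = 0 := by
  rw [qLaurent_coeff hg hk, if_neg (not_le.mpr hm)]

/-- the Laurent expansion converges to the function -/
theorem hasSum_qLaurent (hg : IsQLaurentable h g) {k : ℕ}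
    (hk : IsBoundedAtImInfty (fun z => g z * qH h z ^ k)) (z : ℍ) :
    HasSum (fun n : ℕ => (qLaurent h g).coeff ((n : ℤ) - k) • 𝕢 h z ^ n)
      (g z * qH h z ^ k) := by
  have := (hg.isNice hk).hasSum (pos_of_neZero h) z
  simpa only [qLaurent_coeff_natCast_sub hg hk] using this

theorem isQLaurentable_of_hasSum (hmd : MDiff g) (hper : ∀ z : ℍ, g ((h : ℝ) +ᵥ z) = g z)
    (k : ℕ) (a : ℕ → ℂ)
    (hsum : ∀ z : ℍ, HasSum (fun n : ℕ => a n • 𝕢 h z ^ n) (g z * qH h z ^ k)) :
    IsQLaurentable h g where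
  mdiff := hmd
  periodic := hper
  mero := (isMeroAtImInfty_iff h).mpr
    ⟨k, isBoundedAtImInfty_of_hasSum_qExpansion (pos_of_neZero h) hsum⟩

/-- uniqueness of Laurent coefficients -/
theorem qLaurent_coeff_of_hasSum (hmd : MDiff g) (hper : ∀ z : ℍ, g ((h : ℝ) +ᵥ z) = g z)
    (k : ℕ) (a : ℕ → ℂ)
    (hsum : ∀ z : ℍ, HasSum (fun n : ℕ => a n • 𝕢 h z ^ n) (g z * qH h z ^ k)) (m : ℤ) :
    (qLaurent h g).coeff m = if 0 ≤ m + k then a (m + k).toNat else 0 := by
  have hh := pos_of_neZero h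
  have hg := isQLaurentable_of_hasSum hmd hper k a hsum
  have hk : IsBoundedAtImInfty (fun z => g z * qH h z ^ k) :=
    isBoundedAtImInfty_of_hasSum_qExpansion hh hsum
  rw [qLaurent_coeff hg hk]
  split_ifs with hm
  · exact (qExpansion_coeff_unique' hh ((hg.isNice hk).analyticAt hh) hsum _).symm
  · rfl

end

/-! ### Composition with `z ↦ (a z + b) / d` -/

section comp

variable {h₁ h₂ : ℕ} [NeZero h₁] [NeZero h₂] {g : ℍ → ℂ}

/-- If `q_{h₁}(s z) = ζ q_{h₂}(z)^e` then the Laurent expansion of `g ∘ s` in `q_{h₂}` is obtained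
from that of `g` in `q_{h₁}` by `q ↦ ζ q^e`. -/
theorem qLaurent_comp (hg : IsQLaurentable h₁ g) (s : ℍ → ℍ)
    (hmd : MDiff (fun z => g (s z))) {ζ : ℂ} (hζ : ζ ≠ 0) {e : ℕ} (he : 0 < e)
    (hs : ∀ z, qH h₁ (s z) = ζ * qH h₂ z ^ e) :
    IsQLaurentable h₂ (fun z => g (s z)) ∧
    ∀ m : ℤ, (qLaurent h₂ (fun z => g (s z))).coeff m =
      if (e : ℤ) ∣ m then ζ ^ (m / e) * (qLaurent h₁ g).coeff (m / e) else 0 := by
  have hh₁ := pos_of_neZero h₁
  have hh₂ := pos_of_neZero h₂
  obtain ⟨k, hk⟩ := hg.exists_bdd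
  -- periodicity
  have hper : ∀ z : ℍ, g (s ((h₂ : ℝ) +ᵥ z)) = g (s z) := by
    intro z
    have hgper := periodic_comp_ofComplex_of hg.periodic
    have e1 := eq_cuspFunction (s ((h₂ : ℝ) +ᵥ z)) hh₁.ne' hgper
    have e2 := eq_cuspFunction (s z) hh₁.ne' hgper
    rw [← e1, ← e2]
    congr 1
    have := hs ((h₂ : ℝ) +ᵥ z)
    rw [(isNice_qH hh₂).periodic, ← hs z] at this
    exact this
  -- the coefficients of the new expansion
  obtain ⟨a', ha'⟩ : ∃ a' : ℕ → ℂ, ∀ M, a' M =
      if e ∣ M then (qLaurent h₁ g).coeff (((M / e : ℕ) : ℤ) - k) * ζ ^ (((M / e : ℕ) : ℤ) - k) else 0 :=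
    ⟨_, fun _ => rfl⟩
  have hsum : ∀ z : ℍ, HasSum (fun M : ℕ => a' M • 𝕢 h₂ z ^ M)
      (g (s z) * qH h₂ z ^ (e * k)) := by
    intro z
    have h0 := hasSum_qLaurent hg hk (s z)
    have hq : 𝕢 h₁ (s z) = ζ * 𝕢 h₂ z ^ e := hs z
    have h1 : HasSum (fun n : ℕ =>
        ((qLaurent h₁ g).coeff ((n : ℤ) - k) * ζ ^ ((n : ℤ) - k)) • 𝕢 h₂ z ^ (e * n))
        (g (s z) * qH h₂ z ^ (e * k)) := by
      have := h0.mul_left ((ζ ^ k)⁻¹)
      have hf : (fun n : ℕ =>
          ((qLaurent h₁ g).coeff ((n : ℤ) - k) * ζ ^ ((n : ℤ) - k)) • 𝕢 h₂ z ^ (e * n)) =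
          fun n : ℕ => (ζ ^ k)⁻¹ * ((qLaurent h₁ g).coeff ((n : ℤ) - k) • 𝕢 h₁ (s z) ^ n) := by
        ext n
        rw [hq]
        simp only [smul_eq_mul]
        rw [mul_pow, ← pow_mul, zpow_sub₀ hζ, zpow_natCast, zpow_natCast]
        field_simp
      have hv : g (s z) * qH h₂ z ^ (e * k) = (ζ ^ k)⁻¹ * (g (s z) * qH h₁ (s z) ^ k) := by
        rw [hs z, mul_pow, ← pow_mul]
        field_simp
      rw [hf, hv]
      exact this
    have hinj : Function.Injective (fun n : ℕ => e * n) :=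
      fun a b hab => Nat.eq_of_mul_eq_mul_left he hab
    have hzero : ∀ M ∉ Set.range (fun n : ℕ => e * n), a' M • 𝕢 h₂ z ^ M = 0 := by
      intro M hM
      have : ¬ e ∣ M := fun ⟨n, hn⟩ => hM ⟨n, hn.symm⟩
      rw [ha', if_neg this, zero_smul]
    refine (hinj.hasSum_iff hzero).mp ?_
    convert h1 using 1
    ext n
    simp only [Function.comp]
    rw [ha', if_pos (Dvd.intro n rfl), Nat.mul_div_cancel_left n he]
  have hQ := isQLaurentable_of_hasSum hmd hper (e * k) a' hsum
  refine ⟨hQ, fun m => ?_⟩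
  rw [qLaurent_coeff_of_hasSum hmd hper (e * k) a' hsum m]
  have he' : (e : ℤ) ≠ 0 := by exact_mod_cast he.ne'
  have hepos : (0 : ℤ) < e := by exact_mod_cast he
  by_cases hd : (e : ℤ) ∣ m
  · rw [if_pos hd]
    obtain ⟨m', rfl⟩ := hd
    rw [Int.mul_ediv_cancel_left m' he']
    have hek : ((e : ℤ) * m' + ((e * k : ℕ) : ℤ)) = e * (m' + k) := by
      push_cast
      ring
    rw [hek]
    by_cases hpos : 0 ≤ m' + (k : ℤ)
    · rw [if_pos (mul_nonneg hepos.le hpos)]
      obtain ⟨n, hn⟩ := Int.eq_ofNat_of_zero_le hpos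
      rw [hn]
      have : ((e : ℤ) * (n : ℤ)).toNat = e * n := by
        rw [← Nat.cast_mul, Int.toNat_natCast]
      rw [this, ha', if_pos (Dvd.intro n rfl), Nat.mul_div_cancel_left n he]
      have hm' : (n : ℤ) - k = m' := by rw [← hn]; ring
      rw [hm', mul_comm]
    · rw [if_neg]
      · have := qLaurent_coeff_eq_zero_of_lt hg hk (m := m') (not_le.mp hpos)
        rw [this, mul_zero]
      · intro hcon
        apply hpos
        exact nonneg_of_mul_nonneg_right hcon hepos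
  · rw [if_neg hd]
    split_ifs with hpos
    · obtain ⟨M, hM⟩ := Int.eq_ofNat_of_zero_le hpos
      rw [hM, Int.toNat_natCast, ha', if_neg]
      intro hdvd
      apply hd
      have h1 : (e : ℤ) ∣ (M : ℤ) := by exact_mod_cast hdvd
      rw [← hM] at h1
      have h2 : (e : ℤ) ∣ ((e * k : ℕ) : ℤ) := by
        push_cast
        exact dvd_mul_right _ _
      exact (Int.dvd_add_left h2).mp h1
    · rfl

end comp

/-! ### Special cases: translations and `z ↦ (a z + b) / d` -/

/-- holomorphy of `g ∘ s` when `s` is given by an entire function on coordinates -/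
theorem mdiff_comp_of_coe {g : ℍ → ℂ} (hg : MDiff g) (s : ℍ → ℍ) (φ : ℂ → ℂ)
    (hφ : Differentiable ℂ φ) (hs : ∀ z : ℍ, (s z : ℂ) = φ z) : MDiff (fun z => g (s z)) := by
  rw [mdifferentiable_iff] at hg ⊢
  intro w hw
  have hφw : φ w ∈ upperHalfPlaneSet := by
    have := hs ⟨w, hw⟩
    rw [← this]
    exact (s ⟨w, hw⟩).im_pos
  have h1 : DifferentiableAt ℂ (g ∘ ofComplex) (φ w) :=
    (hg (φ w) hφw).differentiableAt (isOpen_upperHalfPlaneSet.mem_nhds hφw)
  have h2 : DifferentiableAt ℂ ((g ∘ ofComplex) ∘ φ) w := h1.comp w (hφ w)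
  refine (h2.congr_of_eventuallyEq ?_).differentiableWithinAt
  filter_upwards [isOpen_upperHalfPlaneSet.mem_nhds hw] with w' hw'
  simp only [Function.comp]
  congr 1
  rw [ofComplex_apply_of_im_pos hw', ← hs ⟨w', hw'⟩, ofComplex_apply]

section special

variable {h : ℕ} [NeZero h] {g : ℍ → ℂ}

theorem qLaurent_vadd (hg : IsQLaurentable h g) (t : ℝ) :
    IsQLaurentable h (fun z => g (t +ᵥ z)) ∧
    ∀ m : ℤ, (qLaurent h (fun z => g (t +ᵥ z))).coeff m =
      Complex.exp (2 * π * I * t / h) ^ m * (qLaurent h g).coeff m := by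
  have hmd : MDiff (fun z : ℍ => g (t +ᵥ z)) :=
    mdiff_comp_of_coe hg.mdiff (fun z : ℍ => t +ᵥ z) (fun w => (t : ℂ) + w)
      ((differentiable_const _).add differentiable_id) (fun z => by simp [coe_vadd])
  obtain ⟨h1, h2⟩ := qLaurent_comp (h₁ := h) (h₂ := h) hg (fun z => t +ᵥ z) hmd
    (ζ := Complex.exp (2 * π * I * t / h)) (Complex.exp_ne_zero _) (e := 1) one_pos
    (fun z => by rw [qH_vadd, pow_one, Complex.ofReal_natCast])
  refine ⟨h1, fun m => ?_⟩
  rw [h2 m, if_pos (by simp), Nat.cast_one, Int.ediv_one]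

/-- `g(d z)` for `1`-periodic `g`: the expansion is obtained by `q ↦ q^d`. -/
theorem qLaurent_scale (d : ℕ) [NeZero d] {g : ℍ → ℂ} (hg : IsQLaurentable 1 g) (s : ℍ → ℍ)
    (hs : ∀ z : ℍ, (s z : ℂ) = d * z) :
    IsQLaurentable 1 (fun z => g (s z)) ∧
    qLaurent 1 (fun z => g (s z)) = ModularCurve.qExpand ℂ d (qLaurent 1 g) := by
  have hmd : MDiff (fun z => g (s z)) :=
    mdiff_comp_of_coe hg.mdiff s (fun w => (d : ℂ) * w)
      ((differentiable_const _).mul differentiable_id) hs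
  have hd : 0 < d := Nat.pos_of_ne_zero (NeZero.ne d)
  have hq : ∀ z, qH ((1 : ℕ) : ℝ) (s z) = 1 * qH ((1 : ℕ) : ℝ) z ^ d := by
    intro z
    simp only [qH, Periodic.qParam, hs z, one_mul]
    rw [← Complex.exp_nat_mul]
    congr 1
    ring
  obtain ⟨h1, h2⟩ := qLaurent_comp (h₁ := 1) (h₂ := 1) hg s hmd (ζ := 1) one_ne_zero hd hq
  refine ⟨h1, ?_⟩
  ext m
  rw [h2 m]
  split_ifs with hdm
  · obtain ⟨m', rfl⟩ := hdm
    have hd' : (d : ℤ) ≠ 0 := by exact_mod_cast hd.ne'
    rw [Int.mul_ediv_cancel_left m' hd', one_zpow, one_mul, ModularCurve.qExpand_coeff_mul]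
  · rw [ModularCurve.qExpand_coeff_of_not_dvd d _ hdm]

/-- `q_1((a z + b)/d) = exp(2πi b/d) q_N(z)^e` when `e d = N a`. -/
theorem qH_one_of_coe_eq {N : ℕ} [NeZero N] {a d e : ℕ} (hd : 0 < d) (b : ℝ)
    (hed : e * d = N * a) (s : ℍ → ℍ) (hs : ∀ z : ℍ, (s z : ℂ) = (a * z + b) / d) (z : ℍ) :
    qH ((1 : ℕ) : ℝ) (s z) = Complex.exp (2 * π * I * b / d) * qH (N : ℝ) z ^ e := by
  have hdc : (d : ℂ) ≠ 0 := by exact_mod_cast hd.ne'
  have hNc : (N : ℂ) ≠ 0 := by exact_mod_cast NeZero.ne N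
  have hedc : (e : ℂ) * d = N * a := by exact_mod_cast hed
  simp only [qH, Periodic.qParam, hs z]
  rw [← Complex.exp_nat_mul, ← Complex.exp_add]
  congr 1
  have he' : (e : ℂ) = N * a / d := by
    field_simp
    exact hedc
  push_cast
  rw [he']
  field_simp
  ring

/-- expansion of `g((a z + b)/d)` in `q_N` for `1`-periodic `g` -/
theorem qLaurent_comp_upper {N : ℕ} [NeZero N] {a d e : ℕ} (hd : 0 < d) (he : 0 < e) (b : ℝ)
    (hed : e * d = N * a) {g : ℍ → ℂ} (hg : IsQLaurentable 1 g) (s : ℍ → ℍ)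
    (hs : ∀ z : ℍ, (s z : ℂ) = (a * z + b) / d) :
    IsQLaurentable N (fun z => g (s z)) ∧
    ∀ m : ℤ, (qLaurent N (fun z => g (s z))).coeff m =
      if (e : ℤ) ∣ m then Complex.exp (2 * π * I * b / d) ^ (m / e) * (qLaurent 1 g).coeff (m / e)
      else 0 := by
  have hmd : MDiff (fun z => g (s z)) :=
    mdiff_comp_of_coe hg.mdiff s (fun w => ((a : ℂ) * w + b) / d)
      ((((differentiable_const _).mul differentiable_id).add (differentiable_const _)).div_const _)
      hs
  exact qLaurent_comp (h₁ := 1) (h₂ := N) hg s hmd (Complex.exp_ne_zero _) he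
    (qH_one_of_coe_eq hd b hed s hs)

end special

/-! ### Order invariance under translation, change of period -/

section more

variable {h : ℕ} [NeZero h] {g : ℍ → ℂ}

theorem qLaurent_vadd_coeff_eq_zero_iff (hg : IsQLaurentable h g) (t : ℝ) (m : ℤ) :
    (qLaurent h (fun z => g (t +ᵥ z))).coeff m = 0 ↔ (qLaurent h g).coeff m = 0 := by
  rw [(qLaurent_vadd hg t).2 m, mul_eq_zero]
  constructor
  · rintro (h0 | h0)
    · exact absurd h0 (zpow_ne_zero _ (Complex.exp_ne_zero _))
    · exact h0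
  · exact Or.inr

theorem qLaurent_vadd_support (hg : IsQLaurentable h g) (t : ℝ) :
    (qLaurent h (fun z => g (t +ᵥ z))).support = (qLaurent h g).support := by
  ext m
  simp only [HahnSeries.mem_support, ne_eq, qLaurent_vadd_coeff_eq_zero_iff hg t m]

/-- translation does not change the order of the Laurent expansion -/
theorem qLaurent_vadd_order (hg : IsQLaurentable h g) (t : ℝ) :
    (qLaurent h (fun z => g (t +ᵥ z))).order = (qLaurent h g).order := by
  have hsupp := qLaurent_vadd_support hg t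
  by_cases h0 : qLaurent h g = 0
  · have : qLaurent h (fun z => g (t +ᵥ z)) = 0 := by
      rw [← HahnSeries.support_eq_empty_iff, hsupp, HahnSeries.support_eq_empty_iff]
      exact h0
    rw [this, h0]
  · have h1 : qLaurent h (fun z => g (t +ᵥ z)) ≠ 0 := by
      intro h1
      apply h0
      rw [← HahnSeries.support_eq_empty_iff, ← hsupp, HahnSeries.support_eq_empty_iff]
      exact h1
    rw [HahnSeries.order_of_ne h0, HahnSeries.order_of_ne h1]
    congr 1

/-- a `1`-periodic function expanded in `q_N`: the expansion is obtained by `q ↦ q^N`. -/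
theorem qLaurent_change_period (N : ℕ) [NeZero N] {g : ℍ → ℂ} (hg : IsQLaurentable 1 g) :
    IsQLaurentable N g ∧ qLaurent N g = ModularCurve.qExpand ℂ N (qLaurent 1 g) := by
  have hN : 0 < N := Nat.pos_of_ne_zero (NeZero.ne N)
  have hq : ∀ z, qH ((1 : ℕ) : ℝ) z = 1 * qH (N : ℝ) z ^ N := by
    intro z
    rw [one_mul, Nat.cast_one]
    exact qH_one_eq_pow N z
  obtain ⟨h1, h2⟩ := qLaurent_comp (h₁ := 1) (h₂ := N) hg (fun z => z) hg.mdiff (ζ := 1)
    one_ne_zero hN hq
  refine ⟨h1, ?_⟩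
  ext m
  rw [h2 m]
  split_ifs with hdm
  · obtain ⟨m', rfl⟩ := hdm
    have hN' : (N : ℤ) ≠ 0 := by exact_mod_cast hN.ne'
    rw [Int.mul_ediv_cancel_left m' hN', one_zpow, one_mul, ModularCurve.qExpand_coeff_mul]
  · rw [ModularCurve.qExpand_coeff_of_not_dvd N _ hdm]

end more

/-! ### The ring of `q_h`-Laurentable functions and the bundled expansion -/

/-- the subring of holomorphic `h`-periodic functions which are meromorphic at `i∞` -/
def qLaurentSubring (h : ℕ) [NeZero h] : Subring (ℍ → ℂ) where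
  carrier := {g | IsQLaurentable h g}
  mul_mem' := fun {f g} hf hg => IsQLaurentable.mul hf hg
  one_mem' := IsQLaurentable.const h 1
  add_mem' := fun {f g} hf hg => IsQLaurentable.add hf hg
  zero_mem' := IsQLaurentable.const h 0
  neg_mem' := fun {f} hf => IsQLaurentable.neg hf

theorem mem_qLaurentSubring {h : ℕ} [NeZero h] {g : ℍ → ℂ} :
    g ∈ qLaurentSubring h ↔ IsQLaurentable h g := Iff.rfl

/-- the Laurent expansion as a ring homomorphism -/
noncomputable def qLaurentHom (h : ℕ) [NeZero h] : qLaurentSubring h →+* LaurentSeries ℂ where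
  toFun g := qLaurent h g.1
  map_one' := by
    show qLaurent h (fun _ => (1 : ℂ)) = 1
    rw [qLaurent_const]
    rfl
  map_mul' f g := qLaurent_mul f.2 g.2
  map_zero' := by
    show qLaurent h (fun _ => (0 : ℂ)) = 0
    rw [qLaurent_const, map_zero]
  map_add' f g := qLaurent_add f.2 g.2

theorem qLaurentHom_apply {h : ℕ} [NeZero h] (g : qLaurentSubring h) :
    qLaurentHom h g = qLaurent h g.1 := rfl

theorem qLaurentHom_injective (h : ℕ) [NeZero h] : Function.Injective (qLaurentHom h) := by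
  rw [injective_iff_map_eq_zero]
  intro g hg
  apply Subtype.ext
  exact (qLaurent_eq_zero_iff g.2).mp hg

end Fermat.Agent.ES
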