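import Mathlib

/-!
# Parabolic elements of `SL(2, ℤ)` are conjugate to translations

If `γ ∈ SL(2, ℤ)` has `trace² = 4` then there is `δ ∈ SL(2, ℤ)` and `n : ℤ` such that
`γ • (δ • z) = δ • (T ^ n • z)` for all `z : ℍ`.
-/

set_option autoImplicit false

open UpperHalfPlane Matrix ModularGroup
open scoped MatrixGroups

namespace Fermat.Agent.ES

/-- A parabolic (or `±1`) element can be conjugated inside `SL(2, ℤ)` to an element with
vanishing lower-left entry. -/
theorem exists_conj_lower_left_eq_zero (γ : SL(2, ℤ))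
    (h : (γ : Matrix (Fin 2) (Fin 2) ℤ).trace ^ 2 = 4) :
    ∃ g : SL(2, ℤ), (g * γ * g⁻¹ : SL(2, ℤ)) 1 0 = 0 := by
  by_cases hc : γ 1 0 = 0
  · exact ⟨1, by simpa using hc⟩
  -- notation
  set a := γ 0 0 with ha
  set b := γ 0 1 with hb
  set c := γ 1 0 with hc'
  set d := γ 1 1 with hd
  have hdet : a * d - b * c = 1 := by
    have := γ.det_coe
    rw [det_fin_two] at this
    exact this
  have htr : (a + d) ^ 2 = 4 := by
    have : (γ : Matrix (Fin 2) (Fin 2) ℤ).trace = a + d := by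
      rw [Matrix.trace_fin_two]
    rw [← this]; exact h
  -- `a + d = ± 2`
  have htr' : a + d = 2 ∨ a + d = -2 := by
    have : (a + d - 2) * (a + d + 2) = 0 := by linear_combination htr
    rcases mul_eq_zero.mp this with h1 | h1
    · left; linarith
    · right; linarith
  obtain ⟨e, he⟩ : ∃ e : ℤ, d - a = 2 * e := by
    rcases htr' with h1 | h1
    · exact ⟨1 - a, by linarith⟩
    · exact ⟨-1 - a, by linarith⟩
  -- key identity: `c * Q(p, r) = (c p + e r)^2`
  have hdisc : e ^ 2 + b * c = 0 := by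
    have h4 : (d - a) ^ 2 + 4 * (b * c) = 0 := by
      have : (d - a) ^ 2 + 4 * (b * c) = (a + d) ^ 2 - 4 * (a * d - b * c) := by ring
      rw [this, htr, hdet]; norm_num
    rw [he] at h4
    have : 4 * (e ^ 2 + b * c) = 0 := by linear_combination h4
    have h4' : (4 : ℤ) ≠ 0 := by norm_num
    exact (mul_eq_zero.mp this).resolve_left h4'
  -- coprime pair
  have hgpos : 0 < Int.gcd e c := by
    apply Nat.pos_of_ne_zero
    intro h0
    rw [Int.gcd_eq_zero_iff] at h0
    exact hc h0.2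
  obtain ⟨e', c', hcop1, he', hc''⟩ := Int.exists_gcd_one hgpos
  set g0 : ℤ := (Int.gcd e c : ℤ) with hg0
  have hg0_ne : g0 ≠ 0 := by
    rw [hg0]; exact_mod_cast hgpos.ne'
  have hcop : IsCoprime (-c') (-e') := by
    have h1 : IsCoprime e' c' := Int.isCoprime_iff_gcd_eq_one.mpr hcop1
    exact (h1.symm.neg_left).neg_right
  obtain ⟨g, -, hg⟩ := bottom_row_surj (R := ℤ) (show (![-c', -e'] : Fin 2 → ℤ) ∈
    {cd | IsCoprime (cd 0) (cd 1)} by simpa using hcop)
  have hg10 : g 1 0 = -c' := by have := congrFun hg 0; simpa using this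
  have hg11 : g 1 1 = -e' := by have := congrFun hg 1; simpa using this
  refine ⟨g, ?_⟩
  -- compute the lower-left entry of `g γ g⁻¹`
  have hentry : (g * γ * g⁻¹ : SL(2, ℤ)) 1 0 =
      c * (g 1 1) ^ 2 - (d - a) * (g 1 1) * (g 1 0) - b * (g 1 0) ^ 2 := by
    simp only [Matrix.SpecialLinearGroup.coe_mul, Matrix.SpecialLinearGroup.coe_inv,
      Matrix.adjugate_fin_two, Matrix.mul_apply, Fin.sum_univ_two, Matrix.of_apply,
      Matrix.cons_val_zero, Matrix.cons_val_one]
    simp only [← ha, ← hb, ← hc', ← hd]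
    ring
  rw [hentry, hg10, hg11, he]
  -- `c * (value) = (c e' - e c')^2 g0^0 ... = 0`
  have hzero : c * (c * (-e') ^ 2 - 2 * e * (-e') * (-c') - b * (-c') ^ 2) = 0 := by
    have h1 : c * e' = e * c' := by
      rw [hc'', he']; ring_nf
    have h2 : b * c = - e ^ 2 := by linarith
    calc c * (c * (-e') ^ 2 - 2 * e * (-e') * (-c') - b * (-c') ^ 2)
        = (c * e') ^ 2 - 2 * e * c' * (c * e') - (b * c) * c' ^ 2 := by ring
      _ = (e * c') ^ 2 - 2 * e * c' * (e * c') - (- e ^ 2) * c' ^ 2 := by rw [h1, h2]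
      _ = 0 := by ring
  exact (mul_eq_zero.mp hzero).resolve_left hc

/-- A parabolic element acts as a conjugate of a translation. -/
theorem exists_conj_smul_eq_T_zpow (γ : SL(2, ℤ))
    (h : (γ : Matrix (Fin 2) (Fin 2) ℤ).trace ^ 2 = 4) :
    ∃ (δ : SL(2, ℤ)) (n : ℤ), ∀ z : ℍ, γ • (δ • z) = δ • (T ^ n • z) := by
  obtain ⟨g, hg⟩ := exists_conj_lower_left_eq_zero γ h
  obtain ⟨n, hn⟩ := exists_eq_T_zpow_of_c_eq_zero hg
  refine ⟨g⁻¹, n, fun z => ?_⟩
  have := hn z
  rw [← this, ← mul_smul, ← mul_smul]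
  congr 1
  group

end Fermat.Agent.ES
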