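import Mathlib
import Fermat.Prelude.Def_ModularCurve_PeriodHomPair
import Fermat.Agent.Lib.S22.PeriodPoly
import Fermat.Agent.Lib.S22.CuspFormCuspidal
import Fermat.Agent.Lib.ES.Parabolic

/-!
# Equivariant primitives of weight two cusp forms (P1, part B1)

For a function `f : ℍ → ℂ` which is cuspidal at all cusps (weight `2`), the function
`prim f = (2πi)⁻¹ • cuspPrim 1 f` is a holomorphic primitive of `f` vanishing at `i∞`.
If moreover `f` is `Γ`-invariant of weight `2`, `prim f` is an equivariant primitive.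
-/

set_option autoImplicit false

open UpperHalfPlane hiding I
open Complex Derivative Polynomial Filter Function
open scoped Manifold Topology Real ModularForm MatrixGroups

open Fermat.Agent.S22Lib

namespace Fermat.Agent.ES

noncomputable section

/-- the primitive of `f` vanishing at `i∞` -/
def prim (f : ℍ → ℂ) : ℍ → ℂ := (2 * π * I)⁻¹ • cuspPrim 1 f

theorem slash_zero_SL_apply (ψ : ℍ → ℂ) (g : SL(2, ℤ)) (z : ℍ) :
    (ψ ∣[(0 : ℤ)] g) z = ψ (g • z) := by
  rw [ModularForm.SL_slash_apply]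
  simp

theorem one_sub_one_cast : (1 : ℤ) - ((1 : ℕ) : ℤ) = 0 := by norm_num

theorem one_add_one_cast : ((1 : ℕ) : ℤ) + 1 = 2 := by norm_num

/-- cuspidal at all cusps, weight two, in the form used by the `S22` library -/
theorem isCuspidalAll_cast {f : ℍ → ℂ} (hf : IsCuspidalAll 2 f) :
    IsCuspidalAll (((1 : ℕ) : ℤ) + 1) f := by
  rw [one_add_one_cast]; exact hf

variable {f : ℍ → ℂ}

theorem eichlerInt_one_apply (f : ℍ → ℂ) (g : SL(2, ℤ)) (z : ℍ) :
    eichlerInt 1 f g z = cuspPrim 1 (f ∣[(2 : ℤ)] g) (g⁻¹ • z) := by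
  rw [eichlerInt]
  have h := slash_zero_SL_apply (cuspPrim 1 (f ∣[((1 : ℕ) : ℤ) + 1] g)) g⁻¹ z
  rw [← one_sub_one_cast] at h
  rw [h, one_add_one_cast]

theorem eichlerInt_one_one (f : ℍ → ℂ) : eichlerInt 1 f 1 = cuspPrim 1 f := by
  ext z
  rw [eichlerInt_one_apply]
  simp

theorem eichlerInt_one_smul (f : ℍ → ℂ) (g : SL(2, ℤ)) (z : ℍ) :
    eichlerInt 1 f g (g • z) = cuspPrim 1 (f ∣[(2 : ℤ)] g) z := by
  rw [eichlerInt_one_apply, inv_smul_smul]

/-- two Eichler integrals of weight two differ by a constant -/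
theorem exists_const_eichlerInt_sub (hf : IsCuspidalAll 2 f) (g h : SL(2, ℤ)) :
    ∃ c : ℂ, ∀ z : ℍ, eichlerInt 1 f g z - eichlerInt 1 f h z = c := by
  have hf' := isCuspidalAll_cast hf
  have hdeg := periodPoly_degree_lt 1 f g h
  have hfun := polyFun_periodPoly hf' g h
  have hdeg' : (periodPoly 1 f g h).degree ≤ 0 := by
    have : (periodPoly 1 f g h).degree < 1 := by exact_mod_cast hdeg
    exact Nat.WithBot.lt_one_iff_le_zero.mp this
  rw [Polynomial.eq_C_of_degree_le_zero hdeg'] at hfun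
  refine ⟨(periodPoly 1 f g h).coeff 0, fun z => ?_⟩
  have := congrFun hfun z
  simp only [polyFun_apply, eval_C, periodFun, Pi.sub_apply] at this
  exact this.symm

/-- `cuspPrim 1 f ∘ γ` is an Eichler integral when `f` is `γ`-invariant -/
theorem cuspPrim_smul_eq_eichlerInt (γ : SL(2, ℤ)) (hγ : f ∣[(2 : ℤ)] γ = f) (z : ℍ) :
    cuspPrim 1 f (γ • z) = eichlerInt 1 f γ⁻¹ z := by
  have hγ' : f ∣[(2 : ℤ)] γ⁻¹ = f := by
    conv_lhs => rw [← hγ]
    rw [← SlashAction.slash_mul, mul_inv_cancel, SlashAction.slash_one]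
  rw [eichlerInt_one_apply, hγ', inv_inv]

/-- equivariance of the cuspidal primitive -/
theorem exists_const_cuspPrim_smul_sub (hf : IsCuspidalAll 2 f) (γ : SL(2, ℤ))
    (hγ : f ∣[(2 : ℤ)] γ = f) :
    ∃ c : ℂ, ∀ z : ℍ, cuspPrim 1 f (γ • z) - cuspPrim 1 f z = c := by
  obtain ⟨c, hc⟩ := exists_const_eichlerInt_sub hf γ⁻¹ 1
  refine ⟨c, fun z => ?_⟩
  rw [cuspPrim_smul_eq_eichlerInt γ hγ, ← eichlerInt_one_one f]
  exact hc z

/-- behaviour of the cuspidal primitive at an arbitrary cusp -/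
theorem exists_const_cuspPrim_smul_eq (hf : IsCuspidalAll 2 f) (δ : SL(2, ℤ)) :
    ∃ c : ℂ, ∀ w : ℍ, cuspPrim 1 f (δ • w) = cuspPrim 1 (f ∣[(2 : ℤ)] δ) w + c := by
  obtain ⟨c, hc⟩ := exists_const_eichlerInt_sub hf 1 δ
  refine ⟨c, fun w => ?_⟩
  have := hc (δ • w)
  rw [eichlerInt_one_smul, eichlerInt_one_one] at this
  rw [← this]; ring

theorem isCuspidal_of_isCuspidalAll (hf : IsCuspidalAll 2 f) : IsCuspidal f := by
  have := hf 1
  rwa [SlashAction.slash_one] at this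

theorem tendsto_cuspPrim_smul (hf : IsCuspidalAll 2 f) (δ : SL(2, ℤ)) :
    ∃ L : ℂ, Tendsto (fun w : ℍ => cuspPrim 1 f (δ • w)) atImInfty (𝓝 L) := by
  obtain ⟨c, hc⟩ := exists_const_cuspPrim_smul_eq hf δ
  refine ⟨c, ?_⟩
  have h0 : Tendsto (cuspPrim 1 (f ∣[(2 : ℤ)] δ)) atImInfty (𝓝 0) :=
    (isCuspidal_cuspPrim (hf δ) 1).zero
  have := h0.add_const c
  rw [zero_add] at this
  exact this.congr fun w => (hc w).symm

/-! ### the primitive -/

theorem mdiff_prim (hf : IsCuspidalAll 2 f) : MDiff (prim f) :=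
  ((isCuspidal_cuspPrim (isCuspidal_of_isCuspidalAll hf) 1).mdiff).const_smul _

theorem two_pi_I_ne_zero' : (2 * π * I : ℂ) ≠ 0 := Complex.two_pi_I_ne_zero

theorem hasDerivAt_prim (hf : IsCuspidalAll 2 f) (τ : ℍ) :
    HasDerivAt (prim f ∘ ofComplex) (f τ) ↑τ := by
  have hc := isCuspidal_of_isCuspidalAll hf
  have hψ := (isCuspidal_cuspPrim hc 1).mdiff
  have hD : D (cuspPrim 1 f) = f := by
    have := Dn_cuspPrim hc 1
    rwa [Dn_one] at this
  have hdiff : DifferentiableAt ℂ (cuspPrim 1 f ∘ ofComplex) ↑τ := by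
    have h1 : DifferentiableOn ℂ (cuspPrim 1 f ∘ ofComplex) upperHalfPlaneSet :=
      mdifferentiable_iff.mp hψ
    exact (h1 τ τ.im_pos).differentiableAt (isOpen_upperHalfPlaneSet.mem_nhds τ.im_pos)
  have hderiv : deriv (cuspPrim 1 f ∘ ofComplex) ↑τ = (2 * π * I) * f τ := by
    have := congrFun hD τ
    simp only [normalizedDerivOfComplex] at this
    rw [← this]
    field_simp [two_pi_I_ne_zero']
  have h2 : HasDerivAt (cuspPrim 1 f ∘ ofComplex) ((2 * π * I) * f τ) ↑τ := by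
    rw [← hderiv]; exact hdiff.hasDerivAt
  have h3 := h2.const_smul ((2 * π * I)⁻¹ : ℂ)
  have e : ((2 * π * I)⁻¹ : ℂ) • ((2 * π * I) * f τ) = f τ := by
    rw [smul_eq_mul]; field_simp [two_pi_I_ne_zero']
  rw [e] at h3
  exact h3

theorem tendsto_prim_atImInfty (hf : IsCuspidalAll 2 f) : Tendsto (prim f) atImInfty (𝓝 0) := by
  have h0 : Tendsto (cuspPrim 1 f) atImInfty (𝓝 0) :=
    (isCuspidal_cuspPrim (isCuspidal_of_isCuspidalAll hf) 1).zero
  have := h0.const_smul ((2 * π * I)⁻¹ : ℂ)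
  rw [smul_zero] at this
  exact this

theorem exists_const_prim_smul_sub (hf : IsCuspidalAll 2 f) (γ : SL(2, ℤ))
    (hγ : f ∣[(2 : ℤ)] γ = f) :
    ∃ c : ℂ, ∀ z : ℍ, prim f (γ • z) - prim f z = c := by
  obtain ⟨c, hc⟩ := exists_const_cuspPrim_smul_sub hf γ hγ
  refine ⟨(2 * π * I)⁻¹ * c, fun z => ?_⟩
  simp only [prim, Pi.smul_apply, smul_eq_mul]
  rw [← hc z]; ring

theorem tendsto_prim_smul (hf : IsCuspidalAll 2 f) (δ : SL(2, ℤ)) :
    ∃ L : ℂ, Tendsto (fun w : ℍ => prim f (δ • w)) atImInfty (𝓝 L) := by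
  obtain ⟨L, hL⟩ := tendsto_cuspPrim_smul hf δ
  exact ⟨(2 * π * I)⁻¹ • L, hL.const_smul _⟩

/-- the primitive at a general cusp: `prim f ∘ δ = prim (f ∣ δ) + const` -/
theorem exists_const_prim_smul_eq (hf : IsCuspidalAll 2 f) (δ : SL(2, ℤ)) :
    ∃ c : ℂ, ∀ w : ℍ, prim f (δ • w) = prim (f ∣[(2 : ℤ)] δ) w + c := by
  obtain ⟨c, hc⟩ := exists_const_cuspPrim_smul_eq hf δ
  refine ⟨(2 * π * I)⁻¹ * c, fun w => ?_⟩
  simp only [prim, Pi.smul_apply, smul_eq_mul]
  rw [hc w]; ring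

theorem prim_add {f₁ f₂ : ℍ → ℂ} (h1 : IsCuspidalAll 2 f₁) (h2 : IsCuspidalAll 2 f₂) :
    prim (f₁ + f₂) = prim f₁ + prim f₂ := by
  rw [prim, prim, prim, cuspPrim_add (isCuspidal_of_isCuspidalAll h1)
    (isCuspidal_of_isCuspidalAll h2), smul_add]

theorem prim_smul (hf : IsCuspidalAll 2 f) (c : ℂ) : prim (c • f) = c • prim f := by
  rw [prim, prim, cuspPrim_smul (isCuspidal_of_isCuspidalAll hf), smul_comm]

/-- uniqueness of primitives vanishing at `i∞` -/
theorem eq_prim_of_hasDerivAt (hf : IsCuspidalAll 2 f) {F : ℍ → ℂ}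
    (hF : ∀ τ : ℍ, HasDerivAt (F ∘ ofComplex) (f τ) ↑τ) (h0 : Tendsto F atImInfty (𝓝 0)) :
    F = prim f := by
  have hFd : MDiff F := by
    rw [mdifferentiable_iff]
    intro z hz
    exact ((hF ⟨z, hz⟩).differentiableAt).differentiableWithinAt
  have hG : MDiff (F - prim f) := hFd.sub (mdiff_prim hf)
  have hD : D (F - prim f) = 0 := by
    ext τ
    simp only [normalizedDerivOfComplex, Pi.zero_apply]
    have h1 : HasDerivAt ((F - prim f) ∘ ofComplex) (f τ - f τ) ↑τ :=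
      (hF τ).sub (hasDerivAt_prim hf τ)
    rw [h1.deriv, sub_self, mul_zero]
  obtain ⟨c, hc⟩ := exists_const_of_D_eq_zero hG hD
  have hlim : Tendsto (F - prim f) atImInfty (𝓝 0) := by
    have := h0.sub (tendsto_prim_atImInfty hf)
    rwa [sub_zero] at this
  have hc0 : c = 0 := by
    have h2 : Tendsto (F - prim f) atImInfty (𝓝 c) := by
      have : (F - prim f) = fun _ => c := funext hc
      rw [this]; exact tendsto_const_nhds
    exact tendsto_nhds_unique h2 hlim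
  ext τ
  have := hc τ
  rw [hc0, Pi.sub_apply, sub_eq_zero] at this
  exact this

end

end Fermat.Agent.ES
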