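import Mathlib
import Fermat.Prelude.Def_ModularCurve_PeriodHomPair
import Fermat.Agent.Lib.ES.Primitive

/-!
# The period map of `Γ₀(N)` is linear and lands in the parabolic homomorphisms (P1, part B1)
-/

set_option autoImplicit false

open UpperHalfPlane hiding I
open Complex Filter Function CongruenceSubgroup
open scoped Manifold Topology Real ModularForm MatrixGroups

open Fermat.Agent.S22Lib ModularCurve ModularCurve.Period

namespace Fermat.Agent.ES

noncomputable section

variable (N : ℕ) [NeZero N]

omit [NeZero N] in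
theorem cuspForm_two_slash_eq (f : CuspForm (Gamma0 N) 2) (γ : SL(2, ℤ)) (hγ : γ ∈ Gamma0 N) :
    (⇑f) ∣[(2 : ℤ)] γ = ⇑f := by
  have hmem : (Matrix.SpecialLinearGroup.mapGL ℝ γ) ∈
      (Gamma0 N : Subgroup (GL (Fin 2) ℝ)) :=
    Subgroup.mem_map_of_mem _ hγ
  exact SlashInvariantForm.slash_action_eqn f _ hmem

theorem isCuspidalAll_two (f : CuspForm (Gamma0 N) 2) : IsCuspidalAll 2 ⇑f :=
  isCuspidalAll_cuspForm N 2 f

/-- **B1**: every weight two cusp form on `Γ₀(N)` has an equivariant primitive. -/
theorem hasEquivariantPrimitive_prim (f : CuspForm (Gamma0 N) 2) :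
    HasEquivariantPrimitive N f (prim ⇑f) := by
  have hf := isCuspidalAll_two N f
  refine ⟨hasDerivAt_prim hf, tendsto_prim_atImInfty hf, ?_, tendsto_prim_smul hf⟩
  intro γ
  exact exists_const_prim_smul_sub hf γ (cuspForm_two_slash_eq N f γ γ.2)

theorem isEquivariantPrimitive_prim (f : CuspForm (Gamma0 N) 2) :
    IsEquivariantPrimitive (Gamma0 N) (prim ⇑f) :=
  (hasEquivariantPrimitive_prim N f).2.2.1

/-- uniqueness of the equivariant primitive -/
theorem eq_prim_of_hasEquivariantPrimitive (f : CuspForm (Gamma0 N) 2) {F : ℍ → ℂ}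
    (hF : HasEquivariantPrimitive N f F) : F = prim ⇑f :=
  eq_prim_of_hasDerivAt (isCuspidalAll_two N f) hF.1 hF.2.1

/-- the period map is the period homomorphism of `prim f` -/
theorem periodMap_eq (f : CuspForm (Gamma0 N) 2) :
    periodMap N f = (isEquivariantPrimitive_prim N f).periodHom := by
  obtain ⟨F₀, h₀, h⟩ := periodMap_def N f (hasEquivariantPrimitive_prim N f)
  have hF₀ := eq_prim_of_hasEquivariantPrimitive N f h₀
  subst hF₀
  exact h

/-- formula for the period map, at an arbitrary base point -/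
theorem periodMap_apply (f : CuspForm (Gamma0 N) 2) (γ : Gamma0 N) (z : ℍ) :
    periodMap N f (Additive.ofMul γ) = prim ⇑f ((γ : SL(2, ℤ)) • z) - prim ⇑f z := by
  rw [periodMap_eq, IsEquivariantPrimitive.periodHom_apply,
    IsEquivariantPrimitive.sub_eq_period]

theorem periodMap_add (f g : CuspForm (Gamma0 N) 2) :
    periodMap N (f + g) = periodMap N f + periodMap N g := by
  refine AddMonoidHom.ext fun γ => ?_
  obtain ⟨γ, rfl⟩ := Additive.ofMul.surjective γ
  rw [AddMonoidHom.add_apply, periodMap_apply N _ γ UpperHalfPlane.I,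
    periodMap_apply N _ γ UpperHalfPlane.I, periodMap_apply N _ γ UpperHalfPlane.I,
    FunLike.coe_add, prim_add (isCuspidalAll_two N f) (isCuspidalAll_two N g)]
  simp only [Pi.add_apply]
  ring

theorem periodMap_smul (c : ℂ) (f : CuspForm (Gamma0 N) 2) :
    periodMap N (c • f) = c • periodMap N f := by
  refine AddMonoidHom.ext fun γ => ?_
  obtain ⟨γ, rfl⟩ := Additive.ofMul.surjective γ
  rw [AddMonoidHom.smul_apply, periodMap_apply N _ γ UpperHalfPlane.I,
    periodMap_apply N _ γ UpperHalfPlane.I, FunLike.coe_smul,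
    prim_smul (isCuspidalAll_two N f)]
  simp only [Pi.smul_apply, smul_eq_mul]
  ring

/-- the period map as a linear map -/
def periodLin : CuspForm (Gamma0 N) 2 →ₗ[ℂ] (Additive (Gamma0 N) →+ ℂ) where
  toFun := periodMap N
  map_add' := periodMap_add N
  map_smul' c f := by rw [periodMap_smul]; rfl

@[simp] theorem periodLin_apply (f : CuspForm (Gamma0 N) 2) : periodLin N f = periodMap N f := rfl

/-- **B1**: the period map is linear. -/
theorem existsPeriodMapLinear : ExistsPeriodMapLinear N := ⟨periodLin N, fun _ => rfl⟩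

/-- the period pairing in terms of `periodLin` -/
theorem periodHomPair_eq :
    periodHomPair N = LinearMap.coprod
      ((LinearMap.id + charInvolution N ℂ ℂ) ∘ₗ periodLin N)
      ((LinearMap.id - charInvolution N ℂ ℂ) ∘ₗ periodLin N) := by
  obtain ⟨pml, hpml, h⟩ := periodHomPair_def N (existsPeriodMapLinear N)
  have : pml = periodLin N := LinearMap.ext fun f => by rw [hpml, periodLin_apply]
  rw [h, this]

/-- **B1**: periods of parabolic elements vanish. -/
theorem periodMap_mem_parabolicHoms (f : CuspForm (Gamma0 N) 2) :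
    periodMap N f ∈ parabolicHoms ℂ (Gamma0 N) ℂ := by
  rw [mem_parabolicHoms_iff]
  intro γ hγ
  obtain ⟨δ, n, hδ⟩ := exists_conj_smul_eq_T_zpow (γ : SL(2, ℤ)) hγ
  obtain ⟨L, hL⟩ := tendsto_prim_smul (isCuspidalAll_two N f) δ
  -- the period is `F (δ (w + n)) - F (δ w)` for every `w`, and both terms tend to `L`
  have hconst : ∀ w : ℍ, periodMap N f (Additive.ofMul γ) =
      prim ⇑f (δ • (ModularGroup.T ^ n • w)) - prim ⇑f (δ • w) := by
    intro w
    rw [periodMap_apply N f γ (δ • w), hδ w]
  have hT : Tendsto (fun w : ℍ => ModularGroup.T ^ n • w) atImInfty atImInfty := by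
    rw [atImInfty, tendsto_comap_iff]
    have : (UpperHalfPlane.im ∘ fun w : ℍ => ModularGroup.T ^ n • w) = UpperHalfPlane.im := by
      ext w; exact ModularGroup.im_T_zpow_smul w n
    rw [this]
    exact tendsto_comap
  have h1 : Tendsto (fun w : ℍ => prim ⇑f (δ • (ModularGroup.T ^ n • w)) - prim ⇑f (δ • w))
      atImInfty (𝓝 (L - L)) := (hL.comp hT).sub hL
  have h2 : Tendsto (fun _ : ℍ => periodMap N f (Additive.ofMul γ)) atImInfty
      (𝓝 (L - L)) := h1.congr fun w => (hconst w).symm
  have := tendsto_nhds_unique h2 tendsto_const_nhds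
  rw [sub_self] at this
  exact this.symm

theorem range_periodLin_le :
    LinearMap.range (periodLin N) ≤ parabolicHoms ℂ (Gamma0 N) ℂ := by
  rintro _ ⟨f, rfl⟩
  exact periodMap_mem_parabolicHoms N f

/-- the image of the period pairing consists of parabolic homomorphisms -/
theorem range_periodHomPair_le :
    LinearMap.range (periodHomPair N) ≤ parabolicHoms ℂ (Gamma0 N) ℂ := by
  rw [periodHomPair_eq]
  rintro _ ⟨⟨f, g⟩, rfl⟩
  rw [LinearMap.coprod_apply]
  have hf := periodMap_mem_parabolicHoms N f
  have hg := periodMap_mem_parabolicHoms N g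
  refine Submodule.add_mem _ ?_ ?_
  · simp only [LinearMap.comp_apply, LinearMap.add_apply, LinearMap.id_apply, periodLin_apply]
    exact Submodule.add_mem _ hf (charInvolution_mem_parabolicHoms N ℂ ℂ hf)
  · simp only [LinearMap.comp_apply, LinearMap.sub_apply, LinearMap.id_apply, periodLin_apply]
    exact Submodule.sub_mem _ hg (charInvolution_mem_parabolicHoms N ℂ ℂ hg)

end

end Fermat.Agent.ES
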