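import Mathlib
import Fermat.Prelude.Def_ModularCurve_PeriodHomPair
import Fermat.Agent.Lib.ES.PeriodMap

/-!
# The conjugate cusp form `f^*(z) = conj (f (-conj z))` (P1, part B2)
-/

set_option autoImplicit false

open UpperHalfPlane hiding I
open Complex Filter Function CongruenceSubgroup Derivative
open scoped Manifold Topology Real ModularForm MatrixGroups ComplexConjugate

open Fermat.Agent.S22Lib ModularCurve ModularCurve.Period

namespace Fermat.Agent.ES

noncomputable section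

/-- `ε = diag(-1, 1)` -/
def epsGL : GL (Fin 2) ℝ :=
  Matrix.GeneralLinearGroup.mkOfDetNeZero !![-1, 0; 0, 1] (by simp [Matrix.det_fin_two])

theorem epsGL_val : (epsGL : Matrix (Fin 2) (Fin 2) ℝ) = !![-1, 0; 0, 1] := rfl

theorem epsGL_det : epsGL.det.val = -1 := by
  rw [Matrix.GeneralLinearGroup.val_det_apply, epsGL_val]
  simp [Matrix.det_fin_two]

theorem σ_epsGL (w : ℂ) : σ epsGL w = conj w := by
  have : ¬ (0 < epsGL.det.val) := by rw [epsGL_det]; norm_num
  rw [σ, if_neg this]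
  rfl

theorem epsGL_mul_self : epsGL * epsGL = 1 := by
  apply Matrix.GeneralLinearGroup.ext
  intro i j
  fin_cases i <;> fin_cases j <;> simp [epsGL_val, Matrix.mul_apply, Fin.sum_univ_two]

theorem epsGL_inv : epsGL⁻¹ = epsGL := inv_eq_of_mul_eq_one_right epsGL_mul_self

theorem num_epsGL (z : ℂ) : num epsGL z = -z := by
  simp [num, epsGL_val]

theorem denom_epsGL (z : ℂ) : denom epsGL z = 1 := by
  simp [denom, epsGL_val]

theorem coe_epsGL_smul (z : ℍ) : ((epsGL • z : ℍ) : ℂ) = -conj (z : ℂ) := by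
  rw [UpperHalfPlane.coe_smul, num_epsGL, denom_epsGL, σ_epsGL]
  simp

theorem epsGL_smul_smul (z : ℍ) : epsGL • (epsGL • z) = z := by
  rw [← mul_smul, epsGL_mul_self, one_smul]

theorem im_epsGL_smul (z : ℍ) : (epsGL • z).im = z.im := by
  have := congrArg Complex.im (coe_epsGL_smul z)
  simpa using this

theorem slash_epsGL_apply (k : ℤ) (F : ℍ → ℂ) (z : ℍ) :
    (F ∣[k] epsGL) z = conj (F (epsGL • z)) := by
  rw [ModularForm.slash_apply, σ_epsGL, epsGL_det, denom_epsGL]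
  simp

/-- conjugation by `ε` on `SL(2, ℤ)` is `jConjSL` -/
theorem epsGL_mul_mapGL (γ : SL(2, ℤ)) :
    epsGL * Matrix.SpecialLinearGroup.mapGL ℝ γ =
      Matrix.SpecialLinearGroup.mapGL ℝ (jConjSL γ) * epsGL := by
  apply Matrix.GeneralLinearGroup.ext
  intro i j
  fin_cases i <;> fin_cases j <;>
    simp [epsGL_val, Matrix.mul_apply, Fin.sum_univ_two, Matrix.SpecialLinearGroup.mapGL,
      jConjSL_coe, jConjMat]

theorem slash_epsGL_SL (k : ℤ) (F : ℍ → ℂ) (γ : SL(2, ℤ)) :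
    (F ∣[k] epsGL) ∣[k] γ = (F ∣[k] (jConjSL γ)) ∣[k] epsGL := by
  rw [ModularForm.SL_slash, ModularForm.SL_slash, ← SlashAction.slash_mul,
    ← SlashAction.slash_mul]
  exact congrArg (fun M => F ∣[k] M) (epsGL_mul_mapGL γ)

theorem slash_epsGL_epsGL (k : ℤ) (F : ℍ → ℂ) : (F ∣[k] epsGL) ∣[k] epsGL = F := by
  rw [← SlashAction.slash_mul, epsGL_mul_self, SlashAction.slash_one]

/-- the conjugate function `z ↦ conj (φ (-conj z))` -/
def cj (φ : ℍ → ℂ) : ℍ → ℂ := fun z => conj (φ (epsGL • z))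

theorem slash_epsGL_eq_cj (k : ℤ) (φ : ℍ → ℂ) : φ ∣[k] epsGL = cj φ :=
  funext fun z => slash_epsGL_apply k φ z

@[simp] theorem cj_apply (φ : ℍ → ℂ) (z : ℍ) : cj φ z = conj (φ (epsGL • z)) := rfl

theorem cj_cj (φ : ℍ → ℂ) : cj (cj φ) = φ := by
  ext z
  simp [epsGL_smul_smul]

variable (N : ℕ)

open ConjAct Pointwise in
theorem conjAct_epsGL_Gamma0 :
    toConjAct epsGL⁻¹ • (Gamma0 N : Subgroup (GL (Fin 2) ℝ)) = (Gamma0 N : Subgroup (GL (Fin 2) ℝ)) := by
  ext x
  rw [map_inv, Subgroup.mem_inv_pointwise_smul_iff, toConjAct_smul]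
  constructor
  · rintro ⟨γ, hγ, hx⟩
    refine ⟨jConjSL γ, jConjSL_mem_Gamma0 hγ, ?_⟩
    have h1 : x = epsGL⁻¹ * (Matrix.SpecialLinearGroup.mapGL ℝ γ) * epsGL := by
      rw [hx]; group
    have h2 := epsGL_mul_mapGL (jConjSL γ)
    rw [jConjSL_jConjSL] at h2
    rw [h1, epsGL_inv, mul_assoc, ← h2, ← mul_assoc, epsGL_mul_self, one_mul]
  · rintro ⟨γ, hγ, rfl⟩
    refine ⟨jConjSL γ, jConjSL_mem_Gamma0 hγ, ?_⟩
    rw [epsGL_mul_mapGL, mul_assoc, mul_inv_cancel, mul_one]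

/-- transport of cusp forms along an equality of levels -/
def cuspFormCongr {Γ Γ' : Subgroup (GL (Fin 2) ℝ)} (h : Γ = Γ') (k : ℤ) (f : CuspForm Γ k) :
    CuspForm Γ' k := h ▸ f

theorem coe_cuspFormCongr {Γ Γ' : Subgroup (GL (Fin 2) ℝ)} (h : Γ = Γ') (k : ℤ)
    (f : CuspForm Γ k) : ⇑(cuspFormCongr h k f) = ⇑f := by
  subst h; rfl

/-- the conjugate cusp form `z ↦ conj (f (-conj z))` -/
def conjForm (f : CuspForm (Gamma0 N) 2) : CuspForm (Gamma0 N) 2 :=
  cuspFormCongr (conjAct_epsGL_Gamma0 N) 2 (CuspForm.translate f epsGL)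

theorem coe_conjForm (f : CuspForm (Gamma0 N) 2) : ⇑(conjForm N f) = cj ⇑f := by
  rw [conjForm, coe_cuspFormCongr]
  exact slash_epsGL_eq_cj 2 _

theorem ofComplex_neg_conj {w : ℂ} (hw : 0 < w.im) :
    (ofComplex (-conj w) : ℍ) = epsGL • ofComplex w := by
  ext
  rw [coe_epsGL_smul, ofComplex_apply_of_im_pos hw, ofComplex_apply_of_im_pos (by simpa using hw)]

/-- derivative of `-cj A` -/
theorem hasDerivAt_neg_cj {A a : ℍ → ℂ}
    (hA : ∀ τ : ℍ, HasDerivAt (A ∘ ofComplex) (a τ) ↑τ) (τ : ℍ) :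
    HasDerivAt ((-cj A) ∘ ofComplex) (cj a τ) ↑τ := by
  set B := A ∘ ofComplex with hB
  have h0 : HasDerivAt B (a (epsGL • τ)) (-(conj (τ : ℂ))) := by
    have := hA (epsGL • τ)
    rwa [coe_epsGL_smul] at this
  have h1 : HasDerivAt (fun u => B (-u)) (a (epsGL • τ) * (-1)) (conj (τ : ℂ)) :=
    HasDerivAt.comp (conj (τ : ℂ)) h0 (hasDerivAt_neg (conj (τ : ℂ)))
  have h2 := h1.conj_conj
  rw [Complex.conj_conj] at h2
  have h3 := h2.neg
  have hval : -(conj (a (epsGL • τ) * (-1))) = cj a τ := by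
    simp
  rw [hval] at h3
  refine h3.congr_of_eventuallyEq ?_
  filter_upwards [isOpen_upperHalfPlaneSet.mem_nhds τ.im_pos] with w hw
  simp only [Function.comp_apply, Pi.neg_apply, cj_apply, hB]
  rw [ofComplex_neg_conj hw]

theorem tendsto_epsGL_smul_atImInfty : Tendsto (fun z : ℍ => epsGL • z) atImInfty atImInfty := by
  rw [atImInfty, tendsto_comap_iff]
  have : (UpperHalfPlane.im ∘ fun z : ℍ => epsGL • z) = UpperHalfPlane.im := by
    ext z; exact im_epsGL_smul z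
  rw [this]
  exact tendsto_comap

theorem tendsto_neg_cj {A : ℍ → ℂ} (hA : Tendsto A atImInfty (𝓝 0)) :
    Tendsto (-cj A) atImInfty (𝓝 0) := by
  have h1 : Tendsto (fun z : ℍ => A (epsGL • z)) atImInfty (𝓝 0) :=
    hA.comp tendsto_epsGL_smul_atImInfty
  have h2 : Tendsto (fun z : ℍ => conj (A (epsGL • z))) atImInfty (𝓝 (conj 0)) :=
    (Complex.continuous_conj.tendsto 0).comp h1
  have h3 := h2.neg
  simp only [map_zero, neg_zero] at h3
  exact h3

variable [NeZero N]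

/-- the primitive of the conjugate form -/
theorem prim_conjForm (f : CuspForm (Gamma0 N) 2) :
    prim ⇑(conjForm N f) = -cj (prim ⇑f) := by
  have hf := isCuspidalAll_two N f
  symm
  refine eq_prim_of_hasDerivAt (isCuspidalAll_two N (conjForm N f)) ?_ ?_
  · intro τ
    rw [coe_conjForm]
    exact hasDerivAt_neg_cj (hasDerivAt_prim hf) τ
  · exact tendsto_neg_cj (tendsto_prim_atImInfty hf)

theorem epsGL_smul_SL_smul (γ : SL(2, ℤ)) (z : ℍ) :
    epsGL • (γ • z) = (jConjSL γ) • (epsGL • z) := by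
  have h1 : γ • z = (Matrix.SpecialLinearGroup.mapGL ℝ γ) • z := rfl
  have h2 : (jConjSL γ) • (epsGL • z) =
      (Matrix.SpecialLinearGroup.mapGL ℝ (jConjSL γ)) • (epsGL • z) := rfl
  rw [h1, h2, ← mul_smul, ← mul_smul, epsGL_mul_mapGL]

/-- **B2**: periods of the conjugate form -/
theorem periodMap_conjForm (f : CuspForm (Gamma0 N) 2) (γ : Gamma0 N) :
    periodMap N (conjForm N f) (Additive.ofMul γ) =
      -conj (periodMap N f (Additive.ofMul (jConjGamma0 N γ))) := by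
  rw [periodMap_apply N _ γ UpperHalfPlane.I,
    periodMap_apply N f (jConjGamma0 N γ) (epsGL • UpperHalfPlane.I), prim_conjForm]
  simp only [Pi.neg_apply, cj_apply, jConjGamma0_coe, epsGL_smul_SL_smul, map_sub]
  ring

end

end Fermat.Agent.ES
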