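import Mathlib
import Fermat.Agent.Lib.ES.QLaurent

/-!
# The Laurent `q`-expansion of the normalized derivative `D g = (2πi)⁻¹ g'`

If `g` has the `q_h`-Laurent expansion `∑ aₘ q_h^m` then `D g` has the expansion
`∑ (m / h) aₘ q_h^m`.
-/

set_option autoImplicit false

namespace Fermat.Agent.ES

open ModularForm Filter Topology Function Complex Derivative
open UpperHalfPlane hiding I
open scoped ModularForm Manifold Real MatrixGroups

local notation "𝕢" => Periodic.qParam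

theorem hasDerivAt_qParam (h : ℝ) (z : ℂ) :
    HasDerivAt (𝕢 h) (2 * π * I / h * 𝕢 h z) z := by
  unfold Periodic.qParam
  have h1 : HasDerivAt (fun z : ℂ => 2 * π * I * z / (h : ℂ)) (2 * π * I / h) z := by
    simpa using ((hasDerivAt_id z).const_mul (2 * π * I)).div_const ((h : ℂ))
  exact h1.cexp.congr_deriv (mul_comm _ _)

/-- `D F = (1/h) q F̃'(q)` in terms of the cusp function, period `h`. -/
theorem D_eq_qParam_mul_deriv_cuspFunction' {h : ℝ} (hh : 0 < h) {F : ℍ → ℂ} (hF : IsNice h F)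
    (τ : ℍ) :
    D F τ = (h : ℂ)⁻¹ * (𝕢 h (τ : ℂ) * deriv (cuspFunction h F) (𝕢 h (τ : ℂ))) := by
  have hq : ‖𝕢 h (τ : ℂ)‖ < 1 := Periodic.norm_qParam_lt_one hh τ.im_pos
  have hd := (differentiableAt_cuspFunction hh hF.periodic' hF.mdiff hF.bdd hq).hasDerivAt
  have hcomp := hd.comp (τ : ℂ) (hasDerivAt_qParam h (τ : ℂ))
  have heq : (cuspFunction h F ∘ 𝕢 h) = F ∘ ofComplex := by
    funext z
    exact Periodic.eq_cuspFunction hh.ne' hF.periodic' z
  rw [heq] at hcomp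
  rw [normalizedDerivOfComplex, hcomp.deriv]
  have hpi : (2 * π * I : ℂ) ≠ 0 := by
    simp [Real.pi_ne_zero]
  have hh' : (h : ℂ) ≠ 0 := by exact_mod_cast hh.ne'
  field_simp

/-- `D q_h = (1/h) q_h` -/
theorem D_qH {h : ℝ} (τ : ℍ) : D (qH h) τ = (h : ℂ)⁻¹ * qH h τ := by
  have heq : (qH h ∘ ofComplex) =ᶠ[𝓝 (τ : ℂ)] 𝕢 h := by
    have hopen : IsOpen {w : ℂ | 0 < w.im} := isOpen_lt continuous_const Complex.continuous_im
    filter_upwards [hopen.mem_nhds τ.im_pos] with w hw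
    simp only [comp_apply, qH, ofComplex_apply_of_im_pos hw]
  rw [normalizedDerivOfComplex, heq.deriv_eq, (hasDerivAt_qParam h (τ : ℂ)).deriv]
  have hpi : (2 * π * I : ℂ) ≠ 0 := by
    simp [Real.pi_ne_zero]
  rcases eq_or_ne (h : ℂ) 0 with h0 | h0
  · simp [h0]
  · simp only [qH]
    field_simp

/-- termwise differentiation of the `q`-expansion: `q F̃'(q) = ∑ n aₙ qⁿ` -/
theorem hasSum_mul_deriv_cuspFunction {h : ℝ} (hh : 0 < h) {F : ℍ → ℂ} (hF : IsNice h F) {y : ℂ}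
    (hy : ‖y‖ < 1) :
    HasSum (fun n : ℕ => (n : ℂ) * (qExpansion h F).coeff n * y ^ n)
      (y * deriv (cuspFunction h F) y) := by
  set a : ℕ → ℂ := fun n => (qExpansion h F).coeff n with ha
  have P : HasFPowerSeriesOnBall (cuspFunction h F) (.ofScalars ℂ a) 0 1 :=
    hasFPowerSeriesOnBall_cuspFunction hh (hF.analyticAt hh) (fun τ => hF.hasSum hh τ)
  have P' := P.fderiv
  have hy' : y ∈ Metric.eball (0 : ℂ) 1 := by
    rw [← ENNReal.coe_one, Metric.eball_coe, NNReal.coe_one, mem_ball_zero_iff]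
    exact hy
  have S := P'.hasSum hy'
  have S2 := (ContinuousLinearMap.apply ℂ ℂ y).hasSum S
  rw [zero_add] at S2
  have hd := differentiableAt_cuspFunction hh hF.periodic' hF.mdiff hF.bdd hy
  have hfd : fderiv ℂ (cuspFunction h F) y =
      ContinuousLinearMap.smulRight (1 : ℂ →L[ℂ] ℂ) (deriv (cuspFunction h F) y) :=
    hd.hasDerivAt.hasFDerivAt.fderiv
  have hval : (ContinuousLinearMap.apply ℂ ℂ y) (fderiv ℂ (cuspFunction h F) y)
      = y * deriv (cuspFunction h F) y := by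
    rw [hfd]
    simp
  rw [hval] at S2
  have hterm : ∀ n : ℕ, (ContinuousLinearMap.apply ℂ ℂ y)
      ((FormalMultilinearSeries.ofScalars ℂ a).derivSeries n fun _ => y)
      = ((n + 1 : ℕ) : ℂ) * a (n + 1) * y ^ (n + 1) := by
    intro n
    show ((FormalMultilinearSeries.ofScalars ℂ a).derivSeries n fun _ => y) y = _
    rw [FormalMultilinearSeries.derivSeries_apply_diag,
      FormalMultilinearSeries.ofScalars_apply_eq]
    simp only [nsmul_eq_mul, smul_eq_mul]
    push_cast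
    ring
  simp only [hterm] at S2
  have key := (hasSum_nat_add_iff (f := fun n : ℕ => (n : ℂ) * a n * y ^ n) 1).mp S2
  simpa using key

section

variable {h : ℕ} [NeZero h] {g : ℍ → ℂ}

omit [NeZero h] in
theorem D_vadd_of_periodic (hper : ∀ z : ℍ, g ((h : ℝ) +ᵥ z) = g z) (z : ℍ) :
    D g ((h : ℝ) +ᵥ z) = D g z := by
  have hp : Periodic (g ∘ ofComplex) (h : ℝ) := periodic_comp_ofComplex_of hper
  have h1 : (fun w : ℂ => (g ∘ ofComplex) (w + ((h : ℝ) : ℂ))) = g ∘ ofComplex := by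
    funext w
    exact hp w
  have h2 : deriv (g ∘ ofComplex) ((z : ℂ) + ((h : ℝ) : ℂ)) = deriv (g ∘ ofComplex) (z : ℂ) := by
    conv_rhs => rw [← h1]
    rw [deriv_comp_add_const]
  have h3 : (((h : ℝ) +ᵥ z : ℍ) : ℂ) = (z : ℂ) + ((h : ℝ) : ℂ) := by
    rw [UpperHalfPlane.coe_vadd, add_comm]
  rw [normalizedDerivOfComplex, normalizedDerivOfComplex, h3, h2]

/-- **The Laurent `q`-expansion of `D g`**: coefficientwise multiplication by `m / h`. -/
theorem qLaurent_D (hg : IsQLaurentable h g) :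
    IsQLaurentable h (D g) ∧
      ∀ m : ℤ, (qLaurent h (D g)).coeff m = (m : ℂ) / h * (qLaurent h g).coeff m := by
  obtain ⟨k, hk⟩ := hg.exists_bdd
  have hh := pos_of_neZero h
  have hh' : ((h : ℝ) : ℂ) ≠ 0 := by exact_mod_cast hh.ne'
  set G : ℍ → ℂ := fun z => g z * qH h z ^ k with hGdef
  have hG : IsNice (h : ℝ) G := hg.isNice hk
  set a : ℕ → ℂ := fun n => (qExpansion h G).coeff n with ha
  -- the key identity
  have hkey : ∀ z : ℍ, D g z * qH h z ^ k = ((h : ℝ) : ℂ)⁻¹ *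
      (𝕢 h (z : ℂ) * deriv (cuspFunction h G) (𝕢 h (z : ℂ)) - k * G z) := by
    intro z
    have hGmul : G = g * (qH (h : ℝ)) ^ k := rfl
    have h1 := D_eq_qParam_mul_deriv_cuspFunction' hh hG z
    rw [hGmul, normalizedDerivOfComplex_mul g _ hg.mdiff (mdiff_qH.pow k),
      normalizedDerivOfComplex_pow _ k mdiff_qH] at h1
    simp only [Pi.add_apply, Pi.mul_apply, Pi.pow_apply, Pi.natCast_apply, D_qH] at h1
    have hpow : (k : ℂ) * qH (h : ℝ) z ^ (k - 1) * (((h : ℝ) : ℂ)⁻¹ * qH (h : ℝ) z)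
        = ((h : ℝ) : ℂ)⁻¹ * (k * qH (h : ℝ) z ^ k) := by
      rcases Nat.eq_zero_or_pos k with rfl | hkpos
      · simp
      · have : qH (h : ℝ) z ^ k = qH (h : ℝ) z ^ (k - 1) * qH (h : ℝ) z := by
          rw [← pow_succ, Nat.sub_add_cancel hkpos]
        rw [this]
        ring
    rw [hpow] at h1
    rw [← hGmul] at h1
    have h2 : D g z * qH (h : ℝ) z ^ k = ((h : ℝ) : ℂ)⁻¹ *
        (𝕢 h (z : ℂ) * deriv (cuspFunction h G) (𝕢 h (z : ℂ)))
        - g z * (((h : ℝ) : ℂ)⁻¹ * (k * qH (h : ℝ) z ^ k)) := by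
      rw [← h1]; ring
    rw [h2, hGdef]
    ring
  -- the resulting expansion
  set a' : ℕ → ℂ := fun n => ((n : ℂ) - k) / ((h : ℝ) : ℂ) * a n with ha'
  have hsum : ∀ z : ℍ, HasSum (fun n : ℕ => a' n • 𝕢 h z ^ n) (D g z * qH h z ^ k) := by
    intro z
    have hq : ‖𝕢 h (z : ℂ)‖ < 1 := Periodic.norm_qParam_lt_one hh z.im_pos
    have s1 := hasSum_mul_deriv_cuspFunction hh hG hq
    have s2 := (hG.hasSum hh z).mul_left (k : ℂ)
    have s3 := (s1.sub s2).mul_left (((h : ℝ) : ℂ)⁻¹)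
    rw [hkey z]
    refine s3.congr_fun ?_ |>.trans ?_
    · intro n
      simp only [ha', ha, smul_eq_mul]
      field_simp
    · rfl
  have hmd : MDiff (D g) := normalizedDerivOfComplex_mdifferentiable hg.mdiff
  have hper := D_vadd_of_periodic hg.periodic
  refine ⟨isQLaurentable_of_hasSum hmd hper k a' hsum, fun m => ?_⟩
  rw [qLaurent_coeff_of_hasSum hmd hper k a' hsum m, qLaurent_coeff hg hk m]
  split_ifs with hm
  · simp only [ha', ha]
    have : (((m + k).toNat : ℕ) : ℂ) = (m : ℂ) + k := by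
      have : (((m + k).toNat : ℕ) : ℤ) = m + k := Int.toNat_of_nonneg hm
      exact_mod_cast congrArg (Int.cast (R := ℂ)) this
    rw [this]
    push_cast
    ring
  · simp

end

end Fermat.Agent.ES
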