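import Mathlib
import Fermat.Prelude.Def_ModularCurve_LaurentCoeff

/-!
# Linear independence of Laurent series under extension of the coefficient field
(P1b dictionary, L3)
-/

set_option autoImplicit false

namespace Fermat.Agent.ES

open ModularCurve

/-- `K`-linearly independent Laurent series over `K` stay linearly independent over a bigger
field `L` after mapping the coefficients. -/
theorem linearIndependent_coeffMap {K L : Type*} [Field K] [Field L] [Algebra K L]
    {ι : Type*} (h : ι → LaurentSeries K) (hli : LinearIndependent K h) :
    LinearIndependent L (fun i => coeffMap (algebraMap K L) (h i)) := by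
  classical
  rw [linearIndependent_iff']
  intro s c hc i hi
  -- a `K`-basis of `L`
  set B := Module.Basis.ofVectorSpace K L with hB
  -- it suffices to show that all coordinates of `c i` vanish
  have hcoord : ∀ b, ∀ i ∈ s, B.repr (c i) b = 0 := by
    intro b
    have hrel : ∑ i ∈ s, (B.repr (c i) b) • h i = 0 := by
      ext d
      have hd := congrArg (fun x : LaurentSeries L => x.coeff d) hc
      simp only [HahnSeries.coeff_sum, HahnSeries.coeff_smul, coeffMap_coeff, smul_eq_mul,
        HahnSeries.coeff_zero] at hd ⊢
      have h2 := congrArg (fun x : L => B.repr x b) hd
      simp only [map_sum, map_zero, Finsupp.coe_finset_sum, Finset.sum_apply,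
        Finsupp.coe_zero, Pi.zero_apply] at h2
      rw [← h2]
      refine Finset.sum_congr rfl fun i _ => ?_
      have : c i * algebraMap K L ((h i).coeff d) = ((h i).coeff d) • c i := by
        rw [Algebra.smul_def, mul_comm]
      rw [this, map_smul, Finsupp.smul_apply, smul_eq_mul, mul_comm]
    exact linearIndependent_iff'.mp hli s _ hrel
  have : B.repr (c i) = 0 := by
    ext b
    exact hcoord b i hi
  simpa using this

/-- version for a ring homomorphism between fields -/
theorem linearIndependent_coeffMap_ringHom {K L : Type*} [Field K] [Field L] (φ : K →+* L)
    {ι : Type*} (h : ι → LaurentSeries K) (hli : LinearIndependent K h) :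
    LinearIndependent L (fun i => coeffMap φ (h i)) := by
  letI : Algebra K L := φ.toAlgebra
  exact linearIndependent_coeffMap h hli

end Fermat.Agent.ES
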