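import Mathlib
import Fermat.Agent.Lib.ES.QLaurent

/-!
# Quotients at the cusp (P1b dictionary, L2)

* `IsNice.exists_lower_bound`: a nonzero nice function is bounded below by `c |q|^m` near `i∞`.
* `isQLaurentable_of_mul_eq`: if `g b = a` with `a, b` Laurent-expandable and `b ≠ 0`, `g`
  holomorphic and periodic, then `g` is Laurent-expandable.
* `isZeroAtImInfty_of_coeff_eq_zero`: vanishing of all coefficients of index `≤ 0` gives vanishing
  at `i∞`.
-/

set_option autoImplicit false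

namespace Fermat.Agent.ES

open UpperHalfPlane ModularForm Filter Topology Function
open scoped ModularForm Manifold

local notation "𝕢" => Periodic.qParam

variable {h : ℕ} [NeZero h]

theorem IsNice.eventually_eq_cuspFunction {F : ℍ → ℂ} (hF : IsNice (h : ℝ) F) (τ : ℍ) :
    cuspFunction h F (qH h τ) = F τ :=
  eq_cuspFunction τ (pos_of_neZero h).ne' hF.periodic'

/-- if the first `m` coefficients vanish, `F = q^m G(q)` near `i∞` with `G` analytic at `0` -/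
theorem IsNice.exists_eq_pow_mul {F : ℍ → ℂ} (hF : IsNice (h : ℝ) F) (m : ℕ)
    (hm : ∀ i < m, (qExpansion h F).coeff i = 0) :
    ∃ G : ℂ → ℂ, AnalyticAt ℂ G 0 ∧
      ∀ᶠ τ in atImInfty, F τ = qH h τ ^ m * G (qH h τ) := by
  have hh := pos_of_neZero h
  have han := hF.analyticAt hh
  have hle : (m : ℕ∞) ≤ analyticOrderAt (cuspFunction h F) 0 := by
    rw [natCast_le_analyticOrderAt_iff_iteratedDeriv_eq_zero han]
    intro i hi
    have := hm i hi
    rw [qExpansion_coeff] at this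
    have hfac : ((i.factorial : ℂ))⁻¹ ≠ 0 := by
      simp [Nat.factorial_ne_zero]
    exact (mul_eq_zero.mp this).resolve_left hfac
  obtain ⟨G, hG, hGeq⟩ := (natCast_le_analyticOrderAt han).mp hle
  refine ⟨G, hG, ?_⟩
  have hq : Tendsto (fun τ : ℍ => qH h τ) atImInfty (𝓝 0) :=
    qParam_tendsto_atImInfty (h := (h : ℝ)) hh
  filter_upwards [hq.eventually hGeq] with τ hτ
  rw [← hF.eventually_eq_cuspFunction τ, hτ]
  simp

/-- a nonzero nice function is bounded below by `c |q|^m` near `i∞` -/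
theorem IsNice.exists_lower_bound {F : ℍ → ℂ} (hF : IsNice (h : ℝ) F) (hF0 : F ≠ 0) :
    ∃ m : ℕ, ∃ c : ℝ, 0 < c ∧ ∀ᶠ τ in atImInfty, c * ‖qH h τ‖ ^ m ≤ ‖F τ‖ := by
  have hh := pos_of_neZero h
  have han := hF.analyticAt hh
  have hfin : analyticOrderAt (cuspFunction h F) 0 ≠ ⊤ := by
    intro htop
    apply hF0
    rw [← hF.qExpansion_eq_zero_iff hh]
    ext i
    rw [qExpansion_coeff, map_zero]
    have : ((i + 1 : ℕ) : ℕ∞) ≤ analyticOrderAt (cuspFunction h F) 0 := by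
      rw [htop]; exact le_top
    rw [natCast_le_analyticOrderAt_iff_iteratedDeriv_eq_zero han] at this
    rw [this i (Nat.lt_succ_self i), mul_zero]
  obtain ⟨m, hm⟩ := ENat.ne_top_iff_exists.mp hfin
  obtain ⟨G, hG, hG0, hGeq⟩ := han.analyticOrderAt_eq_natCast.mp hm.symm
  have hGpos : 0 < ‖G 0‖ / 2 := by positivity
  refine ⟨m, ‖G 0‖ / 2, hGpos, ?_⟩
  have hq : Tendsto (fun τ : ℍ => qH h τ) atImInfty (𝓝 0) :=
    qParam_tendsto_atImInfty (h := (h : ℝ)) hh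
  have hGnear : ∀ᶠ q in 𝓝 (0 : ℂ), ‖G 0‖ / 2 ≤ ‖G q‖ := by
    have hc : Tendsto (fun q => ‖G q‖) (𝓝 0) (𝓝 ‖G 0‖) := hG.continuousAt.norm.tendsto
    have hlt : ‖G 0‖ / 2 < ‖G 0‖ := by linarith [norm_pos_iff.mpr hG0]
    filter_upwards [hc.eventually (lt_mem_nhds hlt)] with q hq using hq.le
  filter_upwards [hq.eventually hGeq, hq.eventually hGnear] with τ hτ1 hτ2
  rw [← hF.eventually_eq_cuspFunction τ, hτ1]
  simp only [sub_zero, smul_eq_mul, norm_mul, norm_pow]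
  rw [mul_comm]
  exact mul_le_mul_of_nonneg_left hτ2 (by positivity)

/-- **Quotient lemma.** -/
theorem isQLaurentable_of_mul_eq {g a b : ℍ → ℂ} (hg : MDiff g)
    (hper : ∀ z : ℍ, g ((h : ℝ) +ᵥ z) = g z) (ha : IsQLaurentable h a)
    (hb : IsQLaurentable h b) (hb0 : b ≠ 0) (hmul : ∀ τ, g τ * b τ = a τ) :
    IsQLaurentable h g := by
  have hh := pos_of_neZero h
  refine ⟨hg, hper, ?_⟩
  rw [isMeroAtImInfty_iff h]
  obtain ⟨ka, hka⟩ := ha.exists_bdd
  obtain ⟨kb, hkb⟩ := hb.exists_bdd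
  have hBnice := hb.isNice hkb
  have hB0 : (fun z => b z * qH h z ^ kb) ≠ 0 := by
    intro h0
    apply hb0
    ext z
    have := congrFun h0 z
    simp only [Pi.zero_apply, mul_eq_zero] at this
    exact this.resolve_right (pow_ne_zero _ (qH_ne_zero h z))
  obtain ⟨m, c, hc, hlow⟩ := hBnice.exists_lower_bound hB0
  refine ⟨ka + m, ?_⟩
  rw [isBoundedAtImInfty_iff] at hka ⊢
  obtain ⟨M, A, hM⟩ := hka
  obtain ⟨A', hA'⟩ := (atImInfty_mem _).mp hlow
  refine ⟨M / c, max A A', fun z hz => ?_⟩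
  have hz1 : A ≤ z.im := le_trans (le_max_left _ _) hz
  have hz2 : A' ≤ z.im := le_trans (le_max_right _ _) hz
  have h1 := hM z hz1
  have h2 : c * ‖qH h z‖ ^ m ≤ ‖b z * qH h z ^ kb‖ := hA' z hz2
  have hq0 : 0 < ‖qH h z‖ := norm_pos_iff.mpr (qH_ne_zero h z)
  have hq1 : ‖qH h z‖ ≤ 1 := (norm_qH_lt_one hh z).le
  have hbne : b z ≠ 0 := by
    intro hbz
    rw [hbz, zero_mul, norm_zero] at h2
    have : 0 < c * ‖qH h z‖ ^ m := by positivity
    linarith
  have hgz : g z = a z / b z := by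
    rw [eq_div_iff hbne, hmul]
  -- estimate
  have hbpos : 0 < ‖b z‖ := norm_pos_iff.mpr hbne
  rw [hgz, norm_mul, norm_div, norm_pow, pow_add]
  rw [norm_mul, norm_pow] at h1 h2
  have hkey : ‖a z‖ * ‖qH h z‖ ^ ka * (c * ‖qH h z‖ ^ m) ≤ M * (‖b z‖ * ‖qH h z‖ ^ kb) := by
    have hM0 : 0 ≤ M := le_trans (by positivity) h1
    calc ‖a z‖ * ‖qH h z‖ ^ ka * (c * ‖qH h z‖ ^ m)
        ≤ M * (c * ‖qH h z‖ ^ m) := mul_le_mul_of_nonneg_right h1 (by positivity)
      _ ≤ M * (‖b z‖ * ‖qH h z‖ ^ kb) := mul_le_mul_of_nonneg_left h2 hM0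
  have hkb1 : ‖qH h z‖ ^ kb ≤ 1 := pow_le_one₀ hq0.le hq1
  have hM0 : 0 ≤ M := le_trans (by positivity) h1
  rw [div_mul_eq_mul_div, div_le_div_iff₀ hbpos hc]
  calc ‖a z‖ * (‖qH h z‖ ^ ka * ‖qH h z‖ ^ m) * c
      = ‖a z‖ * ‖qH h z‖ ^ ka * (c * ‖qH h z‖ ^ m) := by ring
    _ ≤ M * (‖b z‖ * ‖qH h z‖ ^ kb) := hkey
    _ ≤ M * (‖b z‖ * 1) := by
        exact mul_le_mul_of_nonneg_left (mul_le_mul_of_nonneg_left hkb1 hbpos.le) hM0
    _ = M * ‖b z‖ := by ring

/-- under the hypotheses of the quotient lemma the Laurent expansions multiply -/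
theorem qLaurent_mul_eq_of_mul_eq {g a b : ℍ → ℂ} (hg : MDiff g)
    (hper : ∀ z : ℍ, g ((h : ℝ) +ᵥ z) = g z) (ha : IsQLaurentable h a)
    (hb : IsQLaurentable h b) (hb0 : b ≠ 0) (hmul : ∀ τ, g τ * b τ = a τ) :
    qLaurent h g * qLaurent h b = qLaurent h a := by
  have hgl := isQLaurentable_of_mul_eq hg hper ha hb hb0 hmul
  rw [← qLaurent_mul hgl hb]
  congr 1
  ext τ
  exact hmul τ

/-- a Laurent-expandable function whose coefficients of index `≤ 0` vanish is zero at `i∞` -/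
theorem isZeroAtImInfty_of_coeff_eq_zero {g : ℍ → ℂ} (hg : IsQLaurentable h g)
    (hcoeff : ∀ m : ℤ, m ≤ 0 → (qLaurent h g).coeff m = 0) : IsZeroAtImInfty g := by
  have hh := pos_of_neZero h
  obtain ⟨k, hk⟩ := hg.exists_bdd
  have hN := hg.isNice hk
  have hm : ∀ i < k + 1, (qExpansion h (fun z => g z * qH h z ^ k)).coeff i = 0 := by
    intro i hi
    rw [← qLaurent_coeff_natCast_sub hg hk i]
    apply hcoeff
    omega
  obtain ⟨G, hG, hGeq⟩ := hN.exists_eq_pow_mul (k + 1) hm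
  have hq : Tendsto (fun τ : ℍ => qH h τ) atImInfty (𝓝 0) :=
    qParam_tendsto_atImInfty (h := (h : ℝ)) hh
  have h1 : Tendsto (fun τ : ℍ => qH h τ * G (qH h τ)) atImInfty (𝓝 (0 * G 0)) :=
    hq.mul (hG.continuousAt.tendsto.comp hq)
  rw [zero_mul] at h1
  refine h1.congr' ?_
  filter_upwards [hGeq] with τ hτ
  have hq0 := pow_ne_zero k (qH_ne_zero h τ)
  have : g τ * qH h τ ^ k = (qH h τ * G (qH h τ)) * qH h τ ^ k := by
    rw [hτ, pow_succ]; ring
  exact (mul_right_cancel₀ hq0 this).symm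

end Fermat.Agent.ES
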