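import Mathlib

/-!
# Constructing weight 2 cusp forms on `Γ₀(N)` from analytic data (P1b dictionary, L4)
-/

set_option autoImplicit false

namespace Fermat.Agent.ES

open UpperHalfPlane ModularForm Matrix MatrixGroups Filter Topology CongruenceSubgroup OnePoint
open scoped ModularForm Manifold

/-- A holomorphic function which is weight `k` invariant under `Γ ≤ SL(2, ℤ)` and such that
`f ∣[k] γ` vanishes at `i∞` for every `γ ∈ SL(2, ℤ)` is a cusp form. -/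
noncomputable def cuspFormOfData (Γ : Subgroup SL(2, ℤ)) (k : ℤ) (f : ℍ → ℂ) (hf : MDiff f)
    (hinv : ∀ γ ∈ Γ, f ∣[k] γ = f)
    (hz : ∀ γ : SL(2, ℤ), IsZeroAtImInfty (f ∣[k] γ)) : CuspForm Γ k where
  toFun := f
  slash_action_eq' := by
    rintro _ ⟨γ, hγ, rfl⟩
    exact hinv γ hγ
  holo' := hf
  zero_at_cusps' {c} hc := by
    have hc' : IsCusp c 𝒮ℒ := by
      obtain ⟨g, hg, hgp, hgc⟩ := hc
      obtain ⟨γ, _, rfl⟩ := hg
      exact ⟨_, ⟨γ, rfl⟩, hgp, hgc⟩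
    rw [isZeroAt_iff_forall_SL2Z hc']
    intro γ _
    exact hz γ

@[simp]
theorem cuspFormOfData_apply (Γ : Subgroup SL(2, ℤ)) (k : ℤ) (f : ℍ → ℂ) (hf : MDiff f)
    (hinv : ∀ γ ∈ Γ, f ∣[k] γ = f)
    (hz : ∀ γ : SL(2, ℤ), IsZeroAtImInfty (f ∣[k] γ)) (τ : ℍ) :
    cuspFormOfData Γ k f hf hinv hz τ = f τ := rfl

theorem coe_cuspFormOfData (Γ : Subgroup SL(2, ℤ)) (k : ℤ) (f : ℍ → ℂ) (hf : MDiff f)
    (hinv : ∀ γ ∈ Γ, f ∣[k] γ = f)
    (hz : ∀ γ : SL(2, ℤ), IsZeroAtImInfty (f ∣[k] γ)) :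
    ⇑(cuspFormOfData Γ k f hf hinv hz) = f := rfl

end Fermat.Agent.ES
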