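import Mathlib
import Fermat.Agent.Lib.S24.JOrdDef

/-!
# Holomorphic division on `ℍ` (P1b dictionary, L1)

If `a, b` are holomorphic on `ℍ`, `b` has finite order everywhere and `ordAt b τ ≤ ordAt a τ`
for all `τ`, then `a / b` extends to a holomorphic function `f` with `f * b = a`.
-/

set_option autoImplicit false

namespace Fermat.Agent.ES

open UpperHalfPlane Filter Topology
open scoped Manifold
open Fermat.Agent.S24Lib (ordAt)

theorem analyticOnNhd_comp_ofComplex' {f : ℍ → ℂ} (hf : MDiff f) :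
    AnalyticOnNhd ℂ (f ∘ ofComplex) upperHalfPlaneSet :=
  (UpperHalfPlane.mdifferentiable_iff.mp hf).analyticOnNhd isOpen_upperHalfPlaneSet

/-- local division of analytic functions -/
theorem exists_analyticAt_mul_eq {A B : ℂ → ℂ} {z : ℂ} (hA : AnalyticAt ℂ A z)
    (hB : AnalyticAt ℂ B z) (hfin : analyticOrderAt B z ≠ ⊤)
    (hord : analyticOrderAt B z ≤ analyticOrderAt A z) :
    AnalyticAt ℂ (toMeromorphicNFAt (fun w => A w / B w) z) z ∧
      toMeromorphicNFAt (fun w => A w / B w) z z * B z = A z := by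
  have hQ : MeromorphicAt (fun w => A w / B w) z := hA.meromorphicAt.div hB.meromorphicAt
  have hord' : 0 ≤ meromorphicOrderAt (fun w => A w / B w) z := by
    rw [show (fun w => A w / B w) = A / B from rfl,
      meromorphicOrderAt_div hA.meromorphicAt hB.meromorphicAt, hA.meromorphicOrderAt_eq,
      hB.meromorphicOrderAt_eq]
    lift analyticOrderAt B z to ℕ using hfin with n hn
    cases hm : analyticOrderAt A z with
    | top => simp
    | coe m =>
      rw [hm] at hord
      have hnm : n ≤ m := by exact_mod_cast hord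
      simp only [ENat.map_natCast]
      have : ((m : ℤ) : WithTop ℤ) - ((n : ℤ) : WithTop ℤ) = (((m : ℤ) - (n : ℤ) : ℤ) : WithTop ℤ) := by
        rfl
      rw [this]
      have h0 : (0 : ℤ) ≤ (m : ℤ) - (n : ℤ) := by omega
      exact_mod_cast h0
  have han : AnalyticAt ℂ (toMeromorphicNFAt (fun w => A w / B w) z) z :=
    hQ.meromorphicOrderAt_nonneg_iff_analyticAt_toMeromorphicNFAt.mp hord'
  refine ⟨han, ?_⟩
  -- `B ≠ 0` on a punctured neighbourhood
  have hBne : ∀ᶠ w in 𝓝[≠] z, B w ≠ 0 := by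
    rcases hB.eventually_eq_zero_or_eventually_ne_zero with h | h
    · exact absurd (analyticOrderAt_eq_top.mpr h) hfin
    · exact h
  have heq : (fun w => toMeromorphicNFAt (fun w => A w / B w) z w * B w) =ᶠ[𝓝[≠] z] A := by
    filter_upwards [hQ.eq_nhdsNE_toMeromorphicNFAt, hBne] with w hw hBw
    rw [← hw]
    field_simp
  have hcont1 : ContinuousAt (fun w => toMeromorphicNFAt (fun w => A w / B w) z w * B w) z :=
    (han.continuousAt).mul hB.continuousAt
  have := (hcont1.eventuallyEq_nhds_iff_eventuallyEq_nhdsNE hA.continuousAt).mp heq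
  exact this.eq_of_nhds

/-- **Holomorphic division on `ℍ`.** -/
theorem exists_mdiff_mul_eq {a b : ℍ → ℂ} (ha : MDiff a) (hb : MDiff b)
    (hfin : ∀ τ : ℍ, ordAt b τ ≠ ⊤) (hord : ∀ τ : ℍ, ordAt b τ ≤ ordAt a τ) :
    ∃ f : ℍ → ℂ, MDiff f ∧ ∀ τ, f τ * b τ = a τ := by
  set A : ℂ → ℂ := a ∘ ofComplex with hA
  set B : ℂ → ℂ := b ∘ ofComplex with hB
  have hAan := analyticOnNhd_comp_ofComplex' ha
  have hBan := analyticOnNhd_comp_ofComplex' hb
  have hQ : MeromorphicOn (fun w => A w / B w) upperHalfPlaneSet := fun z hz =>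
    (hAan z hz).meromorphicAt.div (hBan z hz).meromorphicAt
  set F : ℂ → ℂ := toMeromorphicNFOn (fun w => A w / B w) upperHalfPlaneSet with hF
  have key : ∀ τ : ℍ, AnalyticAt ℂ F (τ : ℂ) ∧ F (τ : ℂ) * b τ = a τ := by
    intro τ
    have hz : (τ : ℂ) ∈ upperHalfPlaneSet := τ.im_pos
    obtain ⟨h1, h2⟩ := exists_analyticAt_mul_eq (hAan _ hz) (hBan _ hz) (hfin τ) (hord τ)
    have hev := toMeromorphicNFOn_eq_toMeromorphicNFAt_on_nhds hQ hz
    refine ⟨(analyticAt_congr hev).mpr h1, ?_⟩
    rw [hF, hev.eq_of_nhds]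
    simpa [hA, hB] using h2
  refine ⟨fun τ => F (τ : ℂ), ?_, fun τ => (key τ).2⟩
  rw [UpperHalfPlane.mdifferentiable_iff]
  have hdiff : DifferentiableOn ℂ F upperHalfPlaneSet := fun z hz =>
    ((key ⟨z, hz⟩).1).differentiableAt.differentiableWithinAt
  refine hdiff.congr fun z hz => ?_
  simp only [Function.comp_apply]
  rw [ofComplex_apply_of_im_pos hz]

end Fermat.Agent.ES
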