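/-
P1b (S20/S21/S23), dictionary: the weight two "form" `E₄² E₆ / Δ` (a nonzero constant multiple of
the derivative of `j`): holomorphy, weight two invariance, orders of vanishing, behaviour at `i∞`.
-/
import Mathlib
import Fermat.Agent.Lib.ES.QLaurent
import Fermat.Agent.Lib.S24.JLaurent
import Fermat.Agent.Lib.S24.JOrders

set_option autoImplicit false
set_option linter.unusedSectionVars false
set_option linter.style.haveILetI false

namespace Fermat.Agent.ES

open UpperHalfPlane Filter Topology Matrix MatrixGroups ModularForm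
open scoped ModularForm Manifold
open Fermat.Agent.S24Lib

local notation "Δ" => ModularForm.discriminant

/-- the function `E₄² E₆ / Δ`, a nonzero constant multiple of `dj/dτ` -/
noncomputable def jPrime (τ : ℍ) : ℂ := ModularForm.E₄ τ ^ 2 * ModularForm.E₆ τ / Δ τ

theorem jPrime_apply (τ : ℍ) : jPrime τ = ModularForm.E₄ τ ^ 2 * ModularForm.E₆ τ / Δ τ := rfl

theorem jPrime_mul_discriminant (τ : ℍ) :
    jPrime τ * Δ τ = ModularForm.E₄ τ ^ 2 * ModularForm.E₆ τ := by
  rw [jPrime, div_mul_cancel₀ _ (discriminant_ne_zero τ)]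

theorem mdiff_jPrime : MDiff jPrime := by
  have h3 : MDiff (fun τ : ℍ => ModularForm.E₄ τ ^ 2 * ModularForm.E₆ τ) :=
    (mdiff_E₄.pow 2).mul mdiff_E₆
  exact h3.div mdiff_discriminant discriminant_ne_zero

theorem jPrime_smul (γ : SL(2, ℤ)) (τ : ℍ) : jPrime (γ • τ) = denom γ τ ^ 2 * jPrime τ := by
  have hd : denom γ τ ≠ 0 := denom_ne_zero γ τ
  have hΔ := discriminant_ne_zero τ
  rw [jPrime, jPrime, E₄_smul, E₆_smul, discriminant_smul]
  have h4 : denom γ τ ^ (4 : ℤ) = denom γ τ ^ 4 := by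
    rw [← zpow_natCast]; norm_num
  have h6 : denom γ τ ^ (6 : ℤ) = denom γ τ ^ 6 := by
    rw [← zpow_natCast]; norm_num
  have h12 : denom γ τ ^ (12 : ℤ) = denom γ τ ^ 12 := by
    rw [← zpow_natCast]; norm_num
  rw [h4, h6, h12]
  field_simp

theorem jPrime_slash (γ : SL(2, ℤ)) : jPrime ∣[(2 : ℤ)] γ = jPrime := by
  funext τ
  rw [ModularForm.SL_slash_apply, jPrime_smul]
  have hd : denom γ τ ≠ 0 := denom_ne_zero γ τ
  rw [_root_.zpow_neg, mul_comm (denom γ τ ^ 2), mul_assoc]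
  have : denom γ τ ^ 2 * (denom γ τ ^ (2 : ℤ))⁻¹ = 1 := by
    rw [← zpow_natCast (denom γ τ) 2]
    exact mul_inv_cancel₀ (zpow_ne_zero _ hd)
  rw [this, mul_one]

theorem jPrime_ne_zero : jPrime ≠ 0 := by
  intro h
  obtain ⟨τ₀, hτ₀⟩ := jFun_surjective 1
  have h0 : jFun τ₀ ≠ 0 := by rw [hτ₀]; exact one_ne_zero
  have h1728 : jFun τ₀ ≠ 1728 := by rw [hτ₀]; norm_num
  have h4 : ModularForm.E₄ τ₀ ≠ 0 := fun h' => h0 ((jFun_eq_zero_iff τ₀).mpr h')
  have h6 : ModularForm.E₆ τ₀ ≠ 0 := fun h' => h1728 ((jFun_eq_1728_iff τ₀).mpr h')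
  have := congrFun h τ₀
  simp only [Pi.zero_apply, jPrime] at this
  rw [div_eq_zero_iff] at this
  rcases this with h' | h'
  · exact mul_ne_zero (pow_ne_zero 2 h4) h6 h'
  · exact discriminant_ne_zero τ₀ h'

/-! ### Relation with the derivative of `j`, orders of vanishing -/

theorem exists_deriv_jFun_eq_jPrime :
    ∃ κ : ℂ, κ ≠ 0 ∧ ∀ τ : ℍ, deriv (jFun ∘ ofComplex) =ᶠ[𝓝 (τ : ℂ)]
      fun z => κ * (jPrime ∘ ofComplex) z := by
  obtain ⟨κ, hκ, hd⟩ := exists_deriv_jFun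
  refine ⟨κ, hκ, fun τ => ?_⟩
  filter_upwards [hd τ] with z hz
  rw [hz]
  simp only [Function.comp_apply, jPrime]
  ring

/-- the order of `jPrime` at `τ₀` is one less than the order of `j - j(τ₀)` -/
theorem ordAt_jPrime_add_one (τ₀ : ℍ) :
    ordAt jPrime τ₀ + 1 = ordAt (fun τ => jFun τ - jFun τ₀) τ₀ := by
  obtain ⟨κ, hκ, hd⟩ := exists_deriv_jFun_eq_jPrime
  have han := analyticAt_comp_ofComplex mdiff_jFun τ₀
  have h1 := han.analyticOrderAt_deriv_add_one
  have hfun : ((fun τ => jFun τ - jFun τ₀) ∘ ofComplex) =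
      fun z => (jFun ∘ ofComplex) z - (jFun ∘ ofComplex) (τ₀ : ℂ) := by
    funext z
    simp
  rw [ordAt, ordAt, hfun, ← h1]
  congr 1
  rw [analyticOrderAt_congr (hd τ₀)]
  have hP := analyticAt_comp_ofComplex mdiff_jPrime τ₀
  have hc : AnalyticAt ℂ (fun _ : ℂ => κ) (τ₀ : ℂ) := analyticAt_const
  have hmul : (fun z => κ * (jPrime ∘ ofComplex) z) = (fun _ : ℂ => κ) * (jPrime ∘ ofComplex) := rfl
  have h0 : analyticOrderAt (fun _ : ℂ => κ) (τ₀ : ℂ) = 0 :=
    analyticOrderAt_eq_zero_of_ne (g := fun _ : ℂ => κ) hκ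
  rw [hmul, analyticOrderAt_mul hc hP, h0, zero_add]

/-! ### Behaviour at `i∞` -/

theorem isNice_E₆ : IsNice ((1 : ℕ) : ℝ) (ModularForm.E₆ : ℍ → ℂ) where
  mdiff := mdiff_E₆
  periodic z := by
    have hmem : (((1 : ℕ) : ℝ)) ∈ (𝒮ℒ).strictPeriods := by
      simp only [Subgroup.strictPeriods_SL2Z, AddSubgroup.mem_zmultiples_iff]
      exact ⟨1, by simp⟩
    exact SlashInvariantForm.vAdd_apply_of_mem_strictPeriods ModularForm.E₆ z hmem
  bdd := ModularFormClass.bdd_at_infty ModularForm.E₆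

theorem jPrime_vadd_one (z : ℍ) : jPrime (((1 : ℕ) : ℝ) +ᵥ z) = jPrime z := by
  rw [jPrime, jPrime, isNice_E₄.periodic, isNice_E₆.periodic, discriminant_vadd_nat]

theorem isBoundedAtImInfty_jPrime_mul_qH :
    IsBoundedAtImInfty (fun z => jPrime z * qH ((1 : ℕ) : ℝ) z ^ 1) := by
  have h1 := ((isNice_E₄.pow 2).mul isNice_E₆).mul (isNice_qH_div_discriminant 1)
  refine isBoundedAtImInfty_congr h1.bdd (fun z => ?_)
  rw [pow_one, jPrime, Nat.cast_one]
  ring

theorem isQLaurentable_jPrime : IsQLaurentable 1 jPrime where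
  mdiff := mdiff_jPrime
  periodic := jPrime_vadd_one
  mero := ⟨1, by
    refine isBoundedAtImInfty_congr ((isNice_E₄.pow 2).mul isNice_E₆).bdd (fun z => ?_)
    rw [pow_one, jPrime_mul_discriminant]⟩

theorem qLaurent_jPrime_coeff_of_lt {m : ℤ} (hm : m < -1) : (qLaurent 1 jPrime).coeff m = 0 :=
  qLaurent_coeff_eq_zero_of_lt isQLaurentable_jPrime isBoundedAtImInfty_jPrime_mul_qH
    (by push_cast; omega)

variable (N : ℕ) [NeZero N]

theorem isQLaurentable_jPrime_level : IsQLaurentable N jPrime :=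
  (qLaurent_change_period N isQLaurentable_jPrime).1

theorem qLaurent_jPrime_level :
    qLaurent N jPrime = ModularCurve.qExpand ℂ N (qLaurent 1 jPrime) :=
  (qLaurent_change_period N isQLaurentable_jPrime).2

theorem qLaurent_jPrime_level_ne_zero : qLaurent N jPrime ≠ 0 := by
  rw [Ne, qLaurent_eq_zero_iff (isQLaurentable_jPrime_level N)]
  exact jPrime_ne_zero

theorem qLaurent_jPrime_level_coeff_of_lt {m : ℤ} (hm : m < -(N : ℤ)) :
    (qLaurent N jPrime).coeff m = 0 := by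
  rw [qLaurent_jPrime_level]
  by_cases hdvd : (N : ℤ) ∣ m
  · obtain ⟨k, rfl⟩ := hdvd
    rw [ModularCurve.qExpand_coeff_mul]
    apply qLaurent_jPrime_coeff_of_lt
    have hN : (0 : ℤ) < N := by exact_mod_cast Nat.pos_of_ne_zero (NeZero.ne N)
    by_contra hk
    rw [not_lt] at hk
    have : -(N : ℤ) ≤ N * k := by nlinarith
    omega
  · exact ModularCurve.qExpand_coeff_of_not_dvd N _ hdvd

/-- the `q_N`-expansion of `jPrime` has order at least `-N` -/
theorem neg_le_order_qLaurent_jPrime : -(N : ℤ) ≤ (qLaurent N jPrime).order := by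
  rw [HahnSeries.le_order_iff_forall (qLaurent_jPrime_level_ne_zero N)]
  intro m hm
  exact qLaurent_jPrime_level_coeff_of_lt N hm

end Fermat.Agent.ES
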