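/-
P1b (S20/S21/S23), dictionary: valuations of the Prelude's function field of `X₀(N)` obtained by
pulling back valuations of the ring `modRing N` of modular functions along the isomorphism
`modIso N`, and the basic bookkeeping (fractions, constants, `j`).
-/
import Mathlib
import Fermat.Agent.Lib.S24.ModIso
import Fermat.Agent.Lib.S24.ModInfty
import Fermat.Agent.Lib.Curve.DictAlg
import Fermat.Agent.Lib.ES.DictJPrime

set_option autoImplicit false
set_option linter.unusedSectionVars false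
set_option linter.style.haveILetI false

namespace Fermat.Agent.ES

open UpperHalfPlane Matrix MatrixGroups CongruenceSubgroup ModularCurve WithZero
open Fermat.Agent.S24Lib Fermat.Agent.Curve AlgebraicCurve

local notation "Kbar" => AlgebraicClosure ℚ

variable (N : ℕ) [NeZero N]

section Generic

variable {F : Type*} [Field F] [Algebra Kbar F] (ψ : F →ₐ[Kbar] ModField N)

/-- every element of the function field is a fraction of elements of `modRing N` -/
theorem exists_toMod_mul_eq (h : F) :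
    ∃ a b : modRing N, b ≠ 0 ∧
      ψ h * algebraMap (modRing N) (ModField N) b = algebraMap (modRing N) (ModField N) a := by
  obtain ⟨a, b, hb, hab⟩ := IsFractionRing.div_surjective (A := modRing N) (ψ h)
  have hb0 : b ≠ 0 := nonZeroDivisors.ne_zero hb
  refine ⟨a, b, hb0, ?_⟩
  have hb1 : algebraMap (modRing N) (ModField N) b ≠ 0 :=
    (map_ne_zero_iff _ (IsFractionRing.injective (modRing N) (ModField N))).mpr hb0
  rw [← hab, div_mul_cancel₀ _ hb1]

/-! ### Pulling back valuations -/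

variable (w₀ : Valuation (modRing N) ℤᵐ⁰) (hw : ∀ r, w₀ r = 0 → r = 0)

/-- the valuation of the function field induced by a valuation of `modRing N` -/
noncomputable def pullVal : Valuation F ℤᵐ⁰ :=
  (fracValuation (L := ModField N) w₀ hw).comap (ψ : F →+* ModField N)

theorem pullVal_apply (h : F) :
    pullVal N ψ w₀ hw h = fracValuation (L := ModField N) w₀ hw (ψ h) := rfl

theorem pullVal_algebraMap_le_one (hK : ∀ c : Kbar, w₀ (algebraMap Kbar (modRing N) c) ≤ 1)
    (c : Kbar) : pullVal N ψ w₀ hw (algebraMap Kbar F c) ≤ 1 := by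
  rw [pullVal_apply, AlgHom.commutes]
  exact fracValuation_algebraMap_le_one w₀ hw hK c

theorem pullVal_mul_eq {h : F} {a b : modRing N}
    (hab : ψ h * algebraMap (modRing N) (ModField N) b
      = algebraMap (modRing N) (ModField N) a) :
    pullVal N ψ w₀ hw h * w₀ b = w₀ a := by
  rw [pullVal_apply, ← fracValuation_algebraMap (L := ModField N) w₀ hw b, ← map_mul, hab,
    fracValuation_algebraMap]

variable {x : F} (hψx : ψ x = jL N)

include hψx in
theorem pullVal_gen : pullVal N ψ w₀ hw x = w₀ (jR N) := by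
  rw [pullVal_apply, hψx, jL, fracValuation_algebraMap]

include hψx in
theorem pullVal_gen_sub (c : Kbar) :
    pullVal N ψ w₀ hw (x - algebraMap Kbar F c)
      = w₀ (jR N - algebraMap Kbar (modRing N) c) := by
  rw [pullVal_apply, map_sub, hψx, AlgHom.commutes, jL,
    IsScalarTower.algebraMap_apply Kbar (modRing N) (ModField N), ← RingHom.map_sub,
    fracValuation_algebraMap]

include hψx in
theorem pullVal_aeval (P : Polynomial Kbar) :
    pullVal N ψ w₀ hw (Polynomial.aeval x P) = w₀ (Polynomial.aeval (jR N) P) := by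
  rw [pullVal_apply]
  have h1 : ψ (Polynomial.aeval x P)
      = algebraMap (modRing N) (ModField N) (Polynomial.aeval (jR N) P) := by
    rw [← Polynomial.aeval_algHom_apply, hψx, jL]
    exact (Polynomial.aeval_algHom_apply (IsScalarTower.toAlgHom Kbar (modRing N) (ModField N))
      (jR N) P)
  rw [h1, fracValuation_algebraMap]

end Generic

/-! ### The valuation at a point of the upper half plane -/

/-- the inclusion of `modRing N` into the ring of holomorphic functions -/
noncomputable def modRingToHol : modRing N →+* holH where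
  toFun f := ⟨(f : ℍ → ℂ), mdiff_of_mem_modRing N f.2⟩
  map_one' := rfl
  map_mul' _ _ := rfl
  map_zero' := rfl
  map_add' _ _ := rfl

theorem modRingToHol_injective : Function.Injective (modRingToHol N) := by
  intro f g hfg
  apply Subtype.ext
  exact congrArg (fun x : holH => (x : ℍ → ℂ)) hfg

/-- the order of vanishing at `τ₀` as a valuation of `modRing N` -/
noncomputable def pointVal (τ₀ : ℍ) : Valuation (modRing N) ℤᵐ⁰ :=
  (ordValuation τ₀).comap (modRingToHol N)

theorem pointVal_apply (τ₀ : ℍ) {f : modRing N} (hf : f ≠ 0) :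
    pointVal N τ₀ f = exp (-((ordAt (f : ℍ → ℂ) τ₀).toNat : ℤ)) := by
  have h1 : modRingToHol N f ≠ 0 := by
    intro h0
    exact hf (modRingToHol_injective N (h0.trans (map_zero _).symm))
  exact ordValuation_apply h1

theorem pointVal_eq_zero (τ₀ : ℍ) (r : modRing N) (h : pointVal N τ₀ r = 0) : r = 0 := by
  have h1 : ordValuation τ₀ (modRingToHol N r) = 0 := h
  rw [ordValuation_eq_zero_iff] at h1
  exact modRingToHol_injective N (h1.trans (map_zero _).symm)

theorem pointVal_le_one (τ₀ : ℍ) (r : modRing N) : pointVal N τ₀ r ≤ 1 := by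
  by_cases hr : r = 0
  · rw [hr, map_zero]; exact zero_le_one
  · rw [pointVal_apply N τ₀ hr, ← exp_zero, exp_le_exp]
    omega

theorem ordAt_ne_top_of_ne_zero {f : modRing N} (hf : f ≠ 0) (τ : ℍ) :
    ordAt (f : ℍ → ℂ) τ ≠ ⊤ := by
  intro h
  apply hf
  apply Subtype.ext
  exact (ordAt_eq_top_iff (mdiff_of_mem_modRing N f.2) τ).mp h

theorem pointVal_eq_one_iff (τ₀ : ℍ) {f : modRing N} (hf : f ≠ 0) :
    pointVal N τ₀ f = 1 ↔ (f : ℍ → ℂ) τ₀ ≠ 0 := by
  rw [pointVal_apply N τ₀ hf, ← exp_zero, exp_inj,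
    ← ordAt_eq_zero_iff (mdiff_of_mem_modRing N f.2) τ₀]
  have hfin := ordAt_ne_top_of_ne_zero N hf τ₀
  obtain ⟨n, hn⟩ := ENat.ne_top_iff_exists.mp hfin
  rw [← hn]
  simp

theorem pointVal_lt_one_iff (τ₀ : ℍ) {f : modRing N} (hf : f ≠ 0) :
    pointVal N τ₀ f < 1 ↔ (f : ℍ → ℂ) τ₀ = 0 := by
  rw [lt_iff_le_and_ne, and_iff_right (pointVal_le_one N τ₀ f), Ne, pointVal_eq_one_iff N τ₀ hf,
    not_not]

theorem coe_aeval_jR (P : Polynomial Kbar) (τ : ℍ) :
    ((Polynomial.aeval (jR N) P : modRing N) : ℍ → ℂ) τ = (P.map iotaC).eval (jFun τ) := by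
  have h1 : ((Polynomial.aeval (jR N) P : modRing N) : ℍ → ℂ)
      = Polynomial.aeval (jFun : ℍ → ℂ) P := by
    have := Polynomial.aeval_algHom_apply (modRing N).val (jR N) P
    exact this.symm
  rw [h1]
  have h2 := Polynomial.aeval_algHom_apply (Pi.evalAlgHom Kbar (fun _ : ℍ => ℂ) τ)
    (jFun : ℍ → ℂ) P
  have h3 : (Pi.evalAlgHom Kbar (fun _ : ℍ => ℂ) τ) (Polynomial.aeval (jFun : ℍ → ℂ) P)
      = Polynomial.aeval (jFun : ℍ → ℂ) P τ := rfl
  rw [← h3, ← h2]
  show Polynomial.aeval (jFun τ) P = _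
  rw [Polynomial.aeval_def, Polynomial.eval_map]
  rfl

theorem coe_jR_sub (c : Kbar) (τ : ℍ) :
    ((jR N - algebraMap Kbar (modRing N) c : modRing N) : ℍ → ℂ) τ = jFun τ - iotaC c := rfl

theorem jR_sub_ne_zero (c : Kbar) : jR N - algebraMap Kbar (modRing N) c ≠ 0 := by
  intro h
  obtain ⟨τ, hτ⟩ := jFun_surjective (iotaC c + 1)
  have := congrArg (fun f : modRing N => (f : ℍ → ℂ) τ) h
  simp only [coe_jR_sub, hτ] at this
  have h0 : ((0 : modRing N) : ℍ → ℂ) τ = 0 := rfl
  rw [h0] at this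
  simp at this

/-- if `(P.map iotaC).eval z = 0` with `P ≠ 0` then `z` is in the image of `iotaC` -/
theorem exists_iotaC_eq_of_eval_eq_zero {P : Polynomial Kbar} (hP : P ≠ 0) {z : ℂ}
    (hz : (P.map iotaC).eval z = 0) : ∃ c : Kbar, iotaC c = z := by
  have hsplit := (IsAlgClosed.splits P).eq_prod_roots
  rw [hsplit, Polynomial.map_mul, Polynomial.map_C, Polynomial.map_multiset_prod,
    Polynomial.eval_mul, Polynomial.eval_C, Polynomial.eval_multiset_prod] at hz
  rcases mul_eq_zero.mp hz with h | h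
  · exfalso
    have : P.leadingCoeff = 0 := iotaC.injective (h.trans (map_zero iotaC).symm)
    exact hP (Polynomial.leadingCoeff_eq_zero.mp this)
  · rw [Multiset.prod_eq_zero_iff] at h
    simp only [Multiset.map_map, Multiset.mem_map, Function.comp_apply] at h
    obtain ⟨a, -, ha⟩ := h
    rw [Polynomial.map_sub, Polynomial.map_X, Polynomial.map_C, Polynomial.eval_sub,
      Polynomial.eval_X, Polynomial.eval_C, sub_eq_zero] at ha
    exact ⟨a, ha.symm⟩

/-! ### Regular differentials give holomorphic quotients -/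

section Regular

variable {F : Type*} [Field F] [Algebra Kbar F] (ψ : F →ₐ[Kbar] ModField N)
variable {x : F} (hψx : ψ x = jL N) (hx : IsFunctionFieldGen Kbar F x)

include hx hψx in
/-- **Holomorphy.** If `h dj` is a regular differential and `h = a / b` with `a, b ∈ modRing N`,
then `a · jPrime / b` has no poles in the upper half plane. -/
theorem ordAt_le_of_regular {h : F}
    (hreg : h • KaehlerDifferential.D Kbar F x ∈ regularDifferentials hx)
    {a b : modRing N} (hb : b ≠ 0)
    (hab : ψ h * algebraMap (modRing N) (ModField N) b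
      = algebraMap (modRing N) (ModField N) a) (τ₀ : ℍ) :
    ordAt (b : ℍ → ℂ) τ₀ ≤ ordAt (fun τ => (a : ℍ → ℂ) τ * jPrime τ) τ₀ := by
  have hamd := mdiff_of_mem_modRing N a.2
  have hbmd := mdiff_of_mem_modRing N b.2
  by_cases ha : a = 0
  · have : (fun τ => (a : ℍ → ℂ) τ * jPrime τ) = 0 := by
      funext τ
      rw [ha]
      show (0 : ℂ) * _ = 0
      rw [zero_mul]
    rw [this, (ordAt_eq_top_iff (f := (0 : ℍ → ℂ)) mdifferentiable_const τ₀).mpr rfl]
    exact le_top
  have hmul : ordAt (fun τ => (a : ℍ → ℂ) τ * jPrime τ) τ₀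
      = ordAt (a : ℍ → ℂ) τ₀ + ordAt jPrime τ₀ := ordAt_mul hamd mdiff_jPrime τ₀
  rw [hmul]
  have hAfin := ordAt_ne_top_of_ne_zero N ha τ₀
  have hBfin := ordAt_ne_top_of_ne_zero N hb τ₀
  obtain ⟨A, hA⟩ := ENat.ne_top_iff_exists.mp hAfin
  obtain ⟨B, hB⟩ := ENat.ne_top_iff_exists.mp hBfin
  set w₀ := pointVal N τ₀ with hw₀
  have hw := pointVal_eq_zero N τ₀
  have hK : ∀ c : Kbar, w₀ (algebraMap Kbar (modRing N) c) ≤ 1 := fun c => pointVal_le_one N τ₀ _
  have hwa : w₀ a = exp (-(A : ℤ)) := by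
    rw [hw₀, pointVal_apply N τ₀ ha, ← hA, ENat.toNat_natCast]
  have hwb : w₀ b = exp (-(B : ℤ)) := by
    rw [hw₀, pointVal_apply N τ₀ hb, ← hB, ENat.toNat_natCast]
  have hpull := pullVal_mul_eq N ψ w₀ hw hab
  have hh0 : h ≠ 0 := by
    rintro rfl
    rw [map_zero, zero_mul] at hab
    exact ha ((IsFractionRing.injective (modRing N) (ModField N)) (hab.symm.trans (map_zero _).symm))
  by_cases halg : ∃ c : Kbar, iotaC c = jFun τ₀
  · -- algebraic value of `j`
    obtain ⟨c, hc⟩ := halg
    set r := jR N - algebraMap Kbar (modRing N) c with hr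
    have hr0 : r ≠ 0 := jR_sub_ne_zero N c
    have hrτ : (r : ℍ → ℂ) τ₀ = 0 := by
      rw [hr, coe_jR_sub, hc, sub_self]
    have hrlt : w₀ r < 1 := (pointVal_lt_one_iff N τ₀ hr0).mpr hrτ
    have hlt := valuation_mul_sub_lt_one_of_regular hx (pullVal N ψ w₀ hw)
      (pullVal_algebraMap_le_one N ψ w₀ hw hK) hreg c (by rw [pullVal_gen_sub N ψ w₀ hw hψx]; exact hrlt)
    rw [map_mul, pullVal_gen_sub N ψ w₀ hw hψx] at hlt
    -- `w₀ a * w₀ r < w₀ b`
    have hbpos : 0 < w₀ b := by rw [hwb]; exact exp_pos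
    have h1 : w₀ a * w₀ r < w₀ b := by
      calc w₀ a * w₀ r = (pullVal N ψ w₀ hw h * w₀ r) * w₀ b := by rw [← hpull, mul_right_comm]
        _ < 1 * w₀ b := mul_lt_mul_of_pos_right hlt hbpos
        _ = w₀ b := one_mul _
    -- the order of `r` at `τ₀`
    have hrfun : (r : ℍ → ℂ) = fun τ => jFun τ - jFun τ₀ := by
      funext τ
      rw [hr, coe_jR_sub, hc]
    have hJ := ordAt_jPrime_add_one τ₀
    rw [← hrfun] at hJ
    have hRfin := ordAt_ne_top_of_ne_zero N hr0 τ₀
    obtain ⟨R, hR⟩ := ENat.ne_top_iff_exists.mp hRfin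
    have hwr : w₀ r = exp (-(R : ℤ)) := by
      rw [hw₀, pointVal_apply N τ₀ hr0, ← hR, ENat.toNat_natCast]
    rw [hwa, hwr, hwb, ← exp_add, exp_lt_exp] at h1
    rw [← hR] at hJ
    have hJfin : ordAt jPrime τ₀ ≠ ⊤ := by
      intro htop
      rw [htop] at hJ
      simp at hJ
    obtain ⟨J, hJ'⟩ := ENat.ne_top_iff_exists.mp hJfin
    rw [← hJ'] at hJ ⊢
    rw [← hA, ← hB]
    have hJR : J + 1 = R := by exact_mod_cast hJ
    have : B ≤ A + J := by omega
    exact_mod_cast this
  · -- transcendental value of `j`: the valuation is trivial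
    have htriv : ∀ P : Polynomial Kbar, P ≠ 0 →
        pullVal N ψ w₀ hw (Polynomial.aeval x P) = 1 := by
      intro P hP
      rw [pullVal_aeval N ψ w₀ hw hψx]
      have hne : Polynomial.aeval (jR N) P ≠ 0 := by
        intro h0
        apply halg
        apply exists_iotaC_eq_of_eval_eq_zero hP
        rw [← coe_aeval_jR N, h0]
        rfl
      rw [hw₀, pointVal_eq_one_iff N τ₀ hne, coe_aeval_jR]
      intro h0
      exact halg (exists_iotaC_eq_of_eval_eq_zero hP h0)
    have h1 := valuation_eq_one_of_forall_aeval hx (pullVal N ψ w₀ hw)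
      (pullVal_algebraMap_le_one N ψ w₀ hw hK) htriv h hh0
    rw [h1, one_mul, hwa, hwb, exp_inj] at hpull
    rw [← hA, ← hB]
    have : B = A := by omega
    rw [this]
    exact le_self_add

end Regular

/-! ### The valuation at a cusp -/

/-- the order of the `q_N`-expansion of `f ∘ γ` as a valuation of `modRing N` -/
noncomputable def cuspVal (γ : SL(2, ℤ)) : Valuation (modRing N) ℤᵐ⁰ :=
  (inftyValuation N).comap
    ((modAct N γ⁻¹ : modRing N ≃ₐ[Kbar] modRing N) : modRing N →+* modRing N)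

theorem cuspVal_apply (γ : SL(2, ℤ)) (f : modRing N) :
    cuspVal N γ f = inftyValuation N (modAct N γ⁻¹ f) := rfl

theorem cuspVal_eq_zero (γ : SL(2, ℤ)) (r : modRing N) (h : cuspVal N γ r = 0) : r = 0 := by
  rw [cuspVal_apply, inftyValuation_eq_zero_iff] at h
  exact (EmbeddingLike.map_eq_zero_iff (f := modAct N γ⁻¹)).mp h

theorem cuspVal_algebraMap_le_one (γ : SL(2, ℤ)) (c : Kbar) :
    cuspVal N γ (algebraMap Kbar (modRing N) c) ≤ 1 := by
  rw [cuspVal_apply, AlgEquiv.commutes]
  exact inftyValuation_algebraMap_le_one N c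

theorem cuspVal_jR (γ : SL(2, ℤ)) : cuspVal N γ (jR N) = exp (N : ℤ) := by
  rw [cuspVal_apply, modAct_jR, inftyValuation_jR]

section RegularCusp

variable {F : Type*} [Field F] [Algebra Kbar F] (ψ : F →ₐ[Kbar] ModField N)
variable {x : F} (hψx : ψ x = jL N) (hx : IsFunctionFieldGen Kbar F x)

include hx hψx in
/-- **Vanishing at the cusps.** If `h dj` is a regular differential and `h = a / b` with
`a, b ∈ modRing N`, then the `q_N`-expansion of `(a / b) ∘ γ` has order `> N`. -/
theorem order_lt_of_regular {h : F}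
    (hreg : h • KaehlerDifferential.D Kbar F x ∈ regularDifferentials hx)
    {a b : modRing N} (ha : a ≠ 0) (hb : b ≠ 0)
    (hab : ψ h * algebraMap (modRing N) (ModField N) b
      = algebraMap (modRing N) (ModField N) a) (γ : SL(2, ℤ)) :
    (modRingQL N (modAct N γ⁻¹ b)).order + N < (modRingQL N (modAct N γ⁻¹ a)).order := by
  set w₀ := cuspVal N γ with hw₀
  have hw := cuspVal_eq_zero N γ
  have hK := cuspVal_algebraMap_le_one N γ
  have hpull := pullVal_mul_eq N ψ w₀ hw hab
  have hN : (0 : ℤ) < N := by exact_mod_cast Nat.pos_of_ne_zero (NeZero.ne N)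
  have hpole : 1 < pullVal N ψ w₀ hw x := by
    rw [pullVal_gen N ψ w₀ hw hψx, hw₀, cuspVal_jR, ← exp_zero, exp_lt_exp]
    exact hN
  have hlt := valuation_mul_lt_one_of_regular_of_pole hx (pullVal N ψ w₀ hw)
    (pullVal_algebraMap_le_one N ψ w₀ hw hK) hreg hpole
  have hjR : w₀ (jR N) = exp (N : ℤ) := cuspVal_jR N γ
  rw [map_mul, pullVal_gen N ψ w₀ hw hψx, hjR] at hlt
  have ha' : modAct N γ⁻¹ a ≠ 0 := fun h0 =>
    ha ((EmbeddingLike.map_eq_zero_iff (f := modAct N γ⁻¹)).mp h0)
  have hb' : modAct N γ⁻¹ b ≠ 0 := fun h0 =>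
    hb ((EmbeddingLike.map_eq_zero_iff (f := modAct N γ⁻¹)).mp h0)
  have hwa : w₀ a = exp (-(modRingQL N (modAct N γ⁻¹ a)).order) := by
    rw [hw₀, cuspVal_apply, inftyValuation_apply N ha']
  have hwb : w₀ b = exp (-(modRingQL N (modAct N γ⁻¹ b)).order) := by
    rw [hw₀, cuspVal_apply, inftyValuation_apply N hb']
  have hbpos : 0 < w₀ b := by rw [hwb]; exact exp_pos
  have h1 : w₀ a * exp (N : ℤ) < w₀ b := by
    calc w₀ a * exp (N : ℤ) = (pullVal N ψ w₀ hw h * exp (N : ℤ)) * w₀ b := by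
          rw [← hpull, mul_right_comm]
      _ < 1 * w₀ b := mul_lt_mul_of_pos_right hlt hbpos
      _ = w₀ b := one_mul _
  rw [hwa, hwb, ← exp_add, exp_lt_exp] at h1
  omega

end RegularCusp

end Fermat.Agent.ES
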