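/-
P1b (S20/S21/S23), the dictionary: a regular differential `h dj` of the function field of `X₀(N)`
over `ℚ̄` gives a weight two cusp form `(h ∘ modIso) · jPrime` of level `Γ₀(N)`, with the expected
`q`-expansion.
-/
import Mathlib
import Fermat.Agent.Lib.ES.DictPull
import Fermat.Agent.Lib.ES.DictDivision
import Fermat.Agent.Lib.ES.DictCusp
import Fermat.Agent.Lib.ES.DictCuspForm

set_option autoImplicit false
set_option linter.unusedSectionVars false
set_option linter.style.haveILetI false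

namespace Fermat.Agent.ES

open UpperHalfPlane Matrix MatrixGroups CongruenceSubgroup ModularCurve WithZero Filter Topology
open scoped ModularForm Manifold
open Fermat.Agent.S24Lib Fermat.Agent.Curve AlgebraicCurve

local notation "Kbar" => AlgebraicClosure ℚ

/-! ### Generalities on quotients of holomorphic functions -/

/-- the weight two slash action on a quotient `f = a · jPrime / b` -/
theorem slash_mul_eq_of_mul_eq {f a b : ℍ → ℂ} (hmul : ∀ τ, f τ * b τ = a τ * jPrime τ)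
    (γ : SL(2, ℤ)) (τ : ℍ) :
    (f ∣[(2 : ℤ)] γ) τ * b (γ • τ) = a (γ • τ) * jPrime τ := by
  have hd : denom γ τ ≠ 0 := denom_ne_zero γ τ
  rw [ModularForm.SL_slash_apply, mul_right_comm, hmul, jPrime_smul, _root_.zpow_neg]
  have : denom γ τ ^ 2 * (denom γ τ ^ (2 : ℤ))⁻¹ = 1 := by
    rw [← zpow_natCast (denom γ τ) 2]
    exact mul_inv_cancel₀ (zpow_ne_zero _ hd)
  calc a (γ • τ) * (denom γ τ ^ 2 * jPrime τ) * (denom γ τ ^ (2 : ℤ))⁻¹
      = a (γ • τ) * jPrime τ * (denom γ τ ^ 2 * (denom γ τ ^ (2 : ℤ))⁻¹) := by ring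
    _ = a (γ • τ) * jPrime τ := by rw [this, mul_one]

/-- a holomorphic quotient of periodic functions is periodic -/
theorem periodic_of_mul_eq {h : ℕ} {g a b : ℍ → ℂ} (hg : MDiff g) (hb : MDiff b)
    (hb0 : b ≠ 0) (haper : ∀ z : ℍ, a ((h : ℝ) +ᵥ z) = a z)
    (hbper : ∀ z : ℍ, b ((h : ℝ) +ᵥ z) = b z) (hmul : ∀ τ, g τ * b τ = a τ) (z : ℍ) :
    g ((h : ℝ) +ᵥ z) = g z := by
  have hshift : MDiff (fun z : ℍ => g ((h : ℝ) +ᵥ z)) :=
    mdiff_comp_of_coe hg (fun z : ℍ => (h : ℝ) +ᵥ z) (fun w => ((h : ℝ) : ℂ) + w)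
      ((differentiable_const _).add differentiable_id) (fun z => by simp [coe_vadd])
  have hG : MDiff (fun z : ℍ => g ((h : ℝ) +ᵥ z) - g z) := hshift.sub hg
  have hzero : (fun z : ℍ => g ((h : ℝ) +ᵥ z) - g z) * b = 0 := by
    funext τ
    simp only [Pi.mul_apply, Pi.zero_apply]
    rw [sub_mul, hmul τ, ← hbper τ, hmul, haper, sub_self]
  rcases (UpperHalfPlane.mul_eq_zero_iff hG hb).mp hzero with h0 | h0
  · have := congrFun h0 z
    simpa [sub_eq_zero] using this
  · exact absurd h0 hb0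

variable (N : ℕ) [NeZero N]

theorem coe_modAct_inv (γ : SL(2, ℤ)) (a : modRing N) (τ : ℍ) :
    ((modAct N γ⁻¹ a : modRing N) : ℍ → ℂ) τ = (a : ℍ → ℂ) (γ • τ) := by
  rw [modAct_apply_apply, inv_inv]

theorem coe_ne_zero_of_ne_zero {a : modRing N} (ha : a ≠ 0) : (a : ℍ → ℂ) ≠ 0 := by
  intro h
  exact ha (Subtype.ext h)

theorem isQLaurentable_coe (a : modRing N) : IsQLaurentable N (a : ℍ → ℂ) :=
  (modRing_props N a.2).1

theorem periodic_coe (a : modRing N) (z : ℍ) : (a : ℍ → ℂ) ((N : ℝ) +ᵥ z) = (a : ℍ → ℂ) z :=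
  (isQLaurentable_coe N a).periodic z

theorem mdiff_slash_two {f : ℍ → ℂ} (hf : MDiff f) (γ : SL(2, ℤ)) : MDiff (f ∣[(2 : ℤ)] γ) := by
  rw [ModularForm.SL_slash]
  exact hf.slash 2 _

/-- Laurent expansions of the slashes of a quotient `a · jPrime / b` -/
theorem slash_data {f : ℍ → ℂ} (hf : MDiff f) {a b : modRing N} (hb : b ≠ 0)
    (hmul : ∀ τ, f τ * (b : ℍ → ℂ) τ = (a : ℍ → ℂ) τ * jPrime τ) (γ : SL(2, ℤ)) :
    IsQLaurentable N (f ∣[(2 : ℤ)] γ) ∧
      qLaurent N (f ∣[(2 : ℤ)] γ) * modRingQL N (modAct N γ⁻¹ b)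
        = modRingQL N (modAct N γ⁻¹ a) * qLaurent N jPrime := by
  set g := f ∣[(2 : ℤ)] γ with hg
  set a' := modAct N γ⁻¹ a with ha'
  set b' := modAct N γ⁻¹ b with hb'
  have hrel : ∀ τ, g τ * (b' : ℍ → ℂ) τ = (a' : ℍ → ℂ) τ * jPrime τ := by
    intro τ
    rw [ha', hb', coe_modAct_inv, coe_modAct_inv]
    exact slash_mul_eq_of_mul_eq hmul γ τ
  have hgmd : MDiff g := mdiff_slash_two hf γ
  have hb'0 : b' ≠ 0 := fun h0 =>
    hb ((EmbeddingLike.map_eq_zero_iff (f := modAct N γ⁻¹)).mp h0)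
  have hb'fn : (b' : ℍ → ℂ) ≠ 0 := coe_ne_zero_of_ne_zero N hb'0
  have haJ : IsQLaurentable N (fun τ => (a' : ℍ → ℂ) τ * jPrime τ) :=
    (isQLaurentable_coe N a').mul (isQLaurentable_jPrime_level N)
  have hb'L := isQLaurentable_coe N b'
  have hper : ∀ z : ℍ, g ((N : ℝ) +ᵥ z) = g z :=
    periodic_of_mul_eq hgmd hb'L.mdiff hb'fn haJ.periodic hb'L.periodic hrel
  refine ⟨isQLaurentable_of_mul_eq hgmd hper haJ hb'L hb'fn hrel, ?_⟩
  have h1 := qLaurent_mul_eq_of_mul_eq hgmd hper haJ hb'L hb'fn hrel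
  rw [modRingQL_apply, modRingQL_apply, h1]
  exact qLaurent_mul (isQLaurentable_coe N a') (isQLaurentable_jPrime_level N)

/-- vanishing at the cusp `γ∞` from the order estimate -/
theorem isZeroAtImInfty_slash_of_order_lt {f : ℍ → ℂ} (hf : MDiff f) {a b : modRing N}
    (ha : a ≠ 0) (hb : b ≠ 0)
    (hmul : ∀ τ, f τ * (b : ℍ → ℂ) τ = (a : ℍ → ℂ) τ * jPrime τ) (γ : SL(2, ℤ))
    (hlt : (modRingQL N (modAct N γ⁻¹ b)).order + N < (modRingQL N (modAct N γ⁻¹ a)).order) :
    IsZeroAtImInfty (f ∣[(2 : ℤ)] γ) := by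
  obtain ⟨hgL, hq⟩ := slash_data N hf hb hmul γ
  have ha' : modRingQL N (modAct N γ⁻¹ a) ≠ 0 := by
    rw [Ne, modRingQL_eq_zero_iff]
    exact fun h0 => ha ((EmbeddingLike.map_eq_zero_iff (f := modAct N γ⁻¹)).mp h0)
  have hb' : modRingQL N (modAct N γ⁻¹ b) ≠ 0 := by
    rw [Ne, modRingQL_eq_zero_iff]
    exact fun h0 => hb ((EmbeddingLike.map_eq_zero_iff (f := modAct N γ⁻¹)).mp h0)
  have hJ := qLaurent_jPrime_level_ne_zero N
  have hG : qLaurent N (f ∣[(2 : ℤ)] γ) ≠ 0 := by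
    intro h0
    rw [h0, zero_mul] at hq
    exact mul_ne_zero ha' hJ hq.symm
  have hord := congrArg HahnSeries.order hq
  rw [HahnSeries.order_mul hG hb', HahnSeries.order_mul ha' hJ] at hord
  have hJord := neg_le_order_qLaurent_jPrime N
  apply isZeroAtImInfty_of_coeff_eq_zero hgL
  intro m hm
  apply HahnSeries.coeff_eq_zero_of_lt_order
  omega

/-! ### The construction -/

section Construction

variable {F : Type*} [Field F] [Algebra Kbar F] (ψ : F →ₐ[Kbar] ModField N)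
variable {x : F} (hψx : ψ x = jL N) (hx : IsFunctionFieldGen Kbar F x)

/-- invariance of `a / b` under `γ` in terms of numerator and denominator -/
theorem modAct_mul_eq_of_fixed {h : F} {a b : modRing N}
    (hab : ψ h * algebraMap (modRing N) (ModField N) b
      = algebraMap (modRing N) (ModField N) a)
    (γ : SL(2, ℤ)) (hfix : modRep N γ (ψ h) = ψ h) :
    modAct N γ a * b = a * modAct N γ b := by
  apply IsFractionRing.injective (modRing N) (ModField N)
  have h1 := congrArg (modRep N γ) hab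
  rw [map_mul, hfix, modRep_algebraMap, modRep_algebraMap] at h1
  rw [map_mul, map_mul, ← h1, ← hab]
  ring

include hψx hx in
/-- **The dictionary, analytic form.** A regular differential `h dj` gives a holomorphic function
`f = ψ(h) · jPrime` which is a weight two cusp form for `Γ₀(N)`, with `q_N`-expansion
`ψ(h) · jPrime`. -/
theorem exists_form_of_regular {h : F}
    (hreg : h • KaehlerDifferential.D Kbar F x ∈ regularDifferentials hx)
    (hfix : ∀ γ ∈ Gamma0 N, modRep N γ (ψ h) = ψ h) :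
    ∃ f : ℍ → ℂ, MDiff f ∧ (∀ γ ∈ Gamma0 N, f ∣[(2 : ℤ)] γ = f) ∧
      (∀ γ : SL(2, ℤ), IsZeroAtImInfty (f ∣[(2 : ℤ)] γ)) ∧
      IsQLaurentable N f ∧ qLaurent N f = modFieldQL N (ψ h) * qLaurent N jPrime := by
  obtain ⟨a, b, hb, hab⟩ := exists_toMod_mul_eq N ψ h
  have hamd := mdiff_of_mem_modRing N a.2
  have hbmd := mdiff_of_mem_modRing N b.2
  have hBfin : ∀ τ : ℍ, ordAt (b : ℍ → ℂ) τ ≠ ⊤ := fun τ => ordAt_ne_top_of_ne_zero N hb τ
  have hord := fun τ => ordAt_le_of_regular N ψ hψx hx hreg hb hab τ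
  obtain ⟨f, hf, hmul⟩ := exists_mdiff_mul_eq (a := fun τ => (a : ℍ → ℂ) τ * jPrime τ)
    (b := (b : ℍ → ℂ)) (hamd.mul mdiff_jPrime) hbmd hBfin hord
  have hbfn : (b : ℍ → ℂ) ≠ 0 := coe_ne_zero_of_ne_zero N hb
  refine ⟨f, hf, ?_, ?_, ?_, ?_⟩
  · -- invariance under `Γ₀(N)`
    intro γ hγ
    have hγ' : γ⁻¹ ∈ Gamma0 N := inv_mem hγ
    have hinv := modAct_mul_eq_of_fixed N ψ hab γ⁻¹ (hfix γ⁻¹ hγ')
    have hinvfn : ∀ τ, (a : ℍ → ℂ) (γ • τ) * (b : ℍ → ℂ) τ
        = (a : ℍ → ℂ) τ * (b : ℍ → ℂ) (γ • τ) := by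
      intro τ
      have := congrArg (fun r : modRing N => (r : ℍ → ℂ) τ) hinv
      simp only [MulMemClass.coe_mul, Pi.mul_apply] at this
      rw [coe_modAct_inv, coe_modAct_inv] at this
      exact this
    have hgmd : MDiff (f ∣[(2 : ℤ)] γ) := mdiff_slash_two hf γ
    have hb'md : MDiff (fun τ => (b : ℍ → ℂ) (γ • τ)) := by
      have := mdiff_of_mem_modRing N (modAct N γ⁻¹ b).2
      have h2 : ((modAct N γ⁻¹ b : modRing N) : ℍ → ℂ) = fun τ => (b : ℍ → ℂ) (γ • τ) := by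
        funext τ
        exact coe_modAct_inv N γ b τ
      rwa [h2] at this
    have hb'0 : (fun τ => (b : ℍ → ℂ) (γ • τ)) ≠ 0 := by
      intro h0
      apply hbfn
      funext τ
      have := congrFun h0 (γ⁻¹ • τ)
      simpa using this
    have hzero : ((f ∣[(2 : ℤ)] γ) - f) * ((fun τ => (b : ℍ → ℂ) (γ • τ)) * (b : ℍ → ℂ)) = 0 := by
      funext τ
      simp only [Pi.mul_apply, Pi.sub_apply, Pi.zero_apply]
      have h1 := slash_mul_eq_of_mul_eq hmul γ τ
      have h2 := hmul τ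
      have h3 := hinvfn τ
      calc ((f ∣[(2 : ℤ)] γ) τ - f τ) * ((b : ℍ → ℂ) (γ • τ) * (b : ℍ → ℂ) τ)
          = ((f ∣[(2 : ℤ)] γ) τ * (b : ℍ → ℂ) (γ • τ)) * (b : ℍ → ℂ) τ
            - (f τ * (b : ℍ → ℂ) τ) * (b : ℍ → ℂ) (γ • τ) := by ring
        _ = ((a : ℍ → ℂ) (γ • τ) * (b : ℍ → ℂ) τ) * jPrime τ
            - ((a : ℍ → ℂ) τ * (b : ℍ → ℂ) (γ • τ)) * jPrime τ := by rw [h1, h2]; ring
        _ = 0 := by rw [h3, sub_self]
    rcases (UpperHalfPlane.mul_eq_zero_iff (hgmd.sub hf) (hb'md.mul hbmd)).mp hzero with h0 | h0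
    · exact sub_eq_zero.mp h0
    · rcases (UpperHalfPlane.mul_eq_zero_iff hb'md hbmd).mp h0 with h1 | h1
      · exact absurd h1 hb'0
      · exact absurd h1 hbfn
  · -- vanishing at all cusps
    intro γ
    by_cases ha : a = 0
    · have hf0 : f = 0 := by
        have hz : f * (b : ℍ → ℂ) = 0 := by
          funext τ
          simp only [Pi.mul_apply, Pi.zero_apply]
          rw [hmul τ, ha]
          show (0 : ℂ) * _ = 0
          rw [zero_mul]
        rcases (UpperHalfPlane.mul_eq_zero_iff hf hbmd).mp hz with h0 | h0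
        · exact h0
        · exact absurd h0 hbfn
      rw [hf0, SlashAction.zero_slash]
      exact Filter.zero_zeroAtFilter atImInfty
    · exact isZeroAtImInfty_slash_of_order_lt N hf ha hb hmul γ
        (order_lt_of_regular N ψ hψx hx hreg ha hb hab γ)
  · -- Laurent expansion exists
    have := (slash_data N hf hb hmul 1).1
    rwa [SlashAction.slash_one] at this
  · -- the Laurent expansion
    have h1 := (slash_data N hf hb hmul 1).2
    rw [SlashAction.slash_one, inv_one, map_one] at h1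
    have h2 : modFieldQL N (ψ h) * modRingQL N b = modRingQL N a := by
      have := congrArg (modFieldQL N) hab
      rwa [map_mul, modFieldQL_algebraMap, modFieldQL_algebraMap] at this
    have hbq : modRingQL N b ≠ 0 := by
      rw [Ne, modRingQL_eq_zero_iff]
      exact hb
    have h3 : qLaurent N f * modRingQL N b
        = (modFieldQL N (ψ h) * qLaurent N jPrime) * modRingQL N b := by
      rw [show (1 : modRing N ≃ₐ[Kbar] modRing N) b = b from rfl,
        show (1 : modRing N ≃ₐ[Kbar] modRing N) a = a from rfl] at h1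
      rw [h1, ← h2]
      ring
    exact mul_right_cancel₀ hbq h3

end Construction

end Fermat.Agent.ES
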