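import Fermat.Agent.Lib.ES.GroupBound

/-!
# The group-theoretic bound `dim H¹_par(Γ, ℂ) + orb(S) + orb(ST) + orb(T) ≤ [SL₂(ℤ) : Γ] + 2`
-/

set_option autoImplicit false
set_option linter.unusedSectionVars false

open Matrix ModularGroup Module
open scoped MatrixGroups

namespace Fermat.Agent.ES

noncomputable section

section LinAlg

variable {M N : Type*} [AddCommGroup M] [Module ℂ M] [AddCommGroup N] [Module ℂ N]

/-- `p.prod q ≃ p × q`. -/
def prodSubEquiv (p : Submodule ℂ M) (q : Submodule ℂ N) : (p.prod q) ≃ₗ[ℂ] (p × q) where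
  toFun x := (⟨x.1.1, x.2.1⟩, ⟨x.1.2, x.2.2⟩)
  invFun y := ⟨(y.1.1, y.2.1), ⟨y.1.2, y.2.2⟩⟩
  map_add' _ _ := rfl
  map_smul' _ _ := rfl
  left_inv _ := rfl
  right_inv _ := rfl

lemma finrank_prodSub [FiniteDimensional ℂ M] [FiniteDimensional ℂ N]
    (p : Submodule ℂ M) (q : Submodule ℂ N) :
    finrank ℂ (p.prod q) = finrank ℂ p + finrank ℂ q := by
  rw [(prodSubEquiv p q).finrank_eq, Module.finrank_prod]

/-- Two disjoint submodules of a finite-dimensional space. -/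
lemma finrank_add_le_of_disjoint [FiniteDimensional ℂ M] (p q r : Submodule ℂ M)
    (hp : p ≤ r) (hq : q ≤ r) (h : p ⊓ q = ⊥) :
    finrank ℂ p + finrank ℂ q ≤ finrank ℂ r := by
  have h1 := Submodule.finrank_sup_add_finrank_inf_eq p q
  rw [h, finrank_bot, add_zero] at h1
  rw [← h1]
  exact Submodule.finrank_mono (sup_le hp hq)

/-- The kernel of a linear functional on a subspace has codimension at most one. -/
lemma finrank_le_finrank_inf_ker_add_one [FiniteDimensional ℂ M] (K : Submodule ℂ M)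
    (f : M →ₗ[ℂ] ℂ) : finrank ℂ K ≤ finrank ℂ (K ⊓ LinearMap.ker f : Submodule ℂ M) + 1 := by
  have h := LinearMap.finrank_range_add_finrank_ker (f.domRestrict K)
  have h1 : finrank ℂ (LinearMap.range (f.domRestrict K)) ≤ 1 := by
    calc finrank ℂ (LinearMap.range (f.domRestrict K)) ≤ finrank ℂ ℂ := Submodule.finrank_le _
      _ = 1 := finrank_self ℂ
  have h2 : finrank ℂ (LinearMap.ker (f.domRestrict K))
      = finrank ℂ (K ⊓ LinearMap.ker f : Submodule ℂ M) := by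
    have e : LinearMap.ker (f.domRestrict K) ≃ₗ[ℂ] (K ⊓ LinearMap.ker f : Submodule ℂ M) :=
      { toFun := fun x => ⟨x.1.1, ⟨x.1.2, by
          have := x.2
          rw [LinearMap.mem_ker, LinearMap.domRestrict_apply] at this
          exact this⟩⟩
        invFun := fun y => ⟨⟨y.1, y.2.1⟩, by
          rw [LinearMap.mem_ker, LinearMap.domRestrict_apply]
          exact y.2.2⟩
        map_add' := fun _ _ => rfl
        map_smul' := fun _ _ => rfl
        left_inv := fun _ => rfl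
        right_inv := fun _ => rfl }
    exact e.finrank_eq
  omega

/-- Rank–nullity for the restriction of a linear map to a subspace. -/
lemma finrank_inf_ker_add_finrank_map [FiniteDimensional ℂ M] (W : Submodule ℂ M)
    (f : M →ₗ[ℂ] N) :
    finrank ℂ (W ⊓ LinearMap.ker f : Submodule ℂ M) + finrank ℂ (W.map f) = finrank ℂ W := by
  have h := LinearMap.finrank_range_add_finrank_ker (f.domRestrict W)
  have h1 : LinearMap.range (f.domRestrict W) = W.map f := by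
    ext y
    constructor
    · rintro ⟨x, rfl⟩; exact ⟨x.1, x.2, rfl⟩
    · rintro ⟨x, hx, rfl⟩; exact ⟨⟨x, hx⟩, rfl⟩
  have h2 : finrank ℂ (LinearMap.ker (f.domRestrict W))
      = finrank ℂ (W ⊓ LinearMap.ker f : Submodule ℂ M) := by
    have e : LinearMap.ker (f.domRestrict W) ≃ₗ[ℂ] (W ⊓ LinearMap.ker f : Submodule ℂ M) :=
      { toFun := fun x => ⟨x.1.1, ⟨x.1.2, by
          have := x.2
          rw [LinearMap.mem_ker, LinearMap.domRestrict_apply] at this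
          exact this⟩⟩
        invFun := fun y => ⟨⟨y.1, y.2.1⟩, by
          rw [LinearMap.mem_ker, LinearMap.domRestrict_apply]
          exact y.2.2⟩
        map_add' := fun _ _ => rfl
        map_smul' := fun _ _ => rfl
        left_inv := fun _ => rfl
        right_inv := fun _ => rfl }
    exact e.finrank_eq
  rw [h1] at h
  omega

end LinAlg

section Main

open ModularCurve.Period

variable (Γ : Subgroup SL(2, ℤ)) [Γ.FiniteIndex]

local notation "𝕏" => SL(2, ℤ) ⧸ Γ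
local notation "𝕍" => (SL(2, ℤ) ⧸ Γ) → ℂ

instance instFintypeCoset : Fintype 𝕏 := Subgroup.fintypeQuotientOfFiniteIndex

/-- `1 + S`. -/
def opS : 𝕍 →ₗ[ℂ] 𝕍 := LinearMap.id + transl S

/-- `1 + U + U²`. -/
def opU : 𝕍 →ₗ[ℂ] 𝕍 := LinearMap.id + transl elU + transl (elU * elU)

lemma opS_apply (v : 𝕍) : opS Γ v = v + transl S v := rfl

lemma opU_apply (v : 𝕍) : opU Γ v = v + transl elU v + transl (elU * elU) v := rfl

/-- The space of candidate cocycle values `(z(S), z(U))`. -/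
def spaceW : Submodule ℂ (𝕍 × 𝕍) := (LinearMap.ker (opS Γ)).prod (LinearMap.ker (opU Γ))

/-- `(a, b) ↦ N_T (S⁻¹ (b - a))`. -/
def mapTheta : (𝕍 × 𝕍) →ₗ[ℂ] 𝕍 :=
  (normOp T : 𝕍 →ₗ[ℂ] 𝕍) ∘ₗ (transl S⁻¹ : 𝕍 →ₗ[ℂ] 𝕍) ∘ₗ
    (LinearMap.snd ℂ 𝕍 𝕍 - LinearMap.fst ℂ 𝕍 𝕍)

lemma mapTheta_apply (a b : 𝕍) : mapTheta Γ (a, b) = normOp T (transl S⁻¹ (b - a)) := rfl

/-- The coboundary map `v ↦ ((S - 1) v, (U - 1) v)`. -/
def mapBeta : 𝕍 →ₗ[ℂ] (𝕍 × 𝕍) := LinearMap.prod (translSub S) (translSub elU)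

lemma mapBeta_apply (v : 𝕍) : mapBeta Γ v = (transl S v - v, transl elU v - v) := rfl

/-- `φ ↦ (z_φ(S), z_φ(U))`. -/
def mapPhi : (Additive Γ →+ ℂ) →ₗ[ℂ] (𝕍 × 𝕍) where
  toFun φ := (cocyc Γ φ S, cocyc Γ φ elU)
  map_add' φ ψ := by simp only [cocyc_add, Prod.mk_add_mk]
  map_smul' c φ := by simp only [cocyc_smul, RingHom.id_apply, Prod.smul_mk]

lemma mapPhi_apply (φ : Additive Γ →+ ℂ) : mapPhi Γ φ = (cocyc Γ φ S, cocyc Γ φ elU) := rfl

/-- The space of candidate parabolic cocycles. -/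
def spaceZ : Submodule ℂ (𝕍 × 𝕍) := spaceW Γ ⊓ LinearMap.ker (mapTheta Γ)

variable {Γ}

lemma transl_S_S (hneg : (-1 : SL(2, ℤ)) ∈ Γ) (v : 𝕍) : transl S (transl S v) = v := by
  rw [← transl_mul_apply, S_mul_S, transl_neg_one hneg]

lemma transl_U_cube (hneg : (-1 : SL(2, ℤ)) ∈ Γ) (v : 𝕍) :
    transl (elU * elU) (transl elU v) = v := by
  rw [← transl_mul_apply, elU_cube, transl_neg_one hneg]

lemma range_translSub_S_le (hneg : (-1 : SL(2, ℤ)) ∈ Γ) :
    LinearMap.range (translSub S : 𝕍 →ₗ[ℂ] 𝕍) ≤ LinearMap.ker (opS Γ) := by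
  rintro _ ⟨v, rfl⟩
  rw [LinearMap.mem_ker, opS_apply, translSub_apply, map_sub, transl_S_S hneg]
  abel

lemma range_translSub_U_le (hneg : (-1 : SL(2, ℤ)) ∈ Γ) :
    LinearMap.range (translSub elU : 𝕍 →ₗ[ℂ] 𝕍) ≤ LinearMap.ker (opU Γ) := by
  rintro _ ⟨v, rfl⟩
  rw [LinearMap.mem_ker, opU_apply, translSub_apply, map_sub, map_sub,
    transl_U_cube hneg, ← transl_mul_apply elU elU v]
  abel

lemma mapPhi_mem_spaceW (hneg : (-1 : SL(2, ℤ)) ∈ Γ) (φ : Additive Γ →+ ℂ) :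
    mapPhi Γ φ ∈ spaceW Γ := by
  refine ⟨?_, ?_⟩
  · rw [SetLike.mem_coe, LinearMap.mem_ker]; exact cocyc_S_add hneg φ
  · rw [SetLike.mem_coe, LinearMap.mem_ker]; exact cocyc_U_add hneg φ

lemma mapPhi_mem_spaceZ (hneg : (-1 : SL(2, ℤ)) ∈ Γ) (φ : Additive Γ →+ ℂ)
    (hφ : φ ∈ parabolicHoms ℂ Γ ℂ) : mapPhi Γ φ ∈ spaceZ Γ := by
  refine ⟨mapPhi_mem_spaceW hneg φ, ?_⟩
  rw [SetLike.mem_coe, LinearMap.mem_ker, mapPhi_apply, mapTheta_apply, ← cocyc_T_eq, normOp_apply,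
    ← cocyc_pow, cocyc_T_pow_eq_zero φ hφ]

lemma range_mapBeta_le (hneg : (-1 : SL(2, ℤ)) ∈ Γ) :
    LinearMap.range (mapBeta Γ) ≤ spaceZ Γ := by
  rintro _ ⟨v, rfl⟩
  refine ⟨⟨range_translSub_S_le hneg ⟨v, rfl⟩, range_translSub_U_le hneg ⟨v, rfl⟩⟩, ?_⟩
  rw [SetLike.mem_coe, LinearMap.mem_ker, mapBeta_apply, mapTheta_apply]
  have : transl S⁻¹ (transl elU v - v - (transl S v - v)) = translSub T v := by
    rw [translSub_apply, ← S_inv_mul_elU, transl_mul_apply]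
    simp only [map_sub, transl_inv_transl]
    abel
  rw [this, normOp_translSub]

/-- If `Φ φ` is a coboundary then `φ = 0`. -/
lemma eq_zero_of_mapPhi_mem_range (φ : Additive Γ →+ ℂ)
    (h : mapPhi Γ φ ∈ LinearMap.range (mapBeta Γ)) : φ = 0 := by
  obtain ⟨v, hv⟩ := h
  rw [mapBeta_apply, mapPhi_apply, Prod.mk.injEq] at hv
  have hall := cocyc_sub_coboundary_eq_zero Γ φ v {S, elU} closure_S_elU (by
    rintro a (rfl | rfl)
    · exact hv.1.symm
    · exact hv.2.symm)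
  ext γ
  obtain ⟨γ, hγ⟩ := γ
  have h1 := cocyc_apply_one_coset Γ φ hγ
  rw [hall γ, extHom_of_mem φ hγ] at h1
  have hfix : γ⁻¹ • ((1 : SL(2, ℤ)) : 𝕏) = ((1 : SL(2, ℤ)) : 𝕏) := by
    rw [MulAction.Quotient.smul_coe, smul_eq_mul, mul_one, QuotientGroup.eq]
    simpa using hγ
  simp only [Pi.sub_apply, transl_apply, hfix, sub_self] at h1
  exact h1.symm

lemma ker_sumFun_le_sup (Γ : Subgroup SL(2, ℤ)) [Γ.FiniteIndex] :
    LinearMap.ker (sumFun 𝕏) ≤
      LinearMap.range (translSub S : 𝕍 →ₗ[ℂ] 𝕍) ⊔ LinearMap.range (translSub elU : 𝕍 →ₗ[ℂ] 𝕍) := by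
  apply ker_sumFun_le (G := SL(2, ℤ))
  apply range_transl_sub_le_of_closure _ {S, elU} closure_S_elU
  rintro a (rfl | rfl)
  · exact le_sup_left
  · exact le_sup_right

/-- The image of `spaceW` under `mapTheta` contains all `T`-invariant functions of sum zero. -/
lemma inv_inf_ker_sum_le_map (hneg : (-1 : SL(2, ℤ)) ∈ Γ) :
    LinearMap.ker (translSub T : 𝕍 →ₗ[ℂ] 𝕍) ⊓ LinearMap.ker (sumFun 𝕏)
      ≤ (spaceW Γ).map (mapTheta Γ) := by
  rintro u ⟨hu1, hu2⟩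
  rw [SetLike.mem_coe, mem_ker_translSub] at hu1
  rw [SetLike.mem_coe, LinearMap.mem_ker] at hu2
  set n : ℂ := (actOrder 𝕏 T : ℂ) with hn
  have hn0 : n ≠ 0 := by
    rw [hn]; exact_mod_cast (actOrder_pos (X := 𝕏) T).ne'
  set u' : 𝕍 := n⁻¹ • u with hu'
  have hw : transl S u' ∈ LinearMap.ker (sumFun 𝕏) := by
    rw [LinearMap.mem_ker, sumFun_transl, hu', map_smul, hu2, smul_zero]
  obtain ⟨x, ⟨a', rfl⟩, y, ⟨b', rfl⟩, hxy⟩ := Submodule.mem_sup.mp (ker_sumFun_le_sup Γ hw)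
  refine ⟨(-(translSub S a'), translSub elU b'), ⟨?_, ?_⟩, ?_⟩
  · exact (LinearMap.ker (opS Γ)).neg_mem (range_translSub_S_le hneg ⟨a', rfl⟩)
  · exact range_translSub_U_le hneg ⟨b', rfl⟩
  · rw [mapTheta_apply, sub_neg_eq_add, add_comm, hxy, transl_inv_transl, hu', map_smul,
      normOp_of_invariant T hu1, smul_smul, inv_mul_cancel₀ hn0, one_smul]

lemma mapPhi_injective : Function.Injective (mapPhi Γ) := by
  rw [← LinearMap.ker_eq_bot, LinearMap.ker_eq_bot']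
  intro φ hφ
  apply eq_zero_of_mapPhi_mem_range φ
  rw [hφ]
  exact (LinearMap.range (mapBeta Γ)).zero_mem

lemma finrank_ker_mapBeta_le : finrank ℂ (LinearMap.ker (mapBeta Γ)) ≤ 1 := by
  have hle : LinearMap.ker (mapBeta Γ) ≤ Submodule.span ℂ {(fun _ => (1 : ℂ) : 𝕍)} := by
    intro v hv
    rw [LinearMap.mem_ker, mapBeta_apply, Prod.mk_eq_zero, sub_eq_zero, sub_eq_zero] at hv
    rw [Submodule.mem_span_singleton]
    refine ⟨v ((1 : SL(2, ℤ)) : 𝕏), ?_⟩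
    ext x
    have := eq_const_of_invariant (G := SL(2, ℤ)) {S, elU} closure_S_elU v (by
      rintro a (rfl | rfl)
      · exact hv.1
      · exact hv.2) x ((1 : SL(2, ℤ)) : 𝕏)
    simp [this]
  calc finrank ℂ (LinearMap.ker (mapBeta Γ))
      ≤ finrank ℂ (Submodule.span ℂ {(fun _ => (1 : ℂ) : 𝕍)}) := Submodule.finrank_mono hle
    _ ≤ 1 := by
        have := finrank_span_le_card (R := ℂ) ({(fun _ => (1 : ℂ) : 𝕍)} : Set 𝕍)
        simpa using this

lemma finrank_ker_opS_add_le :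
    finrank ℂ (LinearMap.ker (opS Γ)) + orbCount 𝕏 S ≤ Fintype.card 𝕏 := by
  rw [← finrank_ker_translSub (X := 𝕏) S, ← Module.finrank_fintype_fun_eq_card (R := ℂ) (η := 𝕏),
    ← finrank_top ℂ 𝕍]
  apply finrank_add_le_of_disjoint _ _ _ le_top le_top
  rw [eq_bot_iff]
  rintro v ⟨h1, h2⟩
  rw [SetLike.mem_coe, LinearMap.mem_ker, opS_apply] at h1
  rw [SetLike.mem_coe, mem_ker_translSub] at h2
  rw [h2] at h1
  have : (2 : ℂ) • v = 0 := by rw [two_smul]; exact h1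
  rw [Submodule.mem_bot]
  exact (smul_eq_zero.mp this).resolve_left two_ne_zero

lemma finrank_ker_opU_add_le :
    finrank ℂ (LinearMap.ker (opU Γ)) + orbCount 𝕏 elU ≤ Fintype.card 𝕏 := by
  rw [← finrank_ker_translSub (X := 𝕏) elU,
    ← Module.finrank_fintype_fun_eq_card (R := ℂ) (η := 𝕏), ← finrank_top ℂ 𝕍]
  apply finrank_add_le_of_disjoint _ _ _ le_top le_top
  rw [eq_bot_iff]
  rintro v ⟨h1, h2⟩
  rw [SetLike.mem_coe, LinearMap.mem_ker, opU_apply] at h1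
  rw [SetLike.mem_coe, mem_ker_translSub] at h2
  rw [transl_mul_apply, h2, h2] at h1
  have : (3 : ℂ) • v = 0 := by
    rw [show (3 : ℂ) = 1 + 1 + 1 by norm_num, add_smul, add_smul, one_smul]; exact h1
  rw [Submodule.mem_bot]
  exact (smul_eq_zero.mp this).resolve_left (by norm_num)

/-- **Group-theoretic bound.** For a finite index subgroup `Γ ∋ -1` of `SL(2, ℤ)`, the dimension
of the space of parabolic homomorphisms `Γ → ℂ` plus the numbers of orbits of `S`, `S * T` and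
`T` on the cosets is at most the index plus `2`. -/
theorem finrank_parabolicHoms_add_le (hneg : (-1 : SL(2, ℤ)) ∈ Γ) :
    finrank ℂ (parabolicHoms ℂ Γ ℂ) + orbCount 𝕏 S + orbCount 𝕏 elU + orbCount 𝕏 T
      ≤ Γ.index + 2 := by
  have hidx : Γ.index = Fintype.card 𝕏 := by
    rw [Subgroup.index, Nat.card_eq_fintype_card]
  set P := parabolicHoms ℂ Γ ℂ with hP
  set A := P.map (mapPhi Γ) with hA
  have hfA : finrank ℂ A = finrank ℂ P :=
    ((Submodule.equivMapOfInjective (mapPhi Γ) mapPhi_injective P).finrank_eq).symm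
  have hAZ : A ≤ spaceZ Γ := by
    rintro _ ⟨φ, hφ, rfl⟩
    exact mapPhi_mem_spaceZ hneg φ hφ
  have hBZ := range_mapBeta_le (Γ := Γ) hneg
  have hAB : A ⊓ LinearMap.range (mapBeta Γ) = ⊥ := by
    rw [eq_bot_iff]
    rintro _ ⟨⟨φ, _, rfl⟩, h2⟩
    rw [Submodule.mem_bot, eq_zero_of_mapPhi_mem_range φ h2, map_zero]
  have h1 := finrank_add_le_of_disjoint A (LinearMap.range (mapBeta Γ)) (spaceZ Γ) hAZ hBZ hAB
  have h2 := LinearMap.finrank_range_add_finrank_ker (mapBeta Γ)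
  rw [Module.finrank_fintype_fun_eq_card] at h2
  have h2' := finrank_ker_mapBeta_le (Γ := Γ)
  have h3 : finrank ℂ (spaceZ Γ) + finrank ℂ ((spaceW Γ).map (mapTheta Γ)) = finrank ℂ (spaceW Γ) :=
    finrank_inf_ker_add_finrank_map (spaceW Γ) (mapTheta Γ)
  have h4a := finrank_le_finrank_inf_ker_add_one (LinearMap.ker (translSub T : 𝕍 →ₗ[ℂ] 𝕍))
    (sumFun 𝕏)
  have h4b := Submodule.finrank_mono (inv_inf_ker_sum_le_map (Γ := Γ) hneg)
  rw [finrank_ker_translSub (X := 𝕏) T] at h4a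
  have h5 : finrank ℂ (spaceW Γ) = finrank ℂ (LinearMap.ker (opS Γ)) + finrank ℂ (LinearMap.ker (opU Γ)) :=
    finrank_prodSub _ _
  have h6 := finrank_ker_opS_add_le (Γ := Γ)
  have h7 := finrank_ker_opU_add_le (Γ := Γ)
  omega

end Main

end

end Fermat.Agent.ES

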