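import Mathlib

/-!
# A maximum principle on the modular curve (P1, part B2)

If `G : ℍ → ℂ` is holomorphic, `‖G‖` is invariant under a finite index subgroup `Γ ≤ SL(2, ℤ)`
and for every `δ : SL(2, ℤ)` the function `G ∘ δ` factors through `q_h = exp(2πiz/h)` as a
holomorphic function on the whole unit disc, then `G` is constant.
-/

set_option autoImplicit false

open UpperHalfPlane hiding I
open Complex Filter Function Metric
open scoped Manifold Topology Real MatrixGroups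

namespace Fermat.Agent.ES

local notation "𝕢" => Periodic.qParam

/-- coset representatives: every `g` is `γ * (x.out)⁻¹` with `γ ∈ Γ` -/
theorem exists_mem_mul_out_inv {G : Type*} [Group G] (Γ : Subgroup G) (g : G) :
    ∃ (x : G ⧸ Γ) (γ : G), γ ∈ Γ ∧ g = γ * (x.out)⁻¹ := by
  refine ⟨QuotientGroup.mk g⁻¹, g * (QuotientGroup.mk g⁻¹ : G ⧸ Γ).out, ?_, by group⟩
  have h : (QuotientGroup.mk ((QuotientGroup.mk g⁻¹ : G ⧸ Γ).out) : G ⧸ Γ) =
      QuotientGroup.mk g⁻¹ := QuotientGroup.out_eq' _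
  have := QuotientGroup.eq.mp h.symm
  simpa using this

theorem norm_qParam_le_of_im_ge {h : ℝ} (hh : 0 < h) {z : ℍ} (hz : 1 / 2 ≤ z.im) :
    ‖𝕢 h (z : ℂ)‖ ≤ Real.exp (-π / h) := by
  rw [Periodic.norm_qParam, Real.exp_le_exp]
  have : (z : ℂ).im = z.im := rfl
  rw [this]
  have hpi := Real.pi_pos
  rw [div_le_div_iff_of_pos_right hh]
  nlinarith

/-- **Maximum principle.** -/
theorem exists_const_of_norm_invariant (Γ : Subgroup SL(2, ℤ)) [Γ.FiniteIndex] {G : ℍ → ℂ}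
    (hinv : ∀ γ ∈ Γ, ∀ z : ℍ, ‖G (γ • z)‖ = ‖G z‖)
    (hcusp : ∀ δ : SL(2, ℤ), ∃ (h : ℝ) (_ : 0 < h) (g : ℂ → ℂ),
      DifferentiableOn ℂ g (ball 0 1) ∧ ∀ z : ℍ, g (𝕢 h (z : ℂ)) = G (δ • z)) :
    ∃ c : ℂ, ∀ z : ℍ, G z = c := by
  classical
  -- data attached to the coset representatives
  choose h hh g hg hgG using hcusp
  let r : SL(2, ℤ) ⧸ Γ → SL(2, ℤ) := fun x => (x.out)⁻¹
  have : Finite (SL(2, ℤ) ⧸ Γ) := Subgroup.finite_quotient_of_finiteIndex
  have : Fintype (SL(2, ℤ) ⧸ Γ) := Fintype.ofFinite _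
  -- maximum of `‖g_x‖` over the compact disc of radius `exp(-π/h)`
  have hρ : ∀ x, Real.exp (-π / h (r x)) < 1 := by
    intro x
    rw [Real.exp_lt_one_iff]
    exact div_neg_of_neg_of_pos (neg_neg_of_pos Real.pi_pos) (hh _)
  have hmax : ∀ x : SL(2, ℤ) ⧸ Γ, ∃ q ∈ closedBall (0 : ℂ) (Real.exp (-π / h (r x))),
      ∀ q' ∈ closedBall (0 : ℂ) (Real.exp (-π / h (r x))), ‖g (r x) q'‖ ≤ ‖g (r x) q‖ := by
    intro x
    have hcont : ContinuousOn (fun q => ‖g (r x) q‖) (closedBall (0 : ℂ) (Real.exp (-π / h (r x)))) := by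
      refine ((hg (r x)).continuousOn.mono ?_).norm
      intro q hq
      rw [mem_closedBall] at hq
      rw [mem_ball]
      exact lt_of_le_of_lt hq (hρ x)
    obtain ⟨q, hq, hqmax⟩ := (isCompact_closedBall (0 : ℂ) _).exists_isMaxOn
      ⟨0, by simp [(Real.exp_pos _).le]⟩ hcont
    exact ⟨q, hq, fun q' hq' => hqmax hq'⟩
  choose qx hqx hqxmax using hmax
  obtain ⟨x₀, -, hx₀⟩ := Finset.exists_max_image (Finset.univ : Finset (SL(2, ℤ) ⧸ Γ))
    (fun x => ‖g (r x) (qx x)‖) ⟨QuotientGroup.mk 1, Finset.mem_univ _⟩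
  set M := ‖g (r x₀) (qx x₀)‖ with hM
  -- global bound
  have hbound : ∀ z : ℍ, ‖G z‖ ≤ M := by
    intro z
    obtain ⟨γ₀, hγ₀, -⟩ := ModularGroup.exists_one_half_le_im_smul_and_norm_denom_le z
    obtain ⟨x, γ, hγ, hx⟩ := exists_mem_mul_out_inv Γ γ₀⁻¹
    have hz : z = γ • (r x • (γ₀ • z)) := by
      rw [← mul_smul, ← mul_smul, ← hx, inv_mul_cancel, one_smul]
    calc ‖G z‖ = ‖G (γ • (r x • (γ₀ • z)))‖ := by rw [← hz]
      _ = ‖G (r x • (γ₀ • z))‖ := hinv γ hγ _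
      _ = ‖g (r x) (𝕢 (h (r x)) ((γ₀ • z : ℍ) : ℂ))‖ := by rw [hgG]
      _ ≤ ‖g (r x) (qx x)‖ := by
          apply hqxmax
          rw [mem_closedBall, dist_zero_right]
          exact norm_qParam_le_of_im_ge (hh _) hγ₀
      _ ≤ M := hx₀ x (Finset.mem_univ _)
  -- `q x₀` is a maximum of `‖g‖` on the open unit disc
  have hq₀ : qx x₀ ∈ ball (0 : ℂ) 1 := by
    have := hqx x₀
    rw [mem_closedBall] at this
    rw [mem_ball]
    exact lt_of_le_of_lt this (hρ x₀)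
  have hle_ne : ∀ q ∈ ball (0 : ℂ) 1, q ≠ 0 → ‖g (r x₀) q‖ ≤ M := by
    intro q hq hq0
    rw [mem_ball, dist_zero_right] at hq
    have him := Periodic.im_invQParam_pos_of_norm_lt_one (hh (r x₀)) hq hq0
    have := hgG (r x₀) ⟨Periodic.invQParam (h (r x₀)) q, him⟩
    rw [UpperHalfPlane.coe_mk, Periodic.qParam_right_inv (hh _).ne' hq0] at this
    rw [this]
    exact hbound _
  have hle : ∀ q ∈ ball (0 : ℂ) 1, ‖g (r x₀) q‖ ≤ M := by
    intro q hq
    by_cases hq0 : q = 0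
    · subst hq0
      have hcont : ContinuousAt (g (r x₀)) 0 :=
        ((hg (r x₀)).differentiableAt (ball_mem_nhds 0 one_pos)).continuousAt
      have hcw : Tendsto (fun q => ‖g (r x₀) q‖) (𝓝[≠] 0) (𝓝 ‖g (r x₀) 0‖) :=
        (hcont.norm).tendsto.mono_left nhdsWithin_le_nhds
      refine le_of_tendsto hcw ?_
      have h1 : ∀ᶠ q in 𝓝[≠] (0 : ℂ), q ∈ ball (0 : ℂ) 1 :=
        nhdsWithin_le_nhds (ball_mem_nhds 0 one_pos)
      have h2 : ∀ᶠ q in 𝓝[≠] (0 : ℂ), q ≠ 0 := eventually_mem_nhdsWithin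
      filter_upwards [h1, h2] with q hq1 hq2 using hle_ne q hq1 hq2
    · exact hle_ne q hq hq0
  have hismax : IsMaxOn (norm ∘ g (r x₀)) (ball (0 : ℂ) 1) (qx x₀) := by
    intro q hq
    exact hle q hq
  have hconst := Complex.eqOn_of_isPreconnected_of_isMaxOn_norm
    (convex_ball (0 : ℂ) 1).isPreconnected isOpen_ball (hg (r x₀)) hq₀ hismax
  refine ⟨g (r x₀) (qx x₀), fun z => ?_⟩
  have hz : z = r x₀ • ((r x₀)⁻¹ • z) := by rw [smul_inv_smul]
  rw [hz, ← hgG]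
  apply hconst
  rw [mem_ball, dist_zero_right]
  exact Periodic.norm_qParam_lt_one (hh _) (im_pos _)

end Fermat.Agent.ES
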