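import Mathlib
import Fermat.Agent.Lib.ES.PeriodMap
import Fermat.Agent.Lib.ES.MaxPrinciple

/-!
# A weight two cusp form with purely imaginary periods vanishes (P1, part B2)
-/

set_option autoImplicit false

open UpperHalfPlane hiding I
open Complex Filter Function CongruenceSubgroup Metric
open scoped Manifold Topology Real ModularForm MatrixGroups

open Fermat.Agent.S22Lib ModularCurve ModularCurve.Period

namespace Fermat.Agent.ES

local notation "𝕢" => Periodic.qParam

variable (N : ℕ) [NeZero N]

/-- the primitive of a cuspidal function factors through the `q`-disc -/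
theorem exists_disc_function_prim {φ : ℍ → ℂ} (hφ : IsCuspidal φ) :
    ∃ (h : ℝ) (_ : 0 < h) (g : ℂ → ℂ), DifferentiableOn ℂ g (ball 0 1) ∧
      ∀ z : ℍ, g (𝕢 h (z : ℂ)) = prim φ z := by
  have hc := isCuspidal_cuspPrim hφ 1
  obtain ⟨h, hh, hper⟩ := hc.periodic
  have hh' : (0 : ℝ) < h := by exact_mod_cast hh
  have hper' : Periodic (prim φ ∘ ofComplex) ((h : ℝ) : ℂ) := by
    intro z
    have := hper z
    simp only [Function.comp_apply, prim, Pi.smul_apply] at this ⊢
    rw [this]
  have hmd : MDiff (prim φ) := hc.mdiff.const_smul _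
  have hbd : IsBoundedAtImInfty (prim φ) := by
    have h0 : IsZeroAtImInfty (prim φ) := by
      have := hc.zero.smul ((2 * π * I)⁻¹ : ℂ)
      simpa [IsZeroAtImInfty, ZeroAtFilter, prim] using this
    exact h0.boundedAtFilter
  refine ⟨h, hh', cuspFunction h (prim φ),
    differentiableOn_cuspFunction_ball hh' hper' hmd hbd, fun z => ?_⟩
  exact eq_cuspFunction z hh'.ne' hper'

/-- **B2, core**: a weight two cusp form all of whose periods are purely imaginary is zero. -/
theorem eq_zero_of_re_periodMap_eq_zero (f : CuspForm (Gamma0 N) 2)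
    (h : ∀ γ : Gamma0 N, (periodMap N f (Additive.ofMul γ)).re = 0) : f = 0 := by
  have hf := isCuspidalAll_two N f
  set A := prim ⇑f with hA
  -- apply the maximum principle to `G = exp ∘ A`
  obtain ⟨c₀, hc₀⟩ := exists_const_of_norm_invariant (Gamma0 N) (G := fun z => cexp (A z))
    (by
      intro γ hγ z
      have := periodMap_apply N f ⟨γ, hγ⟩ z
      have hre : (A (γ • z)).re = (A z).re := by
        have h1 : A (γ • z) = A z + periodMap N f (Additive.ofMul ⟨γ, hγ⟩) := by
          rw [this]; ring
        rw [h1, add_re, h ⟨γ, hγ⟩, add_zero]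
      simp only [Complex.norm_exp, hre])
    (by
      intro δ
      obtain ⟨c, hc⟩ := exists_const_prim_smul_eq hf δ
      obtain ⟨p, hp, g, hg, hgz⟩ := exists_disc_function_prim (hf δ)
      refine ⟨p, hp, fun q => cexp (g q + c), (hg.add_const c).cexp, fun z => ?_⟩
      simp only [hgz, hA, hc])
  -- hence the derivative of `A` vanishes
  have hzero : ∀ τ : ℍ, f τ = 0 := by
    intro τ
    have h1 : HasDerivAt (A ∘ ofComplex) (f τ) ↑τ := hasDerivAt_prim hf τ
    have h2 : HasDerivAt (fun w => cexp ((A ∘ ofComplex) w)) (cexp ((A ∘ ofComplex) ↑τ) * f τ) ↑τ :=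
      h1.cexp
    have h3 : (fun w => cexp ((A ∘ ofComplex) w)) =ᶠ[𝓝 (τ : ℂ)] fun _ => c₀ := by
      filter_upwards [isOpen_upperHalfPlaneSet.mem_nhds τ.im_pos] with w hw
      simp only [Function.comp_apply]
      exact hc₀ (ofComplex w)
    have h4 : HasDerivAt (fun w => cexp ((A ∘ ofComplex) w)) 0 ↑τ :=
      (hasDerivAt_const (τ : ℂ) c₀).congr_of_eventuallyEq h3
    have h5 := h2.unique h4
    rcases mul_eq_zero.mp h5 with h6 | h6
    · exact absurd h6 (Complex.exp_ne_zero _)
    · exact h6
  ext τ
  simpa using hzero τ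

end Fermat.Agent.ES
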