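import Mathlib
import Fermat.Agent.Lib.ES.ConjForm
import Fermat.Agent.Lib.ES.ImaginaryPeriods

/-!
# Injectivity of the Eichler–Shimura period pairing (P1, part B2)
-/

set_option autoImplicit false

open UpperHalfPlane hiding I
open Complex Filter Function CongruenceSubgroup
open scoped Manifold Topology Real ModularForm MatrixGroups ComplexConjugate

open Fermat.Agent.S22Lib ModularCurve ModularCurve.Period

namespace Fermat.Agent.ES

variable (N : ℕ) [NeZero N]

omit [NeZero N] in
theorem conjForm_eq_zero_iff (f : CuspForm (Gamma0 N) 2) : conjForm N f = 0 ↔ f = 0 := by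
  constructor
  · intro h
    have h1 : cj ⇑f = 0 := by
      rw [← coe_conjForm, h]; rfl
    have h2 : ⇑f = 0 := by
      rw [← cj_cj ⇑f, h1]
      ext z
      simp
    exact DFunLike.coe_injective h2
  · rintro rfl
    apply DFunLike.coe_injective
    rw [coe_conjForm]
    ext z
    simp

/-- key step: if `P(a) = conj ∘ P(b)` then `a = b = 0` -/
theorem eq_zero_of_periodMap_eq_conj (a b : CuspForm (Gamma0 N) 2)
    (h : ∀ γ : Gamma0 N, periodMap N a (Additive.ofMul γ) =
      conj (periodMap N b (Additive.ofMul γ))) : a = 0 ∧ b = 0 := by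
  have h1 : a - b = 0 := by
    apply eq_zero_of_re_periodMap_eq_zero N
    intro γ
    have : periodMap N (a - b) = periodMap N a - periodMap N b := by
      rw [← periodLin_apply, map_sub]; rfl
    rw [this, AddMonoidHom.sub_apply, h γ]
    simp
  have h2 : (I : ℂ) • (a + b) = 0 := by
    apply eq_zero_of_re_periodMap_eq_zero N
    intro γ
    have : periodMap N ((I : ℂ) • (a + b)) = (I : ℂ) • (periodMap N a + periodMap N b) := by
      rw [← periodLin_apply, map_smul, map_add]; rfl
    rw [this, AddMonoidHom.smul_apply, AddMonoidHom.add_apply, h γ]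
    simp
  have h3 : a + b = 0 := by
    rcases smul_eq_zero.mp h2 with h | h
    · exact absurd h I_ne_zero
    · exact h
  have ha : a = 0 := by
    have : (2 : ℂ) • a = 0 := by
      have : (2 : ℂ) • a = (a - b) + (a + b) := by rw [two_smul]; abel
      rw [this, h1, h3, add_zero]
    rcases smul_eq_zero.mp this with h | h
    · exact absurd h two_ne_zero
    · exact h
  refine ⟨ha, ?_⟩
  rw [ha, zero_add] at h3
  exact h3

/-- **B2**: the period pairing is injective. -/
theorem periodHomPair_injective : Function.Injective (periodHomPair N) := by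
  rw [injective_iff_map_eq_zero]
  rintro ⟨f, g⟩ h
  rw [periodHomPair_eq, LinearMap.coprod_apply] at h
  -- evaluate at `γ`
  have hγ : ∀ γ : Gamma0 N, periodMap N (f + g) (Additive.ofMul γ) =
      conj (periodMap N (conjForm N (f - g)) (Additive.ofMul γ)) := by
    intro γ
    have h1 := DFunLike.congr_fun h (Additive.ofMul γ)
    simp only [LinearMap.comp_apply, LinearMap.add_apply, LinearMap.sub_apply,
      LinearMap.id_apply, periodLin_apply, AddMonoidHom.add_apply, AddMonoidHom.sub_apply,
      charInvolution_apply, toMul_ofMul, AddMonoidHom.zero_apply] at h1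
    have e1 : periodMap N (f + g) = periodMap N f + periodMap N g := periodMap_add N f g
    have e2 : periodMap N (f - g) = periodMap N f - periodMap N g := by
      rw [← periodLin_apply, map_sub]; rfl
    rw [periodMap_conjForm, map_neg, Complex.conj_conj, e1, e2, AddMonoidHom.add_apply,
      AddMonoidHom.sub_apply]
    linear_combination h1
  obtain ⟨h1, h2⟩ := eq_zero_of_periodMap_eq_conj N _ _ hγ
  rw [conjForm_eq_zero_iff] at h2
  have hf : f = 0 := by
    have : (2 : ℂ) • f = 0 := by
      have : (2 : ℂ) • f = (f + g) + (f - g) := by rw [two_smul]; abel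
      rw [this, h1, h2, add_zero]
    rcases smul_eq_zero.mp this with h | h
    · exact absurd h two_ne_zero
    · exact h
  have hg : g = 0 := by
    rw [hf, zero_add] at h1
    exact h1
  rw [hf, hg]
  rfl

end Fermat.Agent.ES
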