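import Mathlib
import Fermat.Agent.Lib.ES.Injective
import Fermat.Agent.Lib.ES.GroupBoundMain
import Fermat.Agent.Lib.S24.Comb2

/-!
# `dim S₂(Γ₀(N)) ≤ g(N)` and the reduction of S20/S21 to the lower bound (P1b)
-/

set_option autoImplicit false

namespace Fermat.Agent.ES

open Matrix MatrixGroups CongruenceSubgroup ModularCurve ModularCurve.Period Module
open Fermat.Agent.S24Lib

variable (N : ℕ) [NeZero N]

instance finiteIndex_Gamma0' : (Gamma0 N).FiniteIndex :=
  ⟨by
    rw [Subgroup.index]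
    have := card_quotient_Gamma0 N
    have hpos : 0 < dedekindPsi N := by
      rw [← this]
      exact Nat.card_pos
    omega⟩

omit [NeZero N] in
theorem neg_one_mem_Gamma0 : (-1 : SL(2, ℤ)) ∈ Gamma0 N := by
  rw [Gamma0_mem]
  simp

instance finiteDimensional_addHom_Gamma0 :
    FiniteDimensional ℂ (Additive (Gamma0 N) →+ ℂ) :=
  FiniteDimensional.of_injective (mapPhi (Gamma0 N)) mapPhi_injective

instance finiteDimensional_cuspForm_Gamma0_two :
    FiniteDimensional ℂ (CuspForm (Gamma0 N) 2) := by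
  have h1 : FiniteDimensional ℂ (CuspForm (Gamma0 N) 2 × CuspForm (Gamma0 N) 2) :=
    FiniteDimensional.of_injective (periodHomPair N) (periodHomPair_injective N)
  exact FiniteDimensional.of_injective (LinearMap.inl ℂ _ (CuspForm (Gamma0 N) 2))
    LinearMap.inl_injective

theorem two_mul_finrank_cuspForm_le :
    2 * finrank ℂ (CuspForm (Gamma0 N) 2) ≤ finrank ℂ (parabolicHoms ℂ (Gamma0 N) ℂ) := by
  have h1 : finrank ℂ (CuspForm (Gamma0 N) 2 × CuspForm (Gamma0 N) 2) =
      2 * finrank ℂ (CuspForm (Gamma0 N) 2) := by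
    rw [Module.finrank_prod]; ring
  rw [← h1]
  let φ : (CuspForm (Gamma0 N) 2 × CuspForm (Gamma0 N) 2) →ₗ[ℂ] parabolicHoms ℂ (Gamma0 N) ℂ :=
    (periodHomPair N).codRestrict _ fun x => range_periodHomPair_le N ⟨x, rfl⟩
  have hφ : Function.Injective φ := fun x y h => periodHomPair_injective N (by
    have := congrArg Subtype.val h
    simpa [φ] using this)
  exact LinearMap.finrank_le_finrank_of_injective hφ

/-- the group theoretic bound in terms of the genus formula -/
theorem finrank_parabolicHoms_le :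
    (finrank ℂ (parabolicHoms ℂ (Gamma0 N) ℂ) : ℚ) ≤ 2 * genusFormula N := by
  have h := finrank_parabolicHoms_add_le (Γ := Gamma0 N) (neg_one_mem_Gamma0 N)
  have hidx : (Gamma0 N).index = dedekindPsi N := by
    rw [Subgroup.index, card_quotient_Gamma0]
  have hS := card_orbits_S N
  have hU := card_orbits_ST N
  have hT := card_orbits_T N
  have e1 : orbCount (SL(2, ℤ) ⧸ Gamma0 N) ModularGroup.S =
      Nat.card (MulAction.orbitRel.Quotient (Subgroup.zpowers ModularGroup.S)
        (SL(2, ℤ) ⧸ Gamma0 N)) := rfl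
  have e2 : orbCount (SL(2, ℤ) ⧸ Gamma0 N) elU =
      Nat.card (MulAction.orbitRel.Quotient (Subgroup.zpowers (ModularGroup.S * ModularGroup.T))
        (SL(2, ℤ) ⧸ Gamma0 N)) := rfl
  have e3 : orbCount (SL(2, ℤ) ⧸ Gamma0 N) ModularGroup.T =
      Nat.card (MulAction.orbitRel.Quotient (Subgroup.zpowers ModularGroup.T)
        (SL(2, ℤ) ⧸ Gamma0 N)) := rfl
  rw [e1, e2, e3, hidx, hT] at h
  have hq : (finrank ℂ (parabolicHoms ℂ (Gamma0 N) ℂ) : ℚ) +
      (Nat.card (MulAction.orbitRel.Quotient (Subgroup.zpowers ModularGroup.S)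
        (SL(2, ℤ) ⧸ Gamma0 N)) : ℚ) +
      (Nat.card (MulAction.orbitRel.Quotient (Subgroup.zpowers (ModularGroup.S * ModularGroup.T))
        (SL(2, ℤ) ⧸ Gamma0 N)) : ℚ) + (cuspCount N : ℚ) ≤ (dedekindPsi N : ℚ) + 2 := by
    exact_mod_cast h
  have hSq : 2 * (Nat.card (MulAction.orbitRel.Quotient (Subgroup.zpowers ModularGroup.S)
        (SL(2, ℤ) ⧸ Gamma0 N)) : ℚ) = (dedekindPsi N : ℚ) + (nuTwo N : ℚ) := by
    exact_mod_cast hS
  have hUq : 3 * (Nat.card (MulAction.orbitRel.Quotient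
      (Subgroup.zpowers (ModularGroup.S * ModularGroup.T))
        (SL(2, ℤ) ⧸ Gamma0 N)) : ℚ) = (dedekindPsi N : ℚ) + 2 * (nuThree N : ℚ) := by
    exact_mod_cast hU
  rw [genusFormula]
  linarith

/-- **Upper bound** `dim S₂(Γ₀(N)) ≤ g(N)`. -/
theorem finrank_cuspForm_le_genusFormula :
    (finrank ℂ (CuspForm (Gamma0 N) 2) : ℚ) ≤ genusFormula N := by
  have h1 := two_mul_finrank_cuspForm_le N
  have h2 := finrank_parabolicHoms_le N
  have h3 : (2 * finrank ℂ (CuspForm (Gamma0 N) 2) : ℚ) ≤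
      (finrank ℂ (parabolicHoms ℂ (Gamma0 N) ℂ) : ℚ) := by exact_mod_cast h1
  linarith

/-- S20 from the lower bound. -/
theorem finrank_cuspForm_eq_of_le
    (h : genusFormula N ≤ (finrank ℂ (CuspForm (Gamma0 N) 2) : ℚ)) :
    (finrank ℂ (CuspForm (Gamma0 N) 2) : ℚ) = genusFormula N :=
  le_antisymm (finrank_cuspForm_le_genusFormula N) h

/-- S21 from the lower bound. -/
theorem periodHomPair_range_eq_of_le
    (h : genusFormula N ≤ (finrank ℂ (CuspForm (Gamma0 N) 2) : ℚ)) :
    Function.Injective (periodHomPair N) ∧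
      LinearMap.range (periodHomPair N) = parabolicHoms ℂ (Gamma0 N) ℂ := by
  refine ⟨periodHomPair_injective N, ?_⟩
  refine Submodule.eq_of_le_of_finrank_le (range_periodHomPair_le N) ?_
  have h1 : finrank ℂ (LinearMap.range (periodHomPair N)) =
      finrank ℂ (CuspForm (Gamma0 N) 2 × CuspForm (Gamma0 N) 2) :=
    LinearMap.finrank_range_of_inj (periodHomPair_injective N)
  rw [h1, Module.finrank_prod]
  have h2 := finrank_parabolicHoms_le N
  have : (finrank ℂ (parabolicHoms ℂ (Gamma0 N) ℂ) : ℚ) ≤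
      ((finrank ℂ (CuspForm (Gamma0 N) 2) + finrank ℂ (CuspForm (Gamma0 N) 2) : ℕ) : ℚ) := by
    push_cast
    linarith
  exact_mod_cast this

end Fermat.Agent.ES
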