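/-
P1b (S20/S21/S23), the dictionary, final form for the Prelude's function field of `X₀(N)`:
regular differentials `h dj` give cusp forms with `q`-expansion `h · jPrime`, and
`dim Ω(0) ≤ dim S₂(Γ₀(N))`.
-/
import Mathlib
import Fermat.Agent.Lib.ES.DictLower

set_option autoImplicit false
set_option linter.unusedSectionVars false
set_option linter.style.haveILetI false

namespace Fermat.Agent.ES

open UpperHalfPlane Matrix MatrixGroups CongruenceSubgroup ModularCurve WithZero Filter Topology
open scoped ModularForm Manifold
open Fermat.Agent.S24Lib Fermat.Agent.Curve AlgebraicCurve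

local notation "Kbar" => AlgebraicClosure ℚ

variable (N : ℕ) [NeZero N]

/-- the fixed field of an automorphism -/
def fixedSubfield {L : Type*} [Field L] (σ : L ≃+* L) : Subfield L where
  carrier := {y | σ y = y}
  mul_mem' := fun {a b} ha hb => by
    show σ (a * b) = a * b
    rw [map_mul, ha, hb]
  one_mem' := map_one σ
  add_mem' := fun {a b} ha hb => by
    show σ (a + b) = a + b
    rw [map_add, ha, hb]
  zero_mem' := map_zero σ
  neg_mem' := fun {a} ha => by
    show σ (-a) = -a
    rw [map_neg, ha]
  inv_mem' := fun a ha => by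
    show σ a⁻¹ = a⁻¹
    rw [map_inv₀, ha]

theorem mem_fixedSubfield {L : Type*} [Field L] (σ : L ≃+* L) (y : L) :
    y ∈ fixedSubfield σ ↔ σ y = y := Iff.rfl

theorem jGenR_inv_eq {d : ℕ+} (hd : (d : ℕ) ∣ N) {γ : SL(2, ℤ)} (hγ : γ ∈ Gamma0 N) :
    jGenR N hd γ⁻¹ = jGenR N hd 1 := by
  apply Subtype.ext
  show jGen d γ⁻¹ = jGen d 1
  have h0 : γ⁻¹ ∈ Gamma0 d := Gamma0_le_of_dvd hd (inv_mem hγ)
  have := jGen_Gamma0_mul d h0 1
  rwa [mul_one] at this

theorem jGenL_inv_eq {d : ℕ+} (hd : (d : ℕ) ∣ N) {γ : SL(2, ℤ)} (hγ : γ ∈ Gamma0 N) :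
    jGenL N hd γ⁻¹ = jGenL N hd 1 := by
  rw [jGenL, jGenL, jGenR_inv_eq N hd hγ]

/-- elements of the analytic model of the function field of `X₀(N)` are `Γ₀(N)`-invariant -/
theorem modRep_eq_of_mem_anField {y : ModField N} (hy : y ∈ anField N) {γ : SL(2, ℤ)}
    (hγ : γ ∈ Gamma0 N) : modRep N γ y = y := by
  have hy' : y ∈ Subfield.closure (Set.range (algebraMap Kbar (ModField N)) ∪ anGens N) := hy
  have hle : Subfield.closure (Set.range (algebraMap Kbar (ModField N)) ∪ anGens N)
      ≤ fixedSubfield (modRep N γ : ModField N ≃ₐ[Kbar] ModField N).toRingEquiv := by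
    rw [Subfield.closure_le]
    rintro z (⟨c, rfl⟩ | ⟨d, hd, rfl⟩)
    · rw [SetLike.mem_coe, mem_fixedSubfield]
      exact AlgEquiv.commutes _ c
    · rw [SetLike.mem_coe, mem_fixedSubfield]
      have := modRep_jGenL N γ hd 1
      rw [one_mul, jGenL_inv_eq N hd hγ] at this
      exact this
  exact (mem_fixedSubfield _ y).mp (hle hy')

/-- the embedding of the Prelude's function field into the field of modular functions -/
noncomputable def toModHom : modularFunctionFieldBar N →ₐ[Kbar] ModField N :=
  (anField N).val.comp (modIso N).toAlgHom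

theorem toModHom_apply (h : modularFunctionFieldBar N) :
    toModHom N h = ((modIso N h : anField N) : ModField N) := rfl

theorem toModHom_jBar : toModHom N (jBar N) = jL N := modIso_jBar N

theorem modFieldQL_toModHom (h : modularFunctionFieldBar N) :
    modFieldQL N (toModHom N h) = qExpand ℂ N (coeffMap iotaC (h : LaurentSeries Kbar)) :=
  modFieldQL_modIso N h

theorem modRep_toModHom (h : modularFunctionFieldBar N) {γ : SL(2, ℤ)} (hγ : γ ∈ Gamma0 N) :
    modRep N γ (toModHom N h) = toModHom N h :=
  modRep_eq_of_mem_anField N (modIso N h).2 hγ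

/-- `q ↦ q^N` as a `ℂ`-linear map on Laurent series -/
noncomputable def qExpandLin : LaurentSeries ℂ →ₗ[ℂ] LaurentSeries ℂ where
  toFun := qExpand ℂ N
  map_add' := map_add _
  map_smul' c y := by
    rw [RingHom.id_apply, ← HahnSeries.C_mul_eq_smul, ← HahnSeries.C_mul_eq_smul, map_mul,
      qExpand_C]

theorem linearIndependent_modFieldQL_toModHom {n : ℕ} (v : Fin n → modularFunctionFieldBar N)
    (hv : LinearIndependent Kbar v) :
    LinearIndependent ℂ (fun i => modFieldQL N (toModHom N (v i))) := by
  have h1 : LinearIndependent Kbar (fun i => ((v i : modularFunctionFieldBar N) :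
      LaurentSeries Kbar)) := by
    let V : modularFunctionFieldBar N →ₗ[Kbar] LaurentSeries Kbar :=
      { toFun := fun h => (h : LaurentSeries Kbar)
        map_add' := fun _ _ => rfl
        map_smul' := fun c h => by
          rw [RingHom.id_apply, ← HahnSeries.C_mul_eq_smul, Algebra.smul_def,
            MulMemClass.coe_mul]
          congr 1
          show algebraMap Kbar (LaurentSeries Kbar) c = HahnSeries.C c
          rw [algebraMap_laurentSeries_eq_single]
          rfl }
    exact hv.map' V (LinearMap.ker_eq_bot.mpr Subtype.val_injective)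
  have h2 := linearIndependent_coeffMap_ringHom iotaC _ h1
  have h3 := h2.map' (qExpandLin N) (LinearMap.ker_eq_bot.mpr (qExpand_injective N))
  have : (fun i => modFieldQL N (toModHom N (v i)))
      = (qExpandLin N) ∘ fun i => coeffMap iotaC ((v i : modularFunctionFieldBar N) :
        LaurentSeries Kbar) := by
    funext i
    exact modFieldQL_toModHom N (v i)
  rw [this]
  exact h3

variable (hx : IsFunctionFieldGen Kbar (modularFunctionFieldBar N) (jBar N))

/-- **Lower bound for the dimension of `S₂(Γ₀(N))`.** -/
theorem finrank_regularDifferentials_le :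
    Module.finrank Kbar ↥(regularDifferentials hx)
      ≤ Module.finrank ℂ (CuspForm (Gamma0 N) 2) :=
  finrank_regularDifferentials_le_of N (toModHom N) (toModHom_jBar N) hx
    (fun h _ hγ => modRep_toModHom N h hγ)
    (fun v hv => linearIndependent_modFieldQL_toModHom N v hv)

set_option synthInstance.maxHeartbeats 400000 in
set_option maxHeartbeats 1000000 in
/-- **The dictionary**: a regular differential `h dj` on `X₀(N)` gives a cusp form of weight two
whose `q`-expansion is `h · jPrime`. -/
theorem exists_cuspForm_qExpansion {h : modularFunctionFieldBar N}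
    (hreg : h • KaehlerDifferential.D Kbar (modularFunctionFieldBar N) (jBar N)
      ∈ regularDifferentials hx) :
    ∃ f : CuspForm (Gamma0 N) 2,
      HahnSeries.ofPowerSeries ℤ ℂ (qExpansion 1 (f : ℍ → ℂ))
        = coeffMap iotaC (h : LaurentSeries Kbar) * qLaurent 1 jPrime :=
  exists_cuspForm_of_regular' N (toModHom N) (toModHom_jBar N) hx hreg
    (fun _ hγ => modRep_toModHom N h hγ) _ (modFieldQL_toModHom N h)

end Fermat.Agent.ES
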