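/-
P1b: the lower bound `genusFormula N ≤ dim S₂(Γ₀(N))` (dictionary + Riemann–Roch + S24).
-/
import Mathlib
import Fermat.Agent.Lib.ES.DictMain
import Fermat.Agent.Lib.S24.GenusRR

set_option autoImplicit false

namespace Fermat.Agent.ES

open ModularCurve CongruenceSubgroup Fermat.Agent.S24Lib Fermat.Agent.Curve

variable (N : ℕ) [NeZero N]

/-- **Lower bound for the dimension of `S₂(Γ₀(N))`.** -/
theorem genusFormula_le_finrank_cuspForm :
    genusFormula N ≤ (Module.finrank ℂ (CuspForm (Gamma0 N) 2) : ℚ) := by
  rw [← finrank_regularDifferentials_modular N]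
  exact_mod_cast finrank_regularDifferentials_le N (isFunctionFieldGen_jBar N)

end Fermat.Agent.ES
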