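import Mathlib
import Fermat.Prelude.Def_ModularCurve_PeriodMap

/-!
# A group-theoretic upper bound for the space of parabolic homomorphisms

For a finite index subgroup `Γ ≤ SL(2, ℤ)` containing `-1` we bound the dimension of the space of
homomorphisms `Γ → ℂ` vanishing on parabolic elements, in terms of the numbers of orbits of
`S`, `S * T` and `T` on the coset space `SL(2, ℤ) ⧸ Γ`.  Only the fact that `S` and `T` generate
`SL(2, ℤ)` is used (no presentation).
-/

set_option autoImplicit false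
set_option linter.unusedSectionVars false

open Matrix ModularGroup
open scoped MatrixGroups

namespace Fermat.Agent.ES

noncomputable section

/-! ### Translation operators on functions on a `G`-set -/

section Transl

variable {G : Type*} [Group G] {X : Type*} [MulAction G X]

/-- The translation operator `(g • v) x = v (g⁻¹ • x)` on functions `X → ℂ`. -/
def transl (g : G) : (X → ℂ) →ₗ[ℂ] (X → ℂ) :=
  LinearMap.funLeft ℂ ℂ (fun x => g⁻¹ • x)

@[simp] lemma transl_apply (g : G) (v : X → ℂ) (x : X) : transl g v x = v (g⁻¹ • x) := rfl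

lemma transl_one : transl (1 : G) = (LinearMap.id : (X → ℂ) →ₗ[ℂ] (X → ℂ)) := by
  ext v x; simp

lemma transl_mul (g h : G) :
    (transl (g * h) : (X → ℂ) →ₗ[ℂ] (X → ℂ)) = transl g ∘ₗ transl h := by
  ext v x; simp [mul_smul]

lemma transl_mul_apply (g h : G) (v : X → ℂ) : transl (g * h) v = transl g (transl h v) := by
  rw [transl_mul]; rfl

lemma transl_inv_transl (g : G) (v : X → ℂ) : transl g⁻¹ (transl g v) = v := by
  rw [← transl_mul_apply, inv_mul_cancel, transl_one]; rfl

lemma transl_transl_inv (g : G) (v : X → ℂ) : transl g (transl g⁻¹ v) = v := by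
  rw [← transl_mul_apply, mul_inv_cancel, transl_one]; rfl

/-- The operator `transl g - 1`. -/
def translSub (g : G) : (X → ℂ) →ₗ[ℂ] (X → ℂ) := transl g - LinearMap.id

@[simp] lemma translSub_apply (g : G) (v : X → ℂ) : translSub g v = transl g v - v := rfl

lemma mem_ker_translSub {g : G} {v : X → ℂ} :
    v ∈ LinearMap.ker (translSub g : (X → ℂ) →ₗ[ℂ] (X → ℂ)) ↔ transl g v = v := by
  rw [LinearMap.mem_ker, translSub_apply, sub_eq_zero]

end Transl

/-! ### Invariant functions and orbit counts -/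

section Orbits

variable {G : Type*} [Group G] {X : Type*} [MulAction G X]

/-- The number of orbits of the cyclic group generated by `g` on `X`. -/
def orbCount (X : Type*) [MulAction G X] (g : G) : ℕ :=
  Nat.card (MulAction.orbitRel.Quotient (Subgroup.zpowers g) X)

lemma invariant_zpow {g : G} {v : X → ℂ} (h : transl g v = v) (n : ℤ) (x : X) :
    v (g ^ n • x) = v x := by
  have h1 : ∀ x, v (g⁻¹ • x) = v x := fun x => congrFun h x
  have h2 : ∀ x, v (g • x) = v x := fun x => by
    have := h1 (g • x); rw [inv_smul_smul] at this; exact this.symm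
  induction n using Int.induction_on generalizing x with
  | zero => simp
  | succ n ih =>
    rw [_root_.zpow_add_one, mul_smul, ih, h2]
  | pred n ih =>
    rw [_root_.zpow_sub_one, mul_smul, ih, h1]

/-- The space of `g`-invariant functions is identified with functions on the orbit space. -/
def invariantsEquiv (g : G) :
    (MulAction.orbitRel.Quotient (Subgroup.zpowers g) X → ℂ) ≃ₗ[ℂ]
      LinearMap.ker (translSub g : (X → ℂ) →ₗ[ℂ] (X → ℂ)) := by
  refine LinearEquiv.ofBijective
    ((LinearMap.funLeft ℂ ℂ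
        (fun x : X => (Quotient.mk'' x : MulAction.orbitRel.Quotient (Subgroup.zpowers g) X))).codRestrict
      _ ?_) ⟨?_, ?_⟩
  · intro f
    rw [mem_ker_translSub]
    ext x
    simp only [transl_apply, LinearMap.funLeft_apply]
    congr 1
    apply Quotient.sound'
    rw [MulAction.orbitRel_apply]
    refine ⟨⟨g⁻¹, Subgroup.inv_mem _ (Subgroup.mem_zpowers g)⟩, ?_⟩
    rfl
  · intro f₁ f₂ hf
    have hf' := congrArg Subtype.val hf
    simp only [LinearMap.codRestrict_apply] at hf'
    ext q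
    induction q using Quotient.inductionOn' with
    | h x => exact congrFun hf' x
  · rintro ⟨v, hv⟩
    rw [mem_ker_translSub] at hv
    refine ⟨Quotient.lift v ?_, ?_⟩
    · rintro a b hab
      change (MulAction.orbitRel (Subgroup.zpowers g) X) a b at hab
      rw [MulAction.orbitRel_apply] at hab
      obtain ⟨⟨_, n, rfl⟩, rfl⟩ := hab
      exact invariant_zpow hv n b
    · apply Subtype.ext
      ext x
      rfl

lemma finrank_ker_translSub [Finite X] (g : G) :
    Module.finrank ℂ (LinearMap.ker (translSub g : (X → ℂ) →ₗ[ℂ] (X → ℂ)))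
      = orbCount X g := by
  classical
  have := Fintype.ofFinite X
  have : Fintype (MulAction.orbitRel.Quotient (Subgroup.zpowers g) X) := Fintype.ofFinite _
  rw [← (invariantsEquiv (X := X) g).finrank_eq, Module.finrank_fintype_fun_eq_card, orbCount,
    Nat.card_eq_fintype_card]

end Orbits

/-! ### The coset cocycle attached to a homomorphism on `Γ` -/

section Cocycle

variable {G : Type*} [Group G] (Γ : Subgroup G)

/-- Extension by zero of an additive character of `Γ` to all of `G`. -/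
def extHom (φ : Additive Γ →+ ℂ) (g : G) : ℂ :=
  open Classical in if h : g ∈ Γ then φ (Additive.ofMul ⟨g, h⟩) else 0

variable {Γ}

lemma extHom_of_mem (φ : Additive Γ →+ ℂ) {g : G} (h : g ∈ Γ) :
    extHom Γ φ g = φ (Additive.ofMul ⟨g, h⟩) := by
  rw [extHom, dif_pos h]

lemma extHom_mul (φ : Additive Γ →+ ℂ) {a b : G} (ha : a ∈ Γ) (hb : b ∈ Γ) :
    extHom Γ φ (a * b) = extHom Γ φ a + extHom Γ φ b := by
  rw [extHom_of_mem φ ha, extHom_of_mem φ hb, extHom_of_mem φ (Γ.mul_mem ha hb), ← map_add]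
  rfl

lemma extHom_one (φ : Additive Γ →+ ℂ) : extHom Γ φ 1 = 0 := by
  rw [extHom_of_mem φ Γ.one_mem]
  exact map_zero φ

lemma extHom_add (φ ψ : Additive Γ →+ ℂ) (g : G) :
    extHom Γ (φ + ψ) g = extHom Γ φ g + extHom Γ ψ g := by
  by_cases h : g ∈ Γ
  · rw [extHom_of_mem _ h, extHom_of_mem _ h, extHom_of_mem _ h]; rfl
  · simp [extHom, h]

lemma extHom_smul (c : ℂ) (φ : Additive Γ →+ ℂ) (g : G) :
    extHom Γ (c • φ) g = c * extHom Γ φ g := by
  by_cases h : g ∈ Γ
  · rw [extHom_of_mem _ h, extHom_of_mem _ h]; rfl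
  · simp [extHom, h]

variable (Γ)

/-- The element `r(x)⁻¹ g r(g⁻¹ x)` of `Γ` attached to `g : G` and a coset `x`. -/
def cosetElt (g : G) (x : G ⧸ Γ) : G :=
  (Quotient.out x)⁻¹ * g * Quotient.out (g⁻¹ • x)

lemma cosetElt_mem (g : G) (x : G ⧸ Γ) : cosetElt Γ g x ∈ Γ := by
  rw [cosetElt, mul_assoc, ← QuotientGroup.eq, QuotientGroup.out_eq']
  have := MulAction.Quotient.mk_smul_out (H := Γ) g (g⁻¹ • x)
  rw [smul_inv_smul, smul_eq_mul] at this
  exact this.symm

lemma cosetElt_mul (g h : G) (x : G ⧸ Γ) :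
    cosetElt Γ (g * h) x = cosetElt Γ g x * cosetElt Γ h (g⁻¹ • x) := by
  simp only [cosetElt, _root_.mul_inv_rev, mul_smul]
  group

/-- The coset cocycle `g ↦ (x ↦ φ (r(x)⁻¹ g r(g⁻¹ x)))`. -/
def cocyc (φ : Additive Γ →+ ℂ) (g : G) : G ⧸ Γ → ℂ :=
  fun x => extHom Γ φ (cosetElt Γ g x)

lemma cocyc_mul (φ : Additive Γ →+ ℂ) (g h : G) :
    cocyc Γ φ (g * h) = cocyc Γ φ g + transl g (cocyc Γ φ h) := by
  ext x
  simp only [cocyc, Pi.add_apply, transl_apply]
  rw [cosetElt_mul, extHom_mul φ (cosetElt_mem Γ g x) (cosetElt_mem Γ h _)]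

lemma cocyc_one (φ : Additive Γ →+ ℂ) : cocyc Γ φ 1 = 0 := by
  have h := cocyc_mul Γ φ 1 1
  rw [mul_one, transl_one] at h
  simpa using h

lemma cocyc_inv (φ : Additive Γ →+ ℂ) (g : G) :
    cocyc Γ φ g⁻¹ = - transl g⁻¹ (cocyc Γ φ g) := by
  have h := cocyc_mul Γ φ g⁻¹ g
  rw [inv_mul_cancel, cocyc_one] at h
  exact eq_neg_of_add_eq_zero_left h.symm

lemma cocyc_add (φ ψ : Additive Γ →+ ℂ) (g : G) :
    cocyc Γ (φ + ψ) g = cocyc Γ φ g + cocyc Γ ψ g := by
  ext x; simp [cocyc, extHom_add]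

lemma cocyc_smul (c : ℂ) (φ : Additive Γ →+ ℂ) (g : G) :
    cocyc Γ (c • φ) g = c • cocyc Γ φ g := by
  ext x; simp [cocyc, extHom_smul]

/-- The value of the coset cocycle at `γ ∈ Γ` on the trivial coset is `φ γ`. -/
lemma cocyc_apply_one_coset (φ : Additive Γ →+ ℂ) {γ : G} (hγ : γ ∈ Γ) :
    cocyc Γ φ γ ((1 : G) : G ⧸ Γ) = extHom Γ φ γ := by
  have hfix : γ⁻¹ • ((1 : G) : G ⧸ Γ) = ((1 : G) : G ⧸ Γ) := by
    rw [MulAction.Quotient.smul_coe, smul_eq_mul, mul_one, QuotientGroup.eq]
    simpa using hγ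
  set r := Quotient.out (((1 : G) : G ⧸ Γ)) with hr
  have hrmem : r ∈ Γ := by
    have : ((r : G) : G ⧸ Γ) = ((1 : G) : G ⧸ Γ) := QuotientGroup.out_eq' _
    rw [QuotientGroup.eq] at this
    simpa using Γ.inv_mem this
  simp only [cocyc, cosetElt, hfix, ← hr]
  rw [extHom_mul φ (Γ.mul_mem (Γ.inv_mem hrmem) hγ) hrmem,
    extHom_mul φ (Γ.inv_mem hrmem) hγ]
  have : extHom Γ φ r⁻¹ + extHom Γ φ r = 0 := by
    rw [← extHom_mul φ (Γ.inv_mem hrmem) hrmem, inv_mul_cancel, extHom_one]
  linear_combination this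

/-- A "cocycle" vanishing on a generating set vanishes identically. -/
lemma cocyc_sub_coboundary_eq_zero (φ : Additive Γ →+ ℂ) (v : G ⧸ Γ → ℂ) (A : Set G)
    (hA : Subgroup.closure A = ⊤) (h : ∀ a ∈ A, cocyc Γ φ a = transl a v - v) (g : G) :
    cocyc Γ φ g = transl g v - v := by
  have hg : g ∈ Subgroup.closure A := by rw [hA]; trivial
  induction hg using Subgroup.closure_induction with
  | mem x hx => exact h x hx
  | one => rw [cocyc_one, transl_one]; simp
  | mul x y _ _ hx hy =>
    rw [cocyc_mul, hx, hy, map_sub, transl_mul_apply]; abel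
  | inv x _ hx =>
    rw [cocyc_inv, hx, map_sub, transl_inv_transl]; abel

end Cocycle

/-! ### Generalities on finite permutation modules -/

section PermModule

variable {G : Type*} [Group G] {X : Type*} [MulAction G X] [Fintype X]

/-- The sum functional on functions on a finite set. -/
def sumFun (X : Type*) [Fintype X] : (X → ℂ) →ₗ[ℂ] ℂ where
  toFun v := ∑ x, v x
  map_add' v w := by simp [Finset.sum_add_distrib]
  map_smul' c v := by simp [Finset.mul_sum]

@[simp] lemma sumFun_apply (v : X → ℂ) : sumFun X v = ∑ x, v x := rfl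

lemma sumFun_transl (g : G) (v : X → ℂ) : sumFun X (transl g v) = sumFun X v := by
  simp only [sumFun_apply, transl_apply]
  exact Fintype.sum_equiv (MulAction.toPerm g⁻¹) _ _ (fun x => rfl)

omit [Fintype X] in
lemma transl_single [DecidableEq X] (g : G) (x : X) (c : ℂ) :
    transl g (Pi.single x c : X → ℂ) = Pi.single (g • x) c := by
  ext y
  simp only [transl_apply, Pi.single_apply]
  have : g⁻¹ • y = x ↔ y = g • x := by
    constructor
    · intro h; rw [← h, smul_inv_smul]
    · intro h; rw [h, inv_smul_smul]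
  simp only [this]

/-- If `G` acts transitively, the kernel of the sum functional is contained in any submodule
containing all the ranges of `transl g - 1`. -/
lemma ker_sumFun_le [MulAction.IsPretransitive G X] (I : Submodule ℂ (X → ℂ))
    (hI : ∀ g : G, LinearMap.range (translSub g : (X → ℂ) →ₗ[ℂ] (X → ℂ)) ≤ I) :
    LinearMap.ker (sumFun X) ≤ I := by
  classical
  intro v hv
  rw [LinearMap.mem_ker, sumFun_apply] at hv
  by_cases hX : Nonempty X
  · obtain ⟨x₀⟩ := hX
    have hdecomp : v = ∑ x, (Pi.single x (v x) - Pi.single x₀ (v x) : X → ℂ) := by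
      rw [Finset.sum_sub_distrib]
      have h1 : (∑ x, (Pi.single x (v x) : X → ℂ)) = v := by
        ext y; simp [Finset.sum_apply, Pi.single_apply]
      have h2 : (∑ x, (Pi.single x₀ (v x) : X → ℂ)) = 0 := by
        ext y
        simp only [Finset.sum_apply, Pi.single_apply, Pi.zero_apply]
        by_cases hy : y = x₀
        · simp [hy, hv]
        · simp [hy]
      rw [h1, h2, sub_zero]
    rw [hdecomp]
    refine Submodule.sum_mem _ (fun x _ => ?_)
    obtain ⟨g, hg⟩ := MulAction.exists_smul_eq G x₀ x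
    apply hI g
    refine ⟨Pi.single x₀ (v x), ?_⟩
    rw [translSub_apply, transl_single, hg]
  · have : v = 0 := by
      ext x; exact (hX ⟨x⟩).elim
    rw [this]; exact I.zero_mem

omit [Fintype X] in
/-- The set of `g` such that the range of `transl g - 1` lies in a given submodule is closed under
multiplication and inverses. -/
lemma range_transl_sub_le_of_closure (I : Submodule ℂ (X → ℂ)) (A : Set G)
    (hA : Subgroup.closure A = ⊤)
    (h : ∀ a ∈ A, LinearMap.range (translSub a : (X → ℂ) →ₗ[ℂ] (X → ℂ)) ≤ I)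
    (g : G) : LinearMap.range (translSub g : (X → ℂ) →ₗ[ℂ] (X → ℂ)) ≤ I := by
  have hg : g ∈ Subgroup.closure A := by rw [hA]; trivial
  induction hg using Subgroup.closure_induction with
  | mem x hx => exact h x hx
  | one =>
    rintro _ ⟨v, rfl⟩
    rw [translSub_apply, transl_one]; simp
  | mul x y _ _ hx hy =>
    rintro _ ⟨v, rfl⟩
    have h1 : (translSub (x * y) : (X → ℂ) →ₗ[ℂ] (X → ℂ)) v
        = (translSub x : (X → ℂ) →ₗ[ℂ] (X → ℂ)) (transl y v)
          + (translSub y : (X → ℂ) →ₗ[ℂ] (X → ℂ)) v := by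
      simp only [translSub_apply, transl_mul_apply]; abel
    rw [h1]
    exact I.add_mem (hx ⟨_, rfl⟩) (hy ⟨_, rfl⟩)
  | inv x _ hx =>
    rintro _ ⟨v, rfl⟩
    have h1 : (translSub x⁻¹ : (X → ℂ) →ₗ[ℂ] (X → ℂ)) v
        = - (translSub x : (X → ℂ) →ₗ[ℂ] (X → ℂ)) (transl x⁻¹ v) := by
      simp only [translSub_apply, transl_transl_inv]; abel
    rw [h1]
    exact I.neg_mem (hx ⟨_, rfl⟩)

omit [Fintype X] in
/-- A function invariant under a generating set is constant (transitive action). -/
lemma eq_const_of_invariant [MulAction.IsPretransitive G X] (A : Set G)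
    (hA : Subgroup.closure A = ⊤) (v : X → ℂ) (h : ∀ a ∈ A, transl a v = v) (x y : X) :
    v x = v y := by
  have hall : ∀ g : G, transl g v = v := by
    intro g
    have hg : g ∈ Subgroup.closure A := by rw [hA]; trivial
    induction hg using Subgroup.closure_induction with
    | mem x hx => exact h x hx
    | one => rw [transl_one]; rfl
    | mul x y _ _ hx hy => rw [transl_mul_apply, hy, hx]
    | inv x _ hx =>
      conv_lhs => rw [← hx]
      rw [transl_inv_transl]
  obtain ⟨g, rfl⟩ := MulAction.exists_smul_eq G x y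
  have := congrFun (hall g⁻¹) x
  simpa using this.symm

end PermModule

/-! ### The norm operator of an element acting on a finite set -/

section Norm

variable {G : Type*} [Group G] {X : Type*} [MulAction G X] [Finite X]

/-- A positive integer `n` such that `g ^ n` acts trivially on `X`. -/
def actOrder (X : Type*) [MulAction G X] (g : G) : ℕ := orderOf (MulAction.toPerm g : Equiv.Perm X)

lemma actOrder_pos (g : G) : 0 < actOrder X g := by
  have : Finite (Equiv.Perm X) := inferInstance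
  exact orderOf_pos _

lemma pow_actOrder_smul (g : G) (x : X) : g ^ actOrder X g • x = x := by
  have h : (MulAction.toPerm g : Equiv.Perm X) ^ actOrder X g = 1 := pow_orderOf_eq_one _
  have h2 : (MulAction.toPerm (g ^ actOrder X g) : Equiv.Perm X) = 1 := by
    rw [← h]
    exact map_pow (MulAction.toPermHom G X) g _
  have := congrArg (fun e : Equiv.Perm X => e x) h2
  simpa using this

omit [Finite X] in
lemma transl_eq_id_of_smul_eq (g : G) (h : ∀ x : X, g • x = x) (v : X → ℂ) : transl g v = v := by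
  ext x
  rw [transl_apply]
  congr 1
  have := h (g⁻¹ • x)
  rw [smul_inv_smul] at this
  exact this.symm

/-- The operator `∑_{i < n} transl (g ^ i)` where `n = actOrder X g`. -/
def normOp (g : G) : (X → ℂ) →ₗ[ℂ] (X → ℂ) :=
  ∑ i ∈ Finset.range (actOrder X g), transl (g ^ i)

lemma normOp_apply (g : G) (v : X → ℂ) :
    normOp g v = ∑ i ∈ Finset.range (actOrder X g), transl (g ^ i) v := by
  simp [normOp, LinearMap.sum_apply]

omit [Finite X] in
lemma sum_range_shift_aux {M : Type*} [AddCommGroup M] (f : ℕ → M) (n : ℕ) (h : f n = f 0) :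
    ∑ i ∈ Finset.range n, f (i + 1) = ∑ i ∈ Finset.range n, f i := by
  have h1 := Finset.sum_range_succ' f n
  have h2 := Finset.sum_range_succ f n
  rw [h1, h] at h2
  exact add_right_cancel h2

lemma transl_pow_actOrder (g : G) (v : X → ℂ) : transl (g ^ actOrder X g) v = v :=
  transl_eq_id_of_smul_eq _ (pow_actOrder_smul g) v

lemma transl_normOp (g : G) (v : X → ℂ) : transl g (normOp g v) = normOp g v := by
  rw [normOp_apply, map_sum]
  have h1 : ∀ i, transl g (transl (g ^ i) v) = transl (g ^ (i + 1)) v := fun i => by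
    rw [← transl_mul_apply, pow_succ']
  simp only [h1]
  apply sum_range_shift_aux (fun i => transl (g ^ i) v)
  simp only [pow_zero]
  rw [transl_pow_actOrder, transl_one]; rfl

lemma normOp_transl (g : G) (v : X → ℂ) : normOp g (transl g v) = normOp g v := by
  rw [normOp_apply, normOp_apply]
  have h1 : ∀ i, transl (g ^ i) (transl g v) = transl (g ^ (i + 1)) v := fun i => by
    rw [← transl_mul_apply, pow_succ]
  simp only [h1]
  apply sum_range_shift_aux (fun i => transl (g ^ i) v)
  simp only [pow_zero]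
  rw [transl_pow_actOrder, transl_one]; rfl

lemma normOp_translSub (g : G) (v : X → ℂ) : normOp g (translSub g v) = 0 := by
  rw [translSub_apply, map_sub, normOp_transl, sub_self]

lemma normOp_of_invariant (g : G) {v : X → ℂ} (hv : transl g v = v) :
    normOp g v = (actOrder X g : ℂ) • v := by
  rw [normOp_apply]
  have h1 : ∀ i : ℕ, transl (g ^ i) v = v := by
    intro i
    induction i with
    | zero => rw [pow_zero, transl_one]; rfl
    | succ k ih => rw [pow_succ, transl_mul_apply, hv, ih]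
  simp only [h1, Finset.sum_const, Finset.card_range, Nat.cast_smul_eq_nsmul]

/-- The range of the norm operator is the space of invariants. -/
lemma range_normOp (g : G) :
    LinearMap.range (normOp g : (X → ℂ) →ₗ[ℂ] (X → ℂ)) = LinearMap.ker (translSub g) := by
  apply le_antisymm
  · rintro _ ⟨v, rfl⟩
    rw [mem_ker_translSub, transl_normOp]
  · intro v hv
    rw [mem_ker_translSub] at hv
    refine ⟨((actOrder X g : ℂ))⁻¹ • v, ?_⟩
    rw [map_smul, normOp_of_invariant g hv, smul_smul, inv_mul_cancel₀, one_smul]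
    exact_mod_cast (actOrder_pos g).ne'

/-- Powers of the cocycle: `cocyc (g ^ n) = ∑_{i<n} transl (g^i) (cocyc g)`. -/
lemma cocyc_pow {G : Type*} [Group G] (Γ : Subgroup G) (φ : Additive Γ →+ ℂ) (g : G) (n : ℕ) :
    cocyc Γ φ (g ^ n) = ∑ i ∈ Finset.range n, transl (g ^ i) (cocyc Γ φ g) := by
  induction n with
  | zero => simp [cocyc_one]
  | succ k ih => rw [pow_succ, cocyc_mul, ih, Finset.sum_range_succ]

end Norm

/-! ### The main bound for `SL(2, ℤ)` -/

section Main

variable (Γ : Subgroup SL(2, ℤ))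

/-- The element `U = S * T` of order `6` (order `3` in `PSL(2, ℤ)`). -/
def elU : SL(2, ℤ) := S * T

lemma S_mul_S : S * S = (-1 : SL(2, ℤ)) := by decide

lemma elU_cube : elU * elU * elU = (-1 : SL(2, ℤ)) := by decide

lemma S_inv_mul_elU : S⁻¹ * elU = T := by
  rw [elU, inv_mul_cancel_left]

lemma closure_S_elU : Subgroup.closure ({S, elU} : Set SL(2, ℤ)) = ⊤ := by
  rw [eq_top_iff, ← SpecialLinearGroup.SL2Z_generators, Subgroup.closure_le]
  rintro x (rfl | rfl)
  · exact Subgroup.subset_closure (by simp)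
  · rw [← S_inv_mul_elU]
    exact Subgroup.mul_mem _ (Subgroup.inv_mem _ (Subgroup.subset_closure (by simp)))
      (Subgroup.subset_closure (by simp))

variable {Γ}

lemma neg_one_smul_coset (hneg : (-1 : SL(2, ℤ)) ∈ Γ) (x : SL(2, ℤ) ⧸ Γ) :
    (-1 : SL(2, ℤ)) • x = x := by
  induction x using QuotientGroup.induction_on with
  | H g =>
    rw [MulAction.Quotient.smul_coe, smul_eq_mul, QuotientGroup.eq]
    have : (-1 * g)⁻¹ * g = (-1 : SL(2, ℤ)) := by
      rw [neg_mul, one_mul, inv_neg, neg_mul, inv_mul_cancel]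
    rw [this]; exact hneg

lemma transl_neg_one (hneg : (-1 : SL(2, ℤ)) ∈ Γ) (v : SL(2, ℤ) ⧸ Γ → ℂ) :
    transl (-1 : SL(2, ℤ)) v = v :=
  transl_eq_id_of_smul_eq _ (neg_one_smul_coset hneg) v

lemma cocyc_neg_one (hneg : (-1 : SL(2, ℤ)) ∈ Γ) (φ : Additive Γ →+ ℂ) :
    cocyc Γ φ (-1) = 0 := by
  have h := cocyc_mul Γ φ (-1) (-1)
  rw [neg_mul_neg, one_mul, cocyc_one, transl_neg_one hneg] at h
  have h2 : (2 : ℂ) • cocyc Γ φ (-1) = 0 := by rw [two_smul]; exact h.symm
  exact (smul_eq_zero.mp h2).resolve_left two_ne_zero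

/-- `(1 + S) z(S) = 0`. -/
lemma cocyc_S_add (hneg : (-1 : SL(2, ℤ)) ∈ Γ) (φ : Additive Γ →+ ℂ) :
    cocyc Γ φ S + transl S (cocyc Γ φ S) = 0 := by
  rw [← cocyc_mul, S_mul_S, cocyc_neg_one hneg]

/-- `(1 + U + U²) z(U) = 0`. -/
lemma cocyc_U_add (hneg : (-1 : SL(2, ℤ)) ∈ Γ) (φ : Additive Γ →+ ℂ) :
    cocyc Γ φ elU + transl elU (cocyc Γ φ elU) + transl (elU * elU) (cocyc Γ φ elU) = 0 := by
  rw [← cocyc_mul, ← cocyc_mul, elU_cube, cocyc_neg_one hneg]

lemma cocyc_T_eq (φ : Additive Γ →+ ℂ) :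
    cocyc Γ φ T = transl S⁻¹ (cocyc Γ φ elU - cocyc Γ φ S) := by
  rw [← S_inv_mul_elU, cocyc_mul, cocyc_inv, map_sub]; abel

lemma trace_conj (a b : SL(2, ℤ)) :
    ((a⁻¹ * b * a : SL(2, ℤ)) : Matrix (Fin 2) (Fin 2) ℤ).trace
      = (b : Matrix (Fin 2) (Fin 2) ℤ).trace := by
  have h1 : ((a⁻¹ * b * a : SL(2, ℤ)) : Matrix (Fin 2) (Fin 2) ℤ)
      = ((a⁻¹ * b : SL(2, ℤ)) : Matrix (Fin 2) (Fin 2) ℤ) * (a : Matrix (Fin 2) (Fin 2) ℤ) :=
    Matrix.SpecialLinearGroup.coe_mul _ _
  have h2 : (a : Matrix (Fin 2) (Fin 2) ℤ) * ((a⁻¹ * b : SL(2, ℤ)) : Matrix (Fin 2) (Fin 2) ℤ)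
      = (b : Matrix (Fin 2) (Fin 2) ℤ) := by
    rw [← Matrix.SpecialLinearGroup.coe_mul, mul_inv_cancel_left]
  rw [h1, Matrix.trace_mul_comm, h2]

lemma trace_T_pow (n : ℕ) : ((T ^ n : SL(2, ℤ)) : Matrix (Fin 2) (Fin 2) ℤ).trace = 2 := by
  have h := coe_T_zpow (n : ℤ)
  rw [zpow_natCast] at h
  change ((T ^ n : SL(2, ℤ)) : Matrix (Fin 2) (Fin 2) ℤ) = _ at h
  rw [h, Matrix.trace_fin_two_of]; norm_num

open ModularCurve.Period in
/-- For a parabolic homomorphism the cocycle vanishes at `T ^ n`, `n` the order of `T` on the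
coset space. -/
lemma cocyc_T_pow_eq_zero [Γ.FiniteIndex] (φ : Additive Γ →+ ℂ)
    (hφ : φ ∈ parabolicHoms ℂ Γ ℂ) :
    cocyc Γ φ (T ^ actOrder (SL(2, ℤ) ⧸ Γ) T) = 0 := by
  ext x
  simp only [cocyc, Pi.zero_apply]
  set n := actOrder (SL(2, ℤ) ⧸ Γ) T with hn
  have hfix : (T ^ n)⁻¹ • x = x := by
    have := pow_actOrder_smul (X := SL(2, ℤ) ⧸ Γ) T x
    rw [← hn] at this
    rw [inv_smul_eq_iff, this]
  have hmem := cosetElt_mem Γ (T ^ n) x
  rw [extHom_of_mem φ hmem]
  apply hφ ⟨_, hmem⟩
  simp only [cosetElt, hfix]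
  rw [trace_conj, trace_T_pow]; norm_num

end Main

end

end Fermat.Agent.ES
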