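import Mathlib

/-!
# Taylor expansion at a point of `ℍ` as a ring homomorphism (P1 / AN-21)
-/

set_option autoImplicit false
set_option linter.unusedSectionVars false
set_option linter.unusedVariables false

namespace Fermat.Agent.ES

open Filter Topology Function Complex
open UpperHalfPlane hiding I
open scoped Manifold PowerSeries

/-! ### Taylor series of a function `ℂ → ℂ` at a point -/

/-- the Taylor series of `F` at `c` -/
noncomputable def taylorAt (c : ℂ) (F : ℂ → ℂ) : PowerSeries ℂ :=
  PowerSeries.mk fun n => iteratedDeriv n F c / n.factorial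

theorem taylorAt_coeff (c : ℂ) (F : ℂ → ℂ) (n : ℕ) :
    (taylorAt c F).coeff n = iteratedDeriv n F c / n.factorial := by
  simp [taylorAt]

variable {c : ℂ} {F G : ℂ → ℂ}

theorem taylorAt_congr (h : F =ᶠ[𝓝 c] G) : taylorAt c F = taylorAt c G := by
  ext n
  rw [taylorAt_coeff, taylorAt_coeff, h.iteratedDeriv_eq n]

theorem taylorAt_add (hF : AnalyticAt ℂ F c) (hG : AnalyticAt ℂ G c) :
    taylorAt c (F + G) = taylorAt c F + taylorAt c G := by
  ext n
  simp only [taylorAt_coeff, map_add, iteratedDeriv_add hF.contDiffAt hG.contDiffAt, add_div]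

theorem taylorAt_mul (hF : AnalyticAt ℂ F c) (hG : AnalyticAt ℂ G c) :
    taylorAt c (F * G) = taylorAt c F * taylorAt c G := by
  ext n
  simp only [taylorAt_coeff, iteratedDeriv_mul hF.contDiffAt hG.contDiffAt, Finset.sum_div,
    PowerSeries.coeff_mul, Finset.Nat.sum_antidiagonal_eq_sum_range_succ_mk, Nat.succ_eq_add_one]
  refine Finset.sum_congr rfl fun i hi ↦ ?_
  rw [Nat.cast_choose _ (by grind)]
  field_simp [Nat.factorial_ne_zero]

theorem taylorAt_const (c a : ℂ) : taylorAt c (fun _ => a) = PowerSeries.C a := by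
  ext n
  rw [taylorAt_coeff, PowerSeries.coeff_C]
  have h2 : iteratedDeriv n (fun _ : ℂ => a) c = if n = 0 then a else 0 :=
    iteratedDeriv_const
  rw [h2]
  split_ifs with hn
  · subst hn
    simp
  · simp

theorem taylorAt_neg (hF : AnalyticAt ℂ F c) : taylorAt c (-F) = -taylorAt c F := by
  have h1 : (-F) = (fun _ => (-1 : ℂ)) * F := by
    ext z
    simp
  rw [h1, taylorAt_mul analyticAt_const hF, taylorAt_const, map_neg, map_one, neg_one_mul]

theorem taylorAt_deriv (hF : AnalyticAt ℂ F c) :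
    taylorAt c (deriv F) = PowerSeries.derivative ℂ (taylorAt c F) := by
  ext n
  rw [PowerSeries.coeff_derivative, taylorAt_coeff, taylorAt_coeff, ← iteratedDeriv_succ',
    Nat.factorial_succ]
  have h1 : ((n + 1 : ℕ) : ℂ) ≠ 0 := by exact_mod_cast Nat.succ_ne_zero n
  have h2 : ((n.factorial : ℕ) : ℂ) ≠ 0 := by exact_mod_cast Nat.factorial_ne_zero n
  push_cast
  field_simp

/-- the order of the Taylor series is the analytic order -/
theorem order_taylorAt (hF : AnalyticAt ℂ F c) :
    (taylorAt c F).order = analyticOrderAt F c := by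
  refine ENat.eq_of_forall_natCast_le_iff fun n => ?_
  rw [natCast_le_analyticOrderAt_iff_iteratedDeriv_eq_zero hF]
  constructor
  · intro h i hi
    have := PowerSeries.coeff_of_lt_order i (lt_of_lt_of_le (by exact_mod_cast hi) h)
    rw [taylorAt_coeff, div_eq_zero_iff] at this
    rcases this with h0 | h0
    · exact h0
    · exact absurd h0 (by exact_mod_cast Nat.factorial_ne_zero i)
  · intro h
    refine PowerSeries.nat_le_order _ n fun i hi => ?_
    rw [taylorAt_coeff, h i hi, zero_div]

theorem taylorAt_eq_zero_iff (hF : AnalyticAt ℂ F c) : taylorAt c F = 0 ↔ F =ᶠ[𝓝 c] 0 := by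
  rw [← PowerSeries.order_eq_top, order_taylorAt hF, analyticOrderAt_eq_top]
  rfl

/-! ### Taylor expansion at a point of the upper half plane -/

/-- the Taylor expansion of `g : ℍ → ℂ` at `z0` -/
noncomputable def taylorH (z0 : ℍ) (g : ℍ → ℂ) : PowerSeries ℂ :=
  PowerSeries.mk fun n => iteratedDeriv n (g ∘ ofComplex) z0 / n.factorial

theorem taylorH_eq_taylorAt (z0 : ℍ) (g : ℍ → ℂ) :
    taylorH z0 g = taylorAt (z0 : ℂ) (g ∘ ofComplex) := rfl

theorem taylorH_coeff (z0 : ℍ) (g : ℍ → ℂ) (n : ℕ) :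
    (taylorH z0 g).coeff n = iteratedDeriv n (g ∘ ofComplex) z0 / n.factorial :=
  taylorAt_coeff _ _ n

variable {f g : ℍ → ℂ} {z0 : ℍ}

/-- a holomorphic function on `ℍ` is analytic at every point, in the coordinate of `ℂ` -/
theorem analyticAt_comp_ofComplex (hf : MDiff f) (z0 : ℍ) :
    AnalyticAt ℂ (f ∘ ofComplex) (z0 : ℂ) := by
  rw [mdifferentiable_iff] at hf
  exact hf.analyticAt (isOpen_upperHalfPlaneSet.mem_nhds z0.im_pos)

theorem analyticOnNhd_comp_ofComplex (hf : MDiff f) :
    AnalyticOnNhd ℂ (f ∘ ofComplex) upperHalfPlaneSet := by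
  rw [mdifferentiable_iff] at hf
  exact hf.analyticOnNhd isOpen_upperHalfPlaneSet

theorem taylorH_add (hf : MDiff f) (hg : MDiff g) (z0 : ℍ) :
    taylorH z0 (fun z => f z + g z) = taylorH z0 f + taylorH z0 g :=
  taylorAt_add (analyticAt_comp_ofComplex hf z0) (analyticAt_comp_ofComplex hg z0)

theorem taylorH_mul (hf : MDiff f) (hg : MDiff g) (z0 : ℍ) :
    taylorH z0 (fun z => f z * g z) = taylorH z0 f * taylorH z0 g :=
  taylorAt_mul (analyticAt_comp_ofComplex hf z0) (analyticAt_comp_ofComplex hg z0)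

theorem taylorH_neg (hf : MDiff f) (z0 : ℍ) :
    taylorH z0 (fun z => -f z) = -taylorH z0 f :=
  taylorAt_neg (analyticAt_comp_ofComplex hf z0)

theorem taylorH_const (z0 : ℍ) (a : ℂ) : taylorH z0 (fun _ => a) = PowerSeries.C a :=
  taylorAt_const _ a

theorem order_taylorH (hf : MDiff f) (z0 : ℍ) :
    (taylorH z0 f).order = analyticOrderAt (f ∘ ofComplex) (z0 : ℂ) :=
  order_taylorAt (analyticAt_comp_ofComplex hf z0)

theorem taylorH_eq_zero_iff (hf : MDiff f) (z0 : ℍ) : taylorH z0 f = 0 ↔ f = 0 := by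
  rw [taylorH_eq_taylorAt, taylorAt_eq_zero_iff (analyticAt_comp_ofComplex hf z0)]
  constructor
  · intro h0
    have hconn : IsPreconnected upperHalfPlaneSet :=
      (convex_halfSpace_im_gt 0).isPreconnected
    have := (analyticOnNhd_comp_ofComplex hf).eqOn_zero_of_preconnected_of_eventuallyEq_zero
      hconn z0.im_pos h0
    ext z
    have hz := this z.im_pos
    simpa using hz
  · rintro rfl
    exact Eventually.of_forall fun _ => rfl

/-- compatibility with the derivative -/
theorem taylorH_deriv (hf : MDiff f) (z0 : ℍ) :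
    taylorH z0 (fun z => deriv (f ∘ ofComplex) z) = PowerSeries.derivative ℂ (taylorH z0 f) := by
  rw [taylorH_eq_taylorAt, taylorH_eq_taylorAt, ← taylorAt_deriv (analyticAt_comp_ofComplex hf z0)]
  refine taylorAt_congr ?_
  filter_upwards [isOpen_upperHalfPlaneSet.mem_nhds z0.im_pos] with w hw
  simp only [Function.comp, ofComplex_apply_of_im_pos hw]

end Fermat.Agent.ES
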